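import Mathlib
import Fermat.Prelude.Def_AlgebraicCurve_CanonicalDivisor

set_option autoImplicit false
set_option linter.style.haveILetI false
set_option linter.unusedVariables false
set_option linter.unusedSectionVars false

namespace Fermat.Agent.S24Aux

open KaehlerDifferential Polynomial AlgebraicCurve

section A3

variable {K F : Type*} [Field K] [Field F] [Algebra K F] [CharZero K]

/-- core of A3: if `F` is algebraic over `K[y]`, `y` transcendental, then `Ω[F⁄K] ≃ F`, `D y ↦ 1`. -/
theorem exists_kaehler_equiv (y : F) (hy : Transcendental K y)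
    (halg : Algebra.IsAlgebraic (Algebra.adjoin K {y}) F) :
    ∃ Ψ : Ω[F⁄K] ≃ₗ[F] F, Ψ (D K F y) = 1 := by
  letI : Algebra K[X] F := (Polynomial.aeval y).toAlgebra
  have hmap : ∀ p : K[X], algebraMap K[X] F p = Polynomial.aeval y p := fun p => rfl
  haveI : IsScalarTower K K[X] F := IsScalarTower.of_algebraMap_eq fun a => by
    rw [hmap, Polynomial.algebraMap_eq, Polynomial.aeval_C]
  haveI : FaithfulSMul K[X] F :=
    (faithfulSMul_iff_algebraMap_injective _ _).mpr (transcendental_iff_injective.mp hy)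
  letI : Algebra (RatFunc K) F := RatFunc.liftAlgebra K F
  haveI : IsScalarTower K[X] (RatFunc K) F := RatFunc.isScalarTower_liftAlgebra K F
  haveI h1 : Algebra.IsAlgebraic K[X] F := by
    let f : K[X] →+* Algebra.adjoin K {y} :=
      ((Polynomial.aeval y).codRestrict (Algebra.adjoin K {y}) (fun p => by
        rw [Algebra.adjoin_singleton_eq_range_aeval]; exact ⟨p, rfl⟩) : K[X] →ₐ[K] _)
    refine Algebra.IsAlgebraic.of_ringHom_of_comp_eq f (RingHom.id F) ?_ Function.injective_id ?_
    · rintro ⟨z, hz⟩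
      rw [Algebra.adjoin_singleton_eq_range_aeval] at hz
      obtain ⟨p, rfl⟩ := hz
      exact ⟨p, rfl⟩
    · ext <;> rfl
  haveI h2 : Algebra.IsAlgebraic (RatFunc K) F :=
    (IsFractionRing.comap_isAlgebraic_iff (A := K[X]) (K := RatFunc K) (C := F)).mp h1
  haveI : Algebra.FormallyEtale K[X] (RatFunc K) :=
    Algebra.FormallyEtale.of_isLocalization (nonZeroDivisors K[X])
  haveI : Algebra.FormallyEtale (RatFunc K) F := Algebra.FormallyEtale.of_isSeparable _ _
  haveI : Algebra.FormallyEtale K[X] F := Algebra.FormallyEtale.comp K[X] (RatFunc K) F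
  let e1 := KaehlerDifferential.tensorKaehlerEquivOfFormallyEtale K K[X] F
  let e2 : TensorProduct K[X] F Ω[K[X]⁄K] ≃ₗ[F] TensorProduct K[X] F K[X] :=
    TensorProduct.AlgebraTensorModule.congr (LinearEquiv.refl F F)
      (KaehlerDifferential.polynomialEquiv K)
  let e3 : TensorProduct K[X] F K[X] ≃ₗ[F] F := TensorProduct.AlgebraTensorModule.rid K[X] F F
  refine ⟨e1.symm ≪≫ₗ e2 ≪≫ₗ e3, ?_⟩
  have hy' : y = algebraMap K[X] F X := by rw [hmap, Polynomial.aeval_X]
  rw [LinearEquiv.trans_apply, LinearEquiv.trans_apply, hy',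
    KaehlerDifferential.tensorKaehlerEquivOfFormallyEtale_symm_D_algebraMap]
  simp [e2, e3]


omit [CharZero K] in
theorem isAlgebraic_adjoin_of_trdeg (htr : Algebra.trdeg K F = 1) (y : F)
    (hy : Transcendental K y) : Algebra.IsAlgebraic (Algebra.adjoin K {y}) F := by
  have hind : AlgebraicIndependent K (fun _ : Unit => y) :=
    (algebraicIndependent_unique_type_iff (ι := Unit) (x := fun _ : Unit => y)).mpr hy
  have hb : IsTranscendenceBasis K (fun _ : Unit => y) :=
    hind.isTranscendenceBasis_of_lift_trdeg_le_of_finite (by rw [htr]; simp)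
  have := hb.isAlgebraic
  have hr : Set.range (fun _ : Unit => y) = {y} := Set.range_const
  rwa [hr] at this

theorem exists_kaehler_equiv' (htr : Algebra.trdeg K F = 1) (y : F) (hy : Transcendental K y) :
    ∃ Ψ : Ω[F⁄K] ≃ₗ[F] F, Ψ (D K F y) = 1 :=
  exists_kaehler_equiv y hy (isAlgebraic_adjoin_of_trdeg htr y hy)

theorem D_ne_zero (htr : Algebra.trdeg K F = 1) (y : F) (hy : Transcendental K y) :
    D K F y ≠ 0 := by
  obtain ⟨Ψ, hΨ⟩ := exists_kaehler_equiv' htr y hy
  intro h
  rw [h, map_zero] at hΨ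
  exact zero_ne_one hΨ

theorem exists_eq_smul_D (htr : Algebra.trdeg K F = 1) (y : F) (hy : Transcendental K y)
    (ω : Ω[F⁄K]) : ∃ c : F, ω = c • D K F y := by
  obtain ⟨Ψ, hΨ⟩ := exists_kaehler_equiv' htr y hy
  refine ⟨Ψ ω, Ψ.injective ?_⟩
  rw [map_smul, hΨ, smul_eq_mul, mul_one]

theorem span_D_eq_top (htr : Algebra.trdeg K F = 1) (y : F) (hy : Transcendental K y) :
    Submodule.span F {D K F y} = ⊤ := by
  rw [eq_top_iff]
  intro ω _
  obtain ⟨c, rfl⟩ := exists_eq_smul_D htr y hy ω
  exact Submodule.smul_mem _ _ (Submodule.mem_span_singleton_self _)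

omit [CharZero K] in
theorem exists_transcendental (htr : Algebra.trdeg K F = 1) : ∃ y : F, Transcendental K y := by
  by_contra h
  push Not at h
  haveI : Algebra.IsAlgebraic K F := ⟨fun y => by simpa [Transcendental] using h y⟩
  have := trdeg_eq_zero (R := K) (A := F)
  rw [htr] at this
  exact one_ne_zero this

theorem nontrivial_kaehler (htr : Algebra.trdeg K F = 1) : Nontrivial Ω[F⁄K] := by
  obtain ⟨y, hy⟩ := exists_transcendental htr
  exact ⟨⟨D K F y, 0, D_ne_zero htr y hy⟩⟩

omit [CharZero K] in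
/-- elements algebraic over `K` have order `0` at every place. -/
theorem ord_eq_zero_of_isAlgebraic (v : Place K F) (u : F) (hu : IsAlgebraic K u) :
    v.ord u = 0 := by
  rcases eq_or_ne u 0 with rfl | hu0
  · simp
  have key : ∀ w : F, IsAlgebraic K w → w ∈ v.toValuationSubring := by
    intro w hw
    have h1 : IsIntegral K w := hw.isIntegral
    have h2 : IsIntegral v.toValuationSubring w := h1.tower_top
    obtain ⟨a, ha⟩ := IsIntegrallyClosed.isIntegral_iff.mp h2
    rw [← ha]
    exact a.2
  have h1 := key u hu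
  have h2 := key u⁻¹ hu.inv
  let U : v.toValuationSubringˣ := ⟨⟨u, h1⟩, ⟨u⁻¹, h2⟩, by ext; simp [hu0], by ext; simp [hu0]⟩
  exact v.ord_coe_unit U

omit [CharZero K] in
theorem transcendental_of_ord_ne_zero (v : Place K F) (u : F) (hu : v.ord u ≠ 0) :
    Transcendental K u := fun h => hu (ord_eq_zero_of_isAlgebraic v u h)

omit [CharZero K] in
theorem exists_dCoord_eq (v : Place K F) : ∃ u : F, v.ord u = 1 ∧ v.dCoord = D K F u :=
  ⟨((IsDiscreteValuationRing.exists_irreducible v.toValuationSubring).choose : F),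
    v.ord_coe_irreducible (IsDiscreteValuationRing.exists_irreducible v.toValuationSubring).choose_spec,
    rfl⟩

theorem dCoordGenerates (htr : Algebra.trdeg K F = 1) (v : Place K F) : v.DCoordGenerates := by
  obtain ⟨u, hu, hd⟩ := exists_dCoord_eq v
  refine ⟨?_⟩
  rw [hd]
  exact span_D_eq_top htr u (transcendental_of_ord_ne_zero v u (by rw [hu]; exact one_ne_zero))

end A3

end Fermat.Agent.S24Aux
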