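/-
S24 helper library: ℤ-valued additive valuations and the basic API of places.
-/
import Mathlib
import Fermat.Prelude.Def_AlgebraicCurve_CanonicalDivisor

set_option autoImplicit false

namespace Fermat.Agent.S24Aux

open AlgebraicCurve

/-- A ℤ-valued additive valuation on a field (the value at `0` is junk). -/
structure AddVal (L : Type*) [Field L] where
  ord : L → ℤ
  map_mul : ∀ {x y : L}, x ≠ 0 → y ≠ 0 → ord (x * y) = ord x + ord y
  map_add : ∀ {x y : L}, x ≠ 0 → y ≠ 0 → x + y ≠ 0 → min (ord x) (ord y) ≤ ord (x + y)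

namespace AddVal

variable {L : Type*} [Field L] (w : AddVal L)

theorem map_one : w.ord 1 = 0 := by
  have := w.map_mul (one_ne_zero (α := L)) one_ne_zero
  rw [one_mul] at this
  omega

theorem map_neg_one : w.ord (-1) = 0 := by
  have := w.map_mul (neg_ne_zero.mpr (one_ne_zero (α := L))) (neg_ne_zero.mpr one_ne_zero)
  rw [neg_mul_neg, one_mul, w.map_one] at this
  omega

theorem map_neg (x : L) : w.ord (-x) = w.ord x := by
  rcases eq_or_ne x 0 with rfl | hx
  · rw [neg_zero]
  · rw [← neg_one_mul, w.map_mul (neg_ne_zero.mpr one_ne_zero) hx, w.map_neg_one, zero_add]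

theorem map_inv {x : L} (hx : x ≠ 0) : w.ord x⁻¹ = - w.ord x := by
  have := w.map_mul hx (inv_ne_zero hx)
  rw [mul_inv_cancel₀ hx, w.map_one] at this
  omega

theorem map_div {x y : L} (hx : x ≠ 0) (hy : y ≠ 0) : w.ord (x / y) = w.ord x - w.ord y := by
  rw [div_eq_mul_inv, w.map_mul hx (inv_ne_zero hy), w.map_inv hy]; ring

theorem map_pow {x : L} (hx : x ≠ 0) (n : ℕ) : w.ord (x ^ n) = n * w.ord x := by
  induction n with
  | zero => simp [w.map_one]
  | succ n ih => rw [pow_succ, w.map_mul (pow_ne_zero n hx) hx, ih]; push_cast; ring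

theorem map_zpow {x : L} (hx : x ≠ 0) (n : ℤ) : w.ord (x ^ n) = n * w.ord x := by
  cases n with
  | ofNat n => simpa using w.map_pow hx n
  | negSucc n =>
    rw [zpow_negSucc, w.map_inv (pow_ne_zero _ hx), w.map_pow hx]
    push_cast [Int.negSucc_eq]; ring

theorem map_sub {x y : L} (hx : x ≠ 0) (hy : y ≠ 0) (hxy : x - y ≠ 0) :
    min (w.ord x) (w.ord y) ≤ w.ord (x - y) := by
  have := w.map_add hx (neg_ne_zero.mpr hy) (by rwa [← sub_eq_add_neg])
  rwa [w.map_neg, ← sub_eq_add_neg] at this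

/-- `n ≤ ord x`, with the convention `ord 0 = ∞`. -/
def Ge (n : ℤ) (x : L) : Prop := x = 0 ∨ n ≤ w.ord x

theorem ge_zero (n : ℤ) : w.Ge n 0 := Or.inl rfl

theorem ge_iff {n : ℤ} {x : L} (hx : x ≠ 0) : w.Ge n x ↔ n ≤ w.ord x :=
  ⟨fun h => h.resolve_left hx, Or.inr⟩

theorem Ge.mono {n m : ℤ} {x : L} (h : w.Ge n x) (hmn : m ≤ n) : w.Ge m x :=
  h.imp id (fun h => hmn.trans h)

theorem Ge.add {n : ℤ} {x y : L} (hx : w.Ge n x) (hy : w.Ge n y) : w.Ge n (x + y) := by
  rcases eq_or_ne x 0 with rfl | hx0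
  · rwa [zero_add]
  rcases eq_or_ne y 0 with rfl | hy0
  · rwa [add_zero]
  rcases eq_or_ne (x + y) 0 with h | h
  · exact Or.inl h
  · exact Or.inr ((le_min ((w.ge_iff hx0).mp hx) ((w.ge_iff hy0).mp hy)).trans
      (w.map_add hx0 hy0 h))

theorem Ge.neg {n : ℤ} {x : L} (hx : w.Ge n x) : w.Ge n (-x) := by
  rcases hx with rfl | h
  · rw [neg_zero]; exact w.ge_zero n
  · exact Or.inr (by rwa [w.map_neg])

theorem Ge.sub {n : ℤ} {x y : L} (hx : w.Ge n x) (hy : w.Ge n y) : w.Ge n (x - y) := by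
  rw [sub_eq_add_neg]; exact hx.add w hy.neg

theorem Ge.mul {n m : ℤ} {x y : L} (hx : w.Ge n x) (hy : w.Ge m y) : w.Ge (n + m) (x * y) := by
  rcases eq_or_ne x 0 with rfl | hx0
  · rw [zero_mul]; exact w.ge_zero _
  rcases eq_or_ne y 0 with rfl | hy0
  · rw [mul_zero]; exact w.ge_zero _
  · refine Or.inr ?_
    rw [w.map_mul hx0 hy0]
    exact add_le_add ((w.ge_iff hx0).mp hx) ((w.ge_iff hy0).mp hy)

theorem Ge.sum {ι : Type*} {n : ℤ} (s : Finset ι) (f : ι → L) (h : ∀ i ∈ s, w.Ge n (f i)) :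
    w.Ge n (∑ i ∈ s, f i) := by
  classical
  induction s using Finset.induction_on with
  | empty => simpa using w.ge_zero n
  | insert a s ha ih =>
    rw [Finset.sum_insert ha]
    exact (h a (Finset.mem_insert_self a s)).add w
      (ih fun i hi => h i (Finset.mem_insert_of_mem hi))

theorem Ge.pow {n : ℤ} {x : L} (hx : w.Ge n x) (k : ℕ) : w.Ge (k * n) (x ^ k) := by
  induction k with
  | zero =>
    rw [pow_zero, Nat.cast_zero, zero_mul]
    exact Or.inr (le_of_eq w.map_one.symm)
  | succ k ih =>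
    rw [pow_succ]
    have := ih.mul w hx
    convert this using 1
    push_cast; ring

/-- an element with arbitrarily large order is zero -/
theorem eq_zero_of_forall_ge {x : L} (h : ∀ n : ℤ, w.Ge n x) : x = 0 := by
  by_contra hx
  have := (w.ge_iff hx).mp (h (w.ord x + 1))
  omega

/-- the ultrametric equality -/
theorem ord_add_of_lt {x y : L} (hx : x ≠ 0) (hy : w.Ge (w.ord x + 1) y) :
    x + y ≠ 0 ∧ w.ord (x + y) = w.ord x := by
  rcases eq_or_ne y 0 with rfl | hy0
  · rw [add_zero]; exact ⟨hx, rfl⟩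
  have hy' := (w.ge_iff hy0).mp hy
  have hne : x + y ≠ 0 := by
    intro h
    have : x = -y := eq_neg_of_add_eq_zero_left h
    rw [this, w.map_neg] at hy'
    omega
  refine ⟨hne, le_antisymm ?_ ?_⟩
  · have := w.map_sub hne hy0 (by rwa [add_sub_cancel_right])
    rw [add_sub_cancel_right] at this
    rcases min_le_iff.mp this with h | h
    · exact h
    · omega
  · have := w.map_add hx hy0 hne
    rwa [min_eq_left (by omega)] at this

/-- pull back along a field embedding -/
def comap {F : Type*} [Field F] (ι : F →+* L) : AddVal F where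
  ord f := w.ord (ι f)
  map_mul hx hy := by
    rw [_root_.map_mul]; exact w.map_mul ((map_ne_zero ι).mpr hx) ((map_ne_zero ι).mpr hy)
  map_add hx hy hxy := by
    rw [_root_.map_add]
    exact w.map_add ((map_ne_zero ι).mpr hx) ((map_ne_zero ι).mpr hy)
      (by rw [← _root_.map_add]; exact (map_ne_zero ι).mpr hxy)

@[simp] theorem comap_ord {F : Type*} [Field F] (ι : F →+* L) (f : F) :
    (w.comap ι).ord f = w.ord (ι f) := rfl

end AddVal

end Fermat.Agent.S24Aux
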