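/-
S24 helper library: API for `AlgebraicCurve.Place`.
-/
import Fermat.Agent.S24.Basic

set_option autoImplicit false
set_option linter.style.haveILetI false

namespace Fermat.Agent.S24Aux

open AlgebraicCurve IntermediateField

variable {K F : Type*} [Field K] [Field F] [Algebra K F]

/-- (PL1) -/
theorem Place.mem_iff (v : Place K F) {f : F} (hf : f ≠ 0) :
    f ∈ v.toValuationSubring ↔ 0 ≤ v.ord f := by
  obtain ⟨π, hπ⟩ := IsDiscreteValuationRing.exists_irreducible v.toValuationSubring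
  obtain ⟨u, hu⟩ := v.exists_unit_mul_zpow hf hπ
  have hπ0 : (π : F) ≠ 0 := by
    simpa [ne_eq, ZeroMemClass.coe_eq_zero] using hπ.ne_zero
  constructor
  · intro hmem
    by_contra hneg
    push Not at hneg
    obtain ⟨k, hk⟩ : ∃ k : ℕ, v.ord f = -((k : ℤ) + 1) := ⟨(-(v.ord f) - 1).toNat, by omega⟩
    rw [hk, zpow_neg, ← Nat.cast_succ, zpow_natCast] at hu
    have h1 : (⟨f, hmem⟩ : v.toValuationSubring) * π ^ (k + 1) = u := by
      ext
      show f * (π : F) ^ (k + 1) = _
      rw [hu, mul_assoc, inv_mul_cancel₀ (pow_ne_zero _ hπ0), mul_one]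
    have h2 : π ∣ (u : v.toValuationSubring) := by
      rw [← h1, pow_succ, ← mul_assoc]
      exact Dvd.intro_left _ rfl
    exact hπ.not_isUnit (isUnit_of_dvd_unit h2 u.isUnit)
  · intro hnn
    obtain ⟨k, hk⟩ := Int.eq_ofNat_of_zero_le hnn
    rw [hu, hk, zpow_natCast]
    exact ((u : v.toValuationSubring) * π ^ k).2

/-- (PL2) -/
theorem Place.ord_add (v : Place K F) {x y : F} (hx : x ≠ 0) (hy : y ≠ 0) (hxy : x + y ≠ 0) :
    min (v.ord x) (v.ord y) ≤ v.ord (x + y) := by
  have key : ∀ {a b : F}, a ≠ 0 → b ≠ 0 → a + b ≠ 0 → v.ord a ≤ v.ord b →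
      v.ord a ≤ v.ord (a + b) := by
    intro a b ha hb hab hle
    have h1 : b / a ∈ v.toValuationSubring := by
      rw [Place.mem_iff v (div_ne_zero hb ha), div_eq_mul_inv, v.ord_mul hb (inv_ne_zero ha),
        v.ord_inv]
      omega
    have h2 : 1 + b / a ∈ v.toValuationSubring := add_mem (one_mem _) h1
    have h3 : a + b = a * (1 + b / a) := by field_simp
    have h4 : 1 + b / a ≠ 0 := by
      intro h
      rw [h, mul_zero] at h3
      exact hab h3
    rw [h3, v.ord_mul ha h4]
    have := (Place.mem_iff v h4).mp h2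
    omega
  rcases le_total (v.ord x) (v.ord y) with h | h
  · rw [min_eq_left h]; exact key hx hy hxy h
  · rw [min_eq_right h, add_comm]; exact key hy hx (by rwa [add_comm]) h

/-- the additive valuation of a place -/
noncomputable def Place.addVal (v : Place K F) : AddVal F where
  ord := v.ord
  map_mul hx hy := v.ord_mul hx hy
  map_add hx hy hxy := Place.ord_add v hx hy hxy

@[simp] theorem Place.addVal_ord (v : Place K F) (f : F) : (Place.addVal v).ord f = v.ord f := rfl

/-- (PL3) -/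
theorem Place.ord_algebraMap (v : Place K F) {c : K} (hc : c ≠ 0) :
    v.ord (algebraMap K F c) = 0 := by
  have h0 : algebraMap K F c ≠ 0 := (map_ne_zero _).mpr hc
  have h1 := (Place.mem_iff v h0).mp (v.algebraMap_mem' c)
  have h2 := (Place.mem_iff v (inv_ne_zero h0)).mp (by
    rw [← map_inv₀]; exact v.algebraMap_mem' c⁻¹)
  rw [v.ord_inv] at h2
  omega

/-- (PL4) -/
theorem Place.exists_ord_eq_one (v : Place K F) : ∃ π : F, v.ord π = 1 := by
  obtain ⟨π, hπ⟩ := IsDiscreteValuationRing.exists_irreducible v.toValuationSubring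
  exact ⟨π, v.ord_coe_irreducible hπ⟩

/-- (PL5) the differential `dCoord` is `d` of a uniformizer -/
theorem Place.exists_dCoord_eq (v : Place K F) :
    ∃ π : F, v.ord π = 1 ∧ v.dCoord = KaehlerDifferential.D K F π := by
  exact ⟨((IsDiscreteValuationRing.exists_irreducible v.toValuationSubring).choose : F),
    v.ord_coe_irreducible
      (IsDiscreteValuationRing.exists_irreducible v.toValuationSubring).choose_spec, rfl⟩

/-- (PL6) discrete valuation rings are maximal subrings -/
theorem Place.eq_of_forall_le {v v' : Place K F}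
    (h : ∀ f : F, f ≠ 0 → 0 ≤ v.ord f → 0 ≤ v'.ord f) : v = v' := by
  have hconv : ∀ f : F, f ≠ 0 → 0 ≤ v'.ord f → 0 ≤ v.ord f := by
    intro f hf hf'
    by_contra hneg
    push Not at hneg
    obtain ⟨π', hπ'⟩ := Place.exists_ord_eq_one v'
    have hπ'0 : π' ≠ 0 := by
      rintro rfl
      simp at hπ'
    -- `g = π'⁻¹`, `g * f⁻¹ ^ k ∈ O_v` for `k` large
    set k : ℕ := (v.ord π').toNat with hk
    have hg : π'⁻¹ * (f⁻¹) ^ k ≠ 0 := mul_ne_zero (inv_ne_zero hπ'0) (pow_ne_zero _ (inv_ne_zero hf))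
    have h1 : 0 ≤ v.ord (π'⁻¹ * (f⁻¹) ^ k) := by
      rw [v.ord_mul (inv_ne_zero hπ'0) (pow_ne_zero _ (inv_ne_zero hf)), v.ord_inv,
        ← zpow_natCast, v.ord_zpow, v.ord_inv]
      have h2 : v.ord π' ≤ k := Int.self_le_toNat _
      nlinarith
    have h2 := h _ hg h1
    rw [v'.ord_mul (inv_ne_zero hπ'0) (pow_ne_zero _ (inv_ne_zero hf)), v'.ord_inv,
        ← zpow_natCast, v'.ord_zpow, v'.ord_inv, hπ'] at h2
    have : (0 : ℤ) ≤ k := Int.natCast_nonneg k
    nlinarith
  apply Place.ext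
  ext f
  rcases eq_or_ne f 0 with rfl | hf
  · simp
  · rw [Place.mem_iff v hf, Place.mem_iff v' hf]
    exact ⟨h f hf, hconv f hf⟩

theorem Place.mem_of_ge (v : Place K F) {u : F} (hu : (Place.addVal v).Ge 0 u) :
    u ∈ v.toValuationSubring := by
  rcases eq_or_ne u 0 with rfl | h0
  · exact zero_mem _
  · exact (Place.mem_iff v h0).mpr (((Place.addVal v).ge_iff h0).mp hu)

theorem Place.ge_of_mem (v : Place K F) {u : F} (hu : u ∈ v.toValuationSubring) :
    (Place.addVal v).Ge 0 u := by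
  rcases eq_or_ne u 0 with rfl | h0
  · exact (Place.addVal v).ge_zero 0
  · exact Or.inr ((Place.mem_iff v h0).mp hu)

theorem Place.mem_maximalIdeal_iff (v : Place K F) (u : v.toValuationSubring) :
    u ∈ IsLocalRing.maximalIdeal v.toValuationSubring ↔ (Place.addVal v).Ge 1 (u : F) := by
  rw [IsLocalRing.mem_maximalIdeal, mem_nonunits_iff]
  constructor
  · intro hnu
    rcases eq_or_ne (u : F) 0 with h0 | h0
    · exact Or.inl h0
    · refine Or.inr ?_
      have h1 : 0 ≤ v.ord (u : F) := (Place.mem_iff v h0).mp u.2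
      by_contra hlt
      have h2 : v.ord (u : F) = 0 := by
        have : ¬ (1 ≤ v.ord (u : F)) := hlt
        omega
      have h3 : (u : F)⁻¹ ∈ v.toValuationSubring := by
        rw [Place.mem_iff v (inv_ne_zero h0), v.ord_inv, h2]; simp
      exact hnu (IsUnit.of_mul_eq_one ⟨(u : F)⁻¹, h3⟩ (by ext; exact mul_inv_cancel₀ h0))
  · rintro h ⟨U, rfl⟩
    have h0 : ((U : v.toValuationSubring) : F) ≠ 0 := by simp
    have h1 := ((Place.addVal v).ge_iff h0).mp h
    rw [Place.addVal_ord, v.ord_coe_unit] at h1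
    omega

open Polynomial IntermediateField.algebraAdjoinAdjoin in
/-- (PL7) the residue field of a place of a function field over an algebraically closed field
is the constant field. -/
theorem Place.exists_const [IsAlgClosed K] (v : Place K F) (T : F) (hT : 0 < v.ord T)
    (halg : Algebra.IsAlgebraic K⟮T⟯ F) (u : F) (hu : (Place.addVal v).Ge 0 u) :
    ∃ c : K, (Place.addVal v).Ge 1 (u - algebraMap K F c) := by
  have hT0 : T ≠ 0 := by
    rintro rfl
    simp at hT
  have hTO : T ∈ v.toValuationSubring := (Place.mem_iff v hT0).mpr hT.le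
  have huO : u ∈ v.toValuationSubring := Place.mem_of_ge v hu
  set TO : v.toValuationSubring := ⟨T, hTO⟩ with hTOdef
  set uO : v.toValuationSubring := ⟨u, huO⟩ with huOdef
  have hTm : TO ∈ IsLocalRing.maximalIdeal v.toValuationSubring :=
    (Place.mem_maximalIdeal_iff v TO).mpr (Or.inr (by
      show 1 ≤ v.ord T
      omega))
  -- an algebraic relation over `K[X]`
  haveI h0 : Algebra.IsAlgebraic (Algebra.adjoin K {T}) F :=
    Algebra.IsAlgebraic.trans (Algebra.adjoin K {T}) K⟮T⟯ F
  letI : Algebra K[X] F := (Polynomial.aeval T).toAlgebra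
  have hmap : ∀ p : K[X], algebraMap K[X] F p = Polynomial.aeval T p := fun p => rfl
  have h1 : IsAlgebraic K[X] u := by
    let f : K[X] →+* Algebra.adjoin K {T} :=
      ((Polynomial.aeval T).codRestrict (Algebra.adjoin K {T}) (fun p => by
        rw [Algebra.adjoin_singleton_eq_range_aeval]; exact ⟨p, rfl⟩) : K[X] →ₐ[K] _)
    refine IsAlgebraic.of_ringHom_of_comp_eq (a := u) f (RingHom.id F) (h0.isAlgebraic u) ?_
      Function.injective_id ?_
    · rintro ⟨z, hz⟩
      rw [Algebra.adjoin_singleton_eq_range_aeval] at hz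
      obtain ⟨p, rfl⟩ := hz
      exact ⟨p, rfl⟩
    · ext <;> rfl
  obtain ⟨P, hP0, hP⟩ := h1
  have hCX : ¬ IsUnit (C (X : K[X])) := by
    rw [Polynomial.isUnit_C]
    exact Polynomial.not_isUnit_X
  obtain ⟨P₀, hPP₀, hndvd⟩ :=
    (FiniteMultiplicity.of_not_isUnit hCX hP0).exists_eq_pow_mul_and_not_dvd
  have hP₀ : aeval u P₀ = 0 := by
    rw [hPP₀, map_mul, map_pow, aeval_C, hmap, aeval_X] at hP
    exact (mul_eq_zero.mp hP).resolve_left (pow_ne_zero _ hT0)
  -- reduce modulo the maximal ideal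
  let g : K[X] →+* v.toValuationSubring := (Polynomial.aeval TO : K[X] →ₐ[K] _)
  have hs : Polynomial.eval₂ g uO P₀ = 0 := by
    apply Subtype.ext
    have := Polynomial.hom_eval₂ P₀ g v.toValuationSubring.subtype uO
    rw [ValuationSubring.subtype_apply] at this
    rw [this]
    have hg : v.toValuationSubring.subtype.comp g = algebraMap K[X] F := by
      ext
      · simp [g, hmap]
      · simp [g, hmap, hTOdef]
    rw [hg]
    exact hP₀
  have hres := congrArg (IsLocalRing.residue v.toValuationSubring) hs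
  rw [Polynomial.hom_eval₂, map_zero] at hres
  have hcomp : (IsLocalRing.residue v.toValuationSubring).comp g =
      (algebraMap K v.ResidueField).comp (Polynomial.evalRingHom (0 : K)) := by
    ext
    · simp [g]
      rfl
    · simp [g, (IsLocalRing.residue_eq_zero_iff TO).mpr hTm]
  rw [hcomp, ← Polynomial.eval₂_map] at hres
  set p : K[X] := P₀.map (Polynomial.evalRingHom (0 : K)) with hp
  have hp0 : p ≠ 0 := by
    intro h
    apply hndvd
    rw [Polynomial.C_dvd_iff_dvd_coeff]
    intro i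
    rw [Polynomial.X_dvd_iff]
    have := congrArg (fun q => Polynomial.coeff q i) h
    simpa [hp, Polynomial.coeff_map, Polynomial.coeff_zero_eq_eval_zero] using this
  have halgu : IsAlgebraic K (IsLocalRing.residue v.toValuationSubring uO) := ⟨p, hp0, hres⟩
  have hdeg := IsAlgClosed.degree_eq_one_of_irreducible K (minpoly.irreducible halgu.isIntegral)
  obtain ⟨c, hc⟩ := minpoly.mem_range_of_degree_eq_one K _ hdeg
  refine ⟨c, ?_⟩
  have h2 : uO - algebraMap K v.toValuationSubring c ∈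
      IsLocalRing.maximalIdeal v.toValuationSubring := by
    rw [← IsLocalRing.residue_eq_zero_iff, map_sub, sub_eq_zero]
    exact hc.symm
  exact (Place.mem_maximalIdeal_iff v _).mp h2

/-- (PL8) -/
theorem Place.deg_eq_one (v : Place K F)
    (hres : ∀ u : F, (Place.addVal v).Ge 0 u →
      ∃ c : K, (Place.addVal v).Ge 1 (u - algebraMap K F c)) : v.deg = 1 := by
  have hsurj : Function.Surjective (Algebra.linearMap K v.ResidueField) := by
    intro y
    obtain ⟨u, rfl⟩ := IsLocalRing.residue_surjective y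
    obtain ⟨c, hc⟩ := hres u (Place.ge_of_mem v u.2)
    refine ⟨c, ?_⟩
    have h2 : u - algebraMap K v.toValuationSubring c ∈
        IsLocalRing.maximalIdeal v.toValuationSubring :=
      (Place.mem_maximalIdeal_iff v _).mpr hc
    rw [← IsLocalRing.residue_eq_zero_iff, map_sub, sub_eq_zero] at h2
    exact h2.symm
  have hinj : Function.Injective (Algebra.linearMap K v.ResidueField) :=
    (algebraMap K v.ResidueField).injective
  have := (LinearEquiv.ofBijective (Algebra.linearMap K v.ResidueField) ⟨hinj, hsurj⟩).finrank_eq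
  rw [Module.finrank_self] at this
  exact this.symm

/-- the valuation ring of an additive valuation -/
def AddVal.valuationSubring (w : AddVal F) : ValuationSubring F where
  carrier := {f | w.Ge 0 f}
  mul_mem' := fun {a b} ha hb => by
    have := AddVal.Ge.mul w ha hb
    rwa [add_zero] at this
  one_mem' := Or.inr (le_of_eq w.map_one.symm)
  add_mem' := fun {a b} ha hb => AddVal.Ge.add w ha hb
  zero_mem' := w.ge_zero 0
  neg_mem' := fun {a} ha => AddVal.Ge.neg w ha
  mem_or_inv_mem' := fun f => by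
    rcases eq_or_ne f 0 with rfl | hf
    · exact Or.inl (w.ge_zero 0)
    · rcases le_total 0 (w.ord f) with h | h
      · exact Or.inl (Or.inr h)
      · exact Or.inr (Or.inr (by rw [w.map_inv hf]; omega))

theorem AddVal.mem_valuationSubring (w : AddVal F) (f : F) :
    f ∈ w.valuationSubring ↔ w.Ge 0 f := Iff.rfl

theorem AddVal.isUnit_of_ord_eq_zero (w : AddVal F) {A : ValuationSubring F}
    (hA : ∀ f, f ∈ A ↔ w.Ge 0 f) (a : A) (ha : (a : F) ≠ 0)
    (h : w.ord (a : F) = 0) : IsUnit a := by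
  have h3 : (a : F)⁻¹ ∈ A := (hA _).mpr (Or.inr (by rw [w.map_inv ha, h]; simp))
  exact IsUnit.of_mul_eq_one ⟨(a : F)⁻¹, h3⟩ (by ext; exact mul_inv_cancel₀ ha)

theorem AddVal.ord_eq_zero_of_isUnit (w : AddVal F) {A : ValuationSubring F}
    (hA : ∀ f, f ∈ A ↔ w.Ge 0 f) (a : A) (h : IsUnit a) :
    w.ord (a : F) = 0 := by
  obtain ⟨U, rfl⟩ := h
  have h0 : ((U : A) : F) ≠ 0 := by simp
  have h0' : (((U⁻¹ : Aˣ) : A) : F) ≠ 0 := by simp
  have h1 := (w.ge_iff h0).mp ((hA _).mp (U : A).2)
  have h2 := (w.ge_iff h0').mp ((hA _).mp ((U⁻¹ : Aˣ) : A).2)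
  have h3 : ((U : A) : F) * (((U⁻¹ : Aˣ) : A) : F) = 1 := by
    have h := U.mul_inv
    exact congrArg Subtype.val h
  have h4 := w.map_mul h0 h0'
  rw [h3, w.map_one] at h4
  omega

theorem AddVal.isPrincipalIdealRing (w : AddVal F) : IsPrincipalIdealRing w.valuationSubring := by
  classical
  refine ⟨fun I => ?_⟩
  by_cases hI : I = ⊥
  · rw [hI]; exact bot_isPrincipal
  obtain ⟨a, haI, ha0⟩ := Submodule.exists_mem_ne_zero_of_ne_bot hI
  have hex : ∃ n : ℕ, ∃ a ∈ I, a ≠ 0 ∧ w.ord (a : F) = n := by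
    have ha0' : (a : F) ≠ 0 := by simpa using ha0
    have := (w.ge_iff ha0').mp a.2
    exact ⟨(w.ord (a : F)).toNat, a, haI, ha0, by omega⟩
  obtain ⟨a₀, ha₀I, ha₀0, ha₀⟩ := Nat.find_spec hex
  have hmin := fun n (hn : n < Nat.find hex) => Nat.find_min hex hn
  have ha₀0' : (a₀ : F) ≠ 0 := by simpa using ha₀0
  refine ⟨a₀, le_antisymm ?_ ?_⟩
  · intro b hb
    rw [Submodule.mem_span_singleton]
    rcases eq_or_ne b 0 with rfl | hb0
    · exact ⟨0, by simp⟩
    have hb0' : (b : F) ≠ 0 := by simpa using hb0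
    have hbn := (w.ge_iff hb0').mp b.2
    have hle : w.ord (a₀ : F) ≤ w.ord (b : F) := by
      by_contra hlt
      push Not at hlt
      exact hmin (w.ord (b : F)).toNat (by omega) ⟨b, hb, hb0, by omega⟩
    have hq : (b : F) / a₀ ∈ w.valuationSubring :=
      Or.inr (by rw [w.map_div hb0' ha₀0']; omega)
    refine ⟨⟨(b : F) / a₀, hq⟩, ?_⟩
    ext
    show (b : F) / a₀ * a₀ = b
    field_simp
  · rw [Submodule.span_singleton_le_iff_mem]
    exact ha₀I

/-- (PL9) a field embedding into a discretely valued field which is non trivial on `F`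
defines a place. -/
theorem exists_place_of_emb {L : Type*} [Field L] [Algebra K L] (w : AddVal L)
    (hw : ∀ c : K, c ≠ 0 → w.ord (algebraMap K L c) = 0) (ι : F →ₐ[K] L)
    (hnt : ∃ f : F, f ≠ 0 ∧ w.ord (ι f) ≠ 0) :
    ∃ (v : Place K F) (m : ℕ), 0 < m ∧ ∀ f : F, f ≠ 0 → w.ord (ι f) = m * v.ord f := by
  set w' : AddVal F := w.comap (ι : F →+* L) with hw'
  have hw'ord : ∀ f, w'.ord f = w.ord (ι f) := fun f => rfl
  obtain ⟨v, hv⟩ : ∃ v : Place K F, v.toValuationSubring = w'.valuationSubring := ⟨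
    { toValuationSubring := w'.valuationSubring
      algebraMap_mem' := fun c => by
        rcases eq_or_ne c 0 with rfl | hc
        · rw [map_zero]; exact zero_mem _
        · refine Or.inr ?_
          rw [hw'ord, ι.commutes, hw c hc]
      ne_top' := by
        intro htop
        obtain ⟨f, hf0, hf⟩ := hnt
        have h1 : f ∈ w'.valuationSubring := htop ▸ ValuationSubring.mem_top f
        have h2 : f⁻¹ ∈ w'.valuationSubring := htop ▸ ValuationSubring.mem_top f⁻¹
        have h3 := (w'.ge_iff hf0).mp h1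
        have h4 := (w'.ge_iff (inv_ne_zero hf0)).mp h2
        rw [w'.map_inv hf0] at h4
        rw [← hw'ord] at hf
        omega
      isPrincipalIdealRing' := w'.isPrincipalIdealRing }, rfl⟩
  have hA : ∀ f, f ∈ v.toValuationSubring ↔ w'.Ge 0 f := fun f => by rw [hv]; rfl
  obtain ⟨π, hπ⟩ := IsDiscreteValuationRing.exists_irreducible v.toValuationSubring
  have hπ0 : (π : F) ≠ 0 := by
    simpa [ne_eq, ZeroMemClass.coe_eq_zero] using hπ.ne_zero
  have hπge : 0 ≤ w'.ord (π : F) := (w'.ge_iff hπ0).mp ((hA _).mp π.2)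
  have hπne : w'.ord (π : F) ≠ 0 := fun h => hπ.not_isUnit (w'.isUnit_of_ord_eq_zero hA π hπ0 h)
  refine ⟨v, (w'.ord (π : F)).toNat, by omega, fun f hf => ?_⟩
  obtain ⟨u, hu⟩ := v.exists_unit_mul_zpow hf hπ
  have hu0 : ((u : v.toValuationSubring) : F) ≠ 0 := by simp
  have h1 : w'.ord f = w'.ord ((u : v.toValuationSubring) : F) + v.ord f * w'.ord (π : F) := by
    conv_lhs => rw [hu]
    rw [w'.map_mul hu0 (zpow_ne_zero _ hπ0), w'.map_zpow hπ0]
  rw [w'.ord_eq_zero_of_isUnit hA _ u.isUnit, zero_add] at h1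
  rw [← hw'ord, h1, Int.toNat_of_nonneg hπge, mul_comm]

/-- (E1) `π`-adic expansion up to order `k`. -/
theorem AddVal.exists_expansion (V : AddVal F)
    (hres : ∀ u : F, V.Ge 0 u → ∃ c : K, V.Ge 1 (u - algebraMap K F c))
    (π : F) (hπ0 : π ≠ 0) (hπ : V.ord π = 1) (k : ℕ) :
    ∀ f : F, V.Ge 0 f → ∃ (a : ℕ → K) (f' : F), V.Ge 0 f' ∧
      f = ∑ i ∈ Finset.range k, algebraMap K F (a i) * π ^ i + π ^ k * f' := by
  induction k with
  | zero =>
    intro f hf
    exact ⟨fun _ => 0, f, hf, by simp⟩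
  | succ k ih =>
    intro f hf
    obtain ⟨c, hc⟩ := hres f hf
    have hg : V.Ge 0 ((f - algebraMap K F c) / π) := by
      have h1 : V.Ge (-1) π⁻¹ := Or.inr (by rw [V.map_inv hπ0, hπ])
      have := hc.mul V h1
      rw [div_eq_mul_inv]
      simpa using this
    obtain ⟨a, f', hf', h⟩ := ih _ hg
    refine ⟨fun i => Nat.casesOn i c a, f', hf', ?_⟩
    rw [Finset.sum_range_succ']
    change f = ∑ i ∈ Finset.range k, algebraMap K F (a i) * π ^ (i + 1)
      + algebraMap K F c * π ^ 0 + π ^ (k + 1) * f'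
    have h2 : f = algebraMap K F c + π * ((f - algebraMap K F c) / π) := by
      field_simp
      ring
    rw [h2, h, mul_add, Finset.mul_sum]
    simp only [pow_zero, mul_one]
    have : ∀ i ∈ Finset.range k, π * (algebraMap K F (a i) * π ^ i)
        = algebraMap K F (a i) * π ^ (i + 1) := by
      intro i _
      ring
    rw [Finset.sum_congr rfl this]
    ring

open Polynomial in
/-- (E2) expansion in powers of `π` with polynomial coefficients in `T`, up to `T ^ M`. -/
theorem AddVal.exists_expansion_poly (V : AddVal F)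
    (hres : ∀ u : F, V.Ge 0 u → ∃ c : K, V.Ge 1 (u - algebraMap K F c))
    (π : F) (hπ0 : π ≠ 0) (hπ : V.ord π = 1) (T : F) (e : ℕ) (hT0 : T ≠ 0) (hT : V.ord T = e)
    (M : ℕ) :
    ∀ f : F, V.Ge 0 f → ∃ (A : ℕ → K[X]) (f' : F), V.Ge 0 f' ∧
      f = ∑ i ∈ Finset.range e, aeval T (A i) * π ^ i + T ^ M * f' := by
  induction M with
  | zero =>
    intro f hf
    exact ⟨fun _ => 0, f, hf, by simp⟩
  | succ M ih =>
    intro f hf
    obtain ⟨a, g, hg, h⟩ := V.exists_expansion hres π hπ0 hπ e f hf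
    have hg' : V.Ge 0 (π ^ e / T * g) := by
      have h1 : V.Ge 0 (π ^ e / T) := Or.inr (by
        rw [V.map_div (pow_ne_zero _ hπ0) hT0, V.map_pow hπ0, hπ, hT]; simp)
      simpa using h1.mul V hg
    obtain ⟨A, f', hf', h'⟩ := ih _ hg'
    refine ⟨fun i => C (a i) + X * A i, f', hf', ?_⟩
    have h2 : π ^ e * g = T * (π ^ e / T * g) := by
      field_simp
    rw [h, h2, h', mul_add, Finset.mul_sum, ← add_assoc, ← Finset.sum_add_distrib]
    congr 1
    · refine Finset.sum_congr rfl fun i _ => ?_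
      dsimp only
      simp only [_root_.map_add, aeval_C, _root_.map_mul, aeval_X]
      ring
    · ring

/-- the image of an integral element under an embedding multiplying orders by `m`. -/
theorem AddVal.ge_map (V : AddVal F) {L : Type*} [Field L] [Algebra K L] (w : AddVal L)
    (m : ℕ) (j : F →ₐ[K] L) (hj : ∀ f : F, f ≠ 0 → w.ord (j f) = m * V.ord f)
    {f : F} {n : ℤ} (hf : V.Ge n f) : w.Ge (m * n) (j f) := by
  rcases eq_or_ne f 0 with rfl | h0
  · rw [_root_.map_zero]; exact w.ge_zero _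
  · refine Or.inr ?_
    rw [hj f h0]
    exact mul_le_mul_of_nonneg_left ((V.ge_iff h0).mp hf) (by positivity)

open Polynomial in
/-- (ii) an embedding is determined by the images of `T` and of a uniformizer. -/
theorem AddVal.algHom_ext_of_uniformizer (V : AddVal F)
    (hres : ∀ u : F, V.Ge 0 u → ∃ c : K, V.Ge 1 (u - algebraMap K F c))
    (π : F) (hπ0 : π ≠ 0) (hπ : V.ord π = 1) (T : F) (e : ℕ) (he : 0 < e) (hT0 : T ≠ 0)
    (hT : V.ord T = e) {L : Type*} [Field L] [Algebra K L] (w : AddVal L)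
    (m : ℕ) (hm : 0 < m) (j j' : F →ₐ[K] L)
    (hj : ∀ f : F, f ≠ 0 → w.ord (j f) = m * V.ord f)
    (hj' : ∀ f : F, f ≠ 0 → w.ord (j' f) = m * V.ord f)
    (hTj : j T = j' T) (hπj : j π = j' π) : j = j' := by
  have key : ∀ f : F, V.Ge 0 f → j f = j' f := by
    intro f hf
    rw [← sub_eq_zero]
    refine w.eq_zero_of_forall_ge fun n => ?_
    obtain ⟨A, f', hf', h⟩ := V.exists_expansion_poly hres π hπ0 hπ T e hT0 hT n.toNat f hf
    have h1 : j f - j' f = j' T ^ n.toNat * (j f' - j' f') := by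
      rw [h]
      simp only [_root_.map_add, _root_.map_mul, _root_.map_pow, map_sum,
        ← Polynomial.aeval_algHom_apply, hTj, hπj]
      ring
    rw [h1]
    have h2 : w.Ge 0 (j f' - j' f') := by
      have a1 := V.ge_map w m j hj hf'
      have a2 := V.ge_map w m j' hj' hf'
      rw [mul_zero] at a1 a2
      exact a1.sub w a2
    have h3 : w.Ge 1 (j' T) := by
      refine Or.inr ?_
      rw [hj' T hT0, hT]
      have : 1 ≤ m * e := Nat.mul_pos hm he
      exact_mod_cast this
    have h4 := (h3.pow w n.toNat).mul w h2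
    refine h4.mono w ?_
    have := Int.self_le_toNat n
    omega
  ext f
  by_cases hf : V.Ge 0 f
  · exact key f hf
  · have hf0 : f ≠ 0 := fun h => hf (Or.inl h)
    have hlt : ¬ (0 ≤ V.ord f) := fun h => hf (Or.inr h)
    have h1 : V.Ge 0 f⁻¹ := Or.inr (by rw [V.map_inv hf0]; omega)
    have h2 := key _ h1
    rw [map_inv₀, map_inv₀] at h2
    exact inv_injective h2

open Polynomial in
/-- (iii) the counting argument behind (PL10), for an abstract additive valuation. -/
theorem AddVal.card_le_of_same (V : AddVal F)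
    (hres : ∀ u : F, V.Ge 0 u → ∃ c : K, V.Ge 1 (u - algebraMap K F c))
    (π : F) (hπ0 : π ≠ 0) (hπ : V.ord π = 1) (T : F) (e : ℕ) (he : 0 < e) (hT0 : T ≠ 0)
    (hT : V.ord T = e) {L : Type*} [Field L] [Algebra K L] (w : AddVal L)
    {Y : Type*} (S : Finset Y) (ι : Y → (F →ₐ[K] L)) (hinj : Set.InjOn ι S)
    (m : ℕ) (hm : 0 < m) (hord : ∀ s ∈ S, ∀ f : F, f ≠ 0 → w.ord (ι s f) = m * V.ord f)
    (hTι : ∀ s ∈ S, ∀ s' ∈ S, ι s T = ι s' T) : S.card ≤ e := by
  classical
  by_contra hlt
  obtain ⟨S', hS'S, hcard⟩ := Finset.exists_subset_card_eq (s := S) (n := e + 1) (by omega)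
  have hne : S'.Nonempty := by
    rw [← Finset.card_pos]; omega
  obtain ⟨s₀, hs₀⟩ := hne
  set y : Y → L := fun s => ι s π with hy
  have hyinj : Set.InjOn y S' := by
    intro s hs s' hs' hss
    exact hinj (hS'S hs) (hS'S hs') (V.algHom_ext_of_uniformizer hres π hπ0 hπ T e he hT0 hT w m hm
      _ _ (hord s (hS'S hs)) (hord s' (hS'S hs')) (hTι s (hS'S hs) s' (hS'S hs')) hss)
  set d : Y → L := fun s => ∏ j ∈ S'.erase s, (y s - y j) with hd
  obtain ⟨b, hb⟩ : ∃ b : ℤ, ∀ s ∈ S', w.Ge b (d s)⁻¹ := by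
    obtain ⟨b, hb⟩ := (S'.image fun s => - w.ord (d s)⁻¹).exists_le
    refine ⟨-b, fun s hs => Or.inr ?_⟩
    have := hb _ (Finset.mem_image_of_mem _ hs)
    omega
  -- choose `M` large
  set M : ℕ := (1 - b).toNat with hM
  obtain ⟨A, f', hf', h⟩ := V.exists_expansion_poly hres π hπ0 hπ T e hT0 hT M (π ^ e)
    (by simpa using (show V.Ge 1 π from Or.inr hπ.ge).pow V e |>.mono V (by positivity))
  set τ : L := ι s₀ T with hτ
  set Q : L[X] := X ^ e - ∑ i ∈ Finset.range e, C (aeval τ (A i)) * X ^ i with hQ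
  have hQeval : ∀ s ∈ S', Q.eval (y s) = τ ^ M * ι s f' := by
    intro s hs
    have h1 := congrArg (ι s) h
    simp only [_root_.map_add, _root_.map_mul, _root_.map_pow, map_sum,
      ← Polynomial.aeval_algHom_apply, hTι s (hS'S hs) s₀ (hS'S hs₀)] at h1
    rw [hQ]
    simp only [eval_sub, eval_pow, eval_X, eval_finsetSum, eval_mul, eval_C]
    rw [hy]
    dsimp only
    rw [h1]
    ring
  have hsumdeg : (∑ i ∈ Finset.range e, C (aeval τ (A i)) * X ^ i : L[X]).degree < e := by
    refine (degree_sum_le _ _).trans_lt ?_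
    rw [Finset.sup_lt_iff (by exact_mod_cast WithBot.bot_lt_coe e)]
    intro i hi
    refine (degree_C_mul_X_pow_le _ _).trans_lt ?_
    exact_mod_cast Finset.mem_range.mp hi
  have hQdeg : Q.degree < S'.card := by
    rw [hcard, hQ]
    refine (degree_sub_le _ _).trans_lt ?_
    rw [max_lt_iff]
    constructor
    · rw [degree_X_pow]; exact_mod_cast Nat.lt_succ_self e
    · exact hsumdeg.trans (by exact_mod_cast Nat.lt_succ_self e)
  have hQcoeff : Q.coeff e = 1 := by
    rw [hQ, coeff_sub, coeff_X_pow, if_pos rfl, coeff_eq_zero_of_degree_lt hsumdeg, sub_zero]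
  have hsum := Lagrange.coeff_eq_sum hyinj hQdeg
  rw [hcard, Nat.add_sub_cancel, hQcoeff] at hsum
  have hτ1 : w.Ge 1 τ := by
    refine Or.inr ?_
    rw [hτ, hord s₀ (hS'S hs₀) T hT0, hT]
    have : 1 ≤ m * e := Nat.mul_pos hm he
    exact_mod_cast this
  have hge : w.Ge 1 (1 : L) := by
    rw [hsum]
    refine AddVal.Ge.sum w _ _ fun s hs => ?_
    rw [hQeval s hs, div_eq_mul_inv]
    have a1 := V.ge_map w m (ι s) (hord s (hS'S hs)) hf'
    have a2 := ((hτ1.pow w M).mul w a1).mul w (hb s hs)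
    refine a2.mono w ?_
    have := Int.self_le_toNat (1 - b)
    rw [← hM] at this
    omega
  have := (w.ge_iff one_ne_zero).mp hge
  rw [w.map_one] at this
  omega

/-- (PL10 = (α)) at most `e` embeddings over `K(T)` induce a given place `v` with `ord_v T = e`. -/
theorem card_le_of_same_place (v : Place K F)
    (hres : ∀ u : F, (Place.addVal v).Ge 0 u →
      ∃ c : K, (Place.addVal v).Ge 1 (u - algebraMap K F c))
    {L : Type*} [Field L] [Algebra K L] (w : AddVal L)
    (T : F) (e : ℕ) (he : 0 < e) (hT : v.ord T = e)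
    {X : Type*} (S : Finset X) (ι : X → (F →ₐ[K] L)) (hinj : Set.InjOn ι S)
    (m : ℕ) (hm : 0 < m) (hord : ∀ s ∈ S, ∀ f : F, f ≠ 0 → w.ord (ι s f) = m * v.ord f)
    (hTι : ∀ s ∈ S, ∀ s' ∈ S, ι s T = ι s' T) : S.card ≤ e := by
  obtain ⟨π, hπ⟩ := Place.exists_ord_eq_one v
  have hπ0 : π ≠ 0 := by
    rintro rfl
    rw [v.ord_zero] at hπ
    omega
  have hT0 : T ≠ 0 := by
    rintro rfl
    rw [v.ord_zero] at hT
    have : (0 : ℤ) < e := by exact_mod_cast he
    omega
  exact (Place.addVal v).card_le_of_same hres π hπ0 hπ T e he hT0 hT w S ι hinj m hm hord hTι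

end Fermat.Agent.S24Aux
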