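/-
S24 helper library: weak approximation for places, residue degree one, centres of places.
-/
import Fermat.Agent.S24.Place
import Fermat.Agent.S24.Diff

set_option autoImplicit false
set_option linter.style.haveILetI false

namespace Fermat.Agent.S24Aux

open AlgebraicCurve IntermediateField

variable {K F : Type*} [Field K] [Field F] [Algebra K F]

theorem Place.ne_zero_of_ord_ne_zero (v : Place K F) {f : F} (h : v.ord f ≠ 0) : f ≠ 0 := by
  rintro rfl
  exact h v.ord_zero

/-- two distinct places are separated by a function. -/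
theorem Place.exists_pos_neg {v v' : Place K F} (h : v ≠ v') :
    ∃ z : F, 0 < v.ord z ∧ v'.ord z < 0 := by
  have h1 : ∃ f : F, f ≠ 0 ∧ 0 ≤ v.ord f ∧ v'.ord f < 0 := by
    by_contra hcon
    push Not at hcon
    exact h (Place.eq_of_forall_le hcon)
  have h2 : ∃ f : F, f ≠ 0 ∧ 0 ≤ v'.ord f ∧ v.ord f < 0 := by
    by_contra hcon
    push Not at hcon
    exact h (Place.eq_of_forall_le hcon).symm
  obtain ⟨y1, h10, h11, h12⟩ := h1
  obtain ⟨y2, h20, h21, h22⟩ := h2
  refine ⟨y1 / y2, ?_, ?_⟩
  · have := (Place.addVal v).map_div h10 h20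
    simp only [Place.addVal_ord] at this
    omega
  · have := (Place.addVal v').map_div h10 h20
    simp only [Place.addVal_ord] at this
    omega

/-- (W) weak approximation (Stichtenoth's form). -/
theorem Place.exists_pos_forall_neg (v : Place K F) (S : Finset (Place K F)) (hv : v ∉ S) :
    ∃ u : F, 0 < v.ord u ∧ ∀ v' ∈ S, v'.ord u < 0 := by
  classical
  induction S using Finset.induction_on with
  | empty =>
    obtain ⟨π, hπ⟩ := Place.exists_ord_eq_one v
    exact ⟨π, by omega, by simp⟩
  | insert v' S hv' ih =>
    have hne : v ≠ v' := fun h => hv (h ▸ Finset.mem_insert_self _ _)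
    have hvS : v ∉ S := fun h => hv (Finset.mem_insert_of_mem h)
    obtain ⟨y, hy, hyS⟩ := ih hvS
    by_cases hy' : v'.ord y < 0
    · refine ⟨y, hy, fun w hw => ?_⟩
      rcases Finset.mem_insert.mp hw with rfl | hw
      · exact hy'
      · exact hyS w hw
    obtain ⟨z, hz, hz'⟩ := Place.exists_pos_neg hne
    have hy0 : y ≠ 0 := Place.ne_zero_of_ord_ne_zero v (by omega)
    have hz0 : z ≠ 0 := Place.ne_zero_of_ord_ne_zero v (by omega)
    obtain ⟨r, hr⟩ := Infinite.exists_notMem_finset
      (insert 0 (S.image fun w => (w.ord y / w.ord z).toNat))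
    have hr0 : r ≠ 0 := fun h => hr (h ▸ Finset.mem_insert_self _ _)
    have hrS : ∀ w ∈ S, (r : ℤ) * w.ord z ≠ w.ord y := by
      intro w hw heq
      apply hr
      refine Finset.mem_insert_of_mem (Finset.mem_image.mpr ⟨w, hw, ?_⟩)
      have hwz : w.ord z ≠ 0 := by
        intro h0
        rw [h0, mul_zero] at heq
        have := hyS w hw
        omega
      rw [← heq, Int.mul_ediv_cancel _ hwz, Int.toNat_natCast]
    have hzr : ∀ w : Place K F, w.ord (z ^ r) = r * w.ord z := fun w =>
      (Place.addVal w).map_pow hz0 r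
    have hzr0 : z ^ r ≠ 0 := pow_ne_zero _ hz0
    have hr1 : (1 : ℤ) ≤ r := by exact_mod_cast Nat.pos_of_ne_zero hr0
    -- at `v'`
    have h' := (Place.addVal v').ord_add_of_lt hzr0 (y := y) (Or.inr (by
      simp only [Place.addVal_ord]
      rw [hzr]
      nlinarith))
    simp only [Place.addVal_ord] at h'
    refine ⟨z ^ r + y, ?_, fun w hw => ?_⟩
    · have := Place.ord_add v hzr0 hy0 h'.1
      rw [hzr] at this
      have h3 : 0 < (r : ℤ) * v.ord z := by positivity
      exact lt_of_lt_of_le (lt_min h3 hy) this
    · rcases Finset.mem_insert.mp hw with rfl | hw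
      · rw [h'.2, hzr]
        nlinarith
      · have hyw := hyS w hw
        rcases lt_or_gt_of_ne (hrS w hw) with hlt | hgt
        · have := (Place.addVal w).ord_add_of_lt hzr0 (y := y) (Or.inr (by
            simp only [Place.addVal_ord]
            rw [hzr]
            omega))
          simp only [Place.addVal_ord] at this
          rw [this.2, hzr]
          omega
        · have := (Place.addVal w).ord_add_of_lt hy0 (y := z ^ r) (Or.inr (by
            simp only [Place.addVal_ord]
            rw [hzr]
            omega))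
          simp only [Place.addVal_ord] at this
          rw [add_comm, this.2]
          exact hyw

open IntermediateField.algebraAdjoinAdjoin in
theorem isAlgebraic_intermediate_adjoin_of_trdeg (htr : Algebra.trdeg K F = 1) (y : F)
    (hy : Transcendental K y) : Algebra.IsAlgebraic K⟮y⟯ F := by
  haveI := isAlgebraic_adjoin_of_trdeg htr y hy
  refine Algebra.IsAlgebraic.extendScalars (R := Algebra.adjoin K {y}) (S := K⟮y⟯) ?_
  exact FaithfulSMul.algebraMap_injective _ _

/-- (D1) residues are constants. -/
theorem Place.exists_const_of_trdeg [IsAlgClosed K] (htr : Algebra.trdeg K F = 1) (v : Place K F)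
    (u : F) (hu : (Place.addVal v).Ge 0 u) :
    ∃ c : K, (Place.addVal v).Ge 1 (u - algebraMap K F c) := by
  obtain ⟨π, hπ⟩ := Place.exists_ord_eq_one v
  exact Place.exists_const v π (by omega)
    (isAlgebraic_intermediate_adjoin_of_trdeg htr π
      (transcendental_of_ord_ne_zero v π (by omega))) u hu

/-- (D1) all places have degree one. -/
theorem Place.deg_eq_one_of_trdeg [IsAlgClosed K] (htr : Algebra.trdeg K F = 1) (v : Place K F) :
    v.deg = 1 :=
  Place.deg_eq_one v (Place.exists_const_of_trdeg htr v)

/-- (U) the centre of a place on the `x`-line. -/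
theorem Place.existsUnique_center [IsAlgClosed K] (htr : Algebra.trdeg K F = 1) (v : Place K F)
    (x : F) (hx : Transcendental K x) (h : 0 ≤ v.ord x) :
    ∃! a : K, 0 < v.ord (x - algebraMap K F a) := by
  have hne : ∀ a : K, x - algebraMap K F a ≠ 0 := by
    intro a h0
    rw [sub_eq_zero] at h0
    exact hx (h0 ▸ isAlgebraic_algebraMap a)
  obtain ⟨a, ha⟩ := Place.exists_const_of_trdeg htr v x (Or.inr h)
  have ha' := ((Place.addVal v).ge_iff (hne a)).mp ha
  rw [Place.addVal_ord] at ha'
  refine ⟨a, by omega, fun b hb => ?_⟩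
  by_contra hab
  have h1 : algebraMap K F (a - b) = (x - algebraMap K F b) - (x - algebraMap K F a) := by
    rw [map_sub]; ring
  have h2 : v.ord (algebraMap K F (a - b)) = 0 :=
    Place.ord_algebraMap v (sub_ne_zero.mpr (Ne.symm hab))
  have h3 : (Place.addVal v).Ge 1 (algebraMap K F (a - b)) := by
    rw [h1]
    exact AddVal.Ge.sub _ (Or.inr (by rw [Place.addVal_ord]; omega)) ha
  have h4 := ((Place.addVal v).ge_iff
    ((map_ne_zero _).mpr (sub_ne_zero.mpr (Ne.symm hab)))).mp h3
  rw [Place.addVal_ord, h2] at h4
  omega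

end Fermat.Agent.S24Aux
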