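/-
S24 helper library: a full set of embeddings computes norms and detects integrality.
-/
import Mathlib

set_option autoImplicit false
set_option linter.style.haveILetI false

namespace Fermat.Agent.S24Aux

open Polynomial

section Gal

variable {k F L : Type*} [Field k] [Field F] [Field L] [Algebra k F] [Algebra k L]
  [FiniteDimensional k F] [Algebra.IsSeparable k F]
  {X : Type*} [Fintype X] (j : X → (F →ₐ[k] L)) (hj : Function.Injective j)
  (hcard : Fintype.card X = Module.finrank k F)

/-- the embeddings into the algebraic closure. -/
noncomputable def embBar (s : X) : F →ₐ[k] AlgebraicClosure L :=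
  (IsScalarTower.toAlgHom k L (AlgebraicClosure L)).comp (j s)

include hj in
theorem embBar_injective : Function.Injective (embBar j) := by
  intro s s' h
  apply hj
  ext f
  have := DFunLike.congr_fun h f
  exact FaithfulSMul.algebraMap_injective L (AlgebraicClosure L) this

include hj in
theorem card_le_finrank_of_injective : Fintype.card X ≤ Module.finrank k F := by
  rw [← AlgHom.card k F (AlgebraicClosure L)]
  exact Fintype.card_le_of_injective _ (embBar_injective j hj)

include hj hcard in
theorem embBar_bijective : Function.Bijective (embBar j) := by
  rw [Fintype.bijective_iff_injective_and_card]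
  refine ⟨fun s s' h => hj ?_, ?_⟩
  · ext f
    have := DFunLike.congr_fun h f
    exact FaithfulSMul.algebraMap_injective L (AlgebraicClosure L) this
  · rw [hcard, AlgHom.card]

include hj hcard in
/-- (G2) the norm is the product of the conjugates. -/
theorem algebraMap_norm_eq_prod (c : F) : algebraMap k L (Algebra.norm k c) = ∏ s, j s c := by
  apply FaithfulSMul.algebraMap_injective L (AlgebraicClosure L)
  rw [← IsScalarTower.algebraMap_apply, Algebra.norm_eq_prod_embeddings k (AlgebraicClosure L) c,
    map_prod]
  exact ((Equiv.ofBijective _ (embBar_bijective j hj hcard)).prod_comp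
    (fun σ : F →ₐ[k] AlgebraicClosure L => σ c)).symm

include hj hcard in
/-- (G3) if all conjugates of `f` are integral then so are the coefficients of its minimal
polynomial. -/
theorem coeff_minpoly_mem (O : ValuationSubring L) (f : F) (hf : ∀ s, j s f ∈ O) (i : ℕ) :
    algebraMap k L ((minpoly k f).coeff i) ∈ O := by
  have hmonic : (minpoly k f).Monic := minpoly.monic (Algebra.IsIntegral.isIntegral f)
  have h1 : IsIntegral O (((minpoly k f).map (algebraMap k (AlgebraicClosure L))).coeff i) := by
    refine isIntegral_coeff_of_factors _ ?_ (IsAlgClosed.splits _) ?_ i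
    · rw [(hmonic.map _).leadingCoeff]; exact isIntegral_one
    · intro y hy
      have hy' : y ∈ (minpoly k f).rootSet (AlgebraicClosure L) := by
        rw [mem_rootSet]
        refine ⟨hmonic.ne_zero, ?_⟩
        rwa [IsRoot.def, eval_map_algebraMap] at hy
      rw [← Algebra.IsAlgebraic.range_eval_eq_rootSet_minpoly] at hy'
      obtain ⟨σ, rfl⟩ := hy'
      obtain ⟨s, rfl⟩ := (embBar_bijective j hj hcard).2 σ
      have : embBar j s f = algebraMap O (AlgebraicClosure L) ⟨j s f, hf s⟩ := by
        rw [IsScalarTower.algebraMap_apply O L (AlgebraicClosure L)]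
        rfl
      change IsIntegral O (embBar j s f)
      rw [this]
      exact isIntegral_algebraMap
  rw [coeff_map, IsScalarTower.algebraMap_apply k L (AlgebraicClosure L),
    isIntegral_algebraMap_iff (FaithfulSMul.algebraMap_injective L (AlgebraicClosure L))] at h1
  obtain ⟨a, ha⟩ := IsIntegrallyClosed.isIntegral_iff.mp h1
  rw [← ha]
  exact a.2

end Gal

end Fermat.Agent.S24Aux
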