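/-
S24 helper library: uniformisation data over one point of the `x`-line.
-/
import Fermat.Agent.S24.Basic

set_option autoImplicit false

namespace Fermat.Agent.S24Aux

variable {K F : Type*} [Field K] [Field F] [Algebra K F]

/-- local parameter of the `x`-line at the point `pt` (`none` is the point at infinity). -/
def locParam (x : F) : Option K → F
  | some a => x - algebraMap K F a
  | none => x⁻¹

@[simp] theorem locParam_some (x : F) (a : K) : locParam x (some a) = x - algebraMap K F a := rfl

@[simp] theorem locParam_none (x : F) : locParam x (none : Option K) = x⁻¹ := rfl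

/-- Uniformisation data over the point `pt` of the `x`-line: a family of embeddings of `F` into a
discretely valued field `L`, indexed by a `G`-set `X`; they agree on `x`, the local parameter has
order `e0`, and the element `g` of `G` acts like "rescaling by a primitive `e0`-th root of unity".
-/
structure LocalData {L : Type*} [Field L] [Algebra K L] (w : AddVal L) (x : F) (pt : Option K)
    {G : Type*} [Group G] (X : Type*) [MulAction G X] (g : G) (e0 : ℕ) where
  ι : X → (F →ₐ[K] L)
  inj : Function.Injective ι
  agree : ∀ s s', ι s x = ι s' x
  ord_u : ∀ s, w.ord (ι s (locParam x pt)) = e0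
  ord_smul : ∀ s f, w.ord (ι (g • s) f) = w.ord (ι s f)
  dvd_of_fixed : ∀ s (k : ℕ) f, f ≠ 0 → g ^ k • s = s → (e0 : ℤ) ∣ k * w.ord (ι s f)

end Fermat.Agent.S24Aux
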