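/-
S24 helper library: additive valuations of polynomial expressions `p(x)`.
-/
import Fermat.Agent.S24.Basic

set_option autoImplicit false
set_option linter.style.haveILetI false

namespace Fermat.Agent.S24Aux

open Polynomial

variable {K F : Type*} [Field K] [Field F] [Algebra K F]

/-- a polynomial not vanishing at `a`, evaluated at `x` with `V (x - a) > 0`, is a `V`-unit. -/
theorem AddVal.ord_aeval_of_eval_ne_zero (V : AddVal F)
    (hV : ∀ c : K, c ≠ 0 → V.ord (algebraMap K F c) = 0) (x : F) (a : K)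
    (hx : V.Ge 1 (x - algebraMap K F a)) (p : K[X]) (hp : p.eval a ≠ 0) :
    aeval x p ≠ 0 ∧ V.ord (aeval x p) = 0 := by
  obtain ⟨q, hq⟩ : (X - C a) ∣ p - C (p.eval a) := by
    rw [dvd_iff_isRoot]; simp
  have h1 : aeval x p = algebraMap K F (p.eval a) + (x - algebraMap K F a) * aeval x q := by
    have := congrArg (aeval x) hq
    simp only [_root_.map_sub, _root_.map_mul, aeval_X, aeval_C] at this
    rw [← this]; ring
  have h2 : V.Ge 0 x := by
    have : x = (x - algebraMap K F a) + algebraMap K F a := by ring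
    rw [this]
    refine (hx.mono V (by norm_num)).add V ?_
    rcases eq_or_ne a 0 with rfl | ha
    · rw [_root_.map_zero]; exact V.ge_zero 0
    · exact Or.inr (hV a ha).ge
  have h3 : V.Ge 0 (aeval x q) := by
    rw [aeval_eq_sum_range]
    refine AddVal.Ge.sum V _ _ fun i _ => ?_
    rw [Algebra.smul_def]
    have a1 : V.Ge 0 (algebraMap K F (q.coeff i)) := by
      rcases eq_or_ne (q.coeff i) 0 with h | h
      · rw [h, _root_.map_zero]; exact V.ge_zero 0
      · exact Or.inr (hV _ h).ge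
    have a2 := a1.mul V (h2.pow V i)
    simpa using a2
  have h0 : algebraMap K F (p.eval a) ≠ 0 := by
    simpa using hp
  have h4 := V.ord_add_of_lt h0 (y := (x - algebraMap K F a) * aeval x q) (by
    rw [hV _ hp]
    simpa using hx.mul V h3)
  rw [h1]
  exact ⟨h4.1, h4.2.trans (hV _ hp)⟩

/-- the order of `p(x)` at a valuation with `V (x - a) = e > 0`. -/
theorem AddVal.ord_aeval_of_pos_aux (V : AddVal F)
    (hV : ∀ c : K, c ≠ 0 → V.ord (algebraMap K F c) = 0) (x : F) (a : K) (e : ℤ) (he : 0 < e)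
    (hx0 : x - algebraMap K F a ≠ 0) (hx : V.ord (x - algebraMap K F a) = e)
    (p : K[X]) (hp : p ≠ 0) :
    aeval x p ≠ 0 ∧ V.ord (aeval x p) = e * p.rootMultiplicity a := by
  obtain ⟨q, hq, hqa⟩ := exists_eq_pow_rootMultiplicity_mul_and_not_dvd p hp a
  have hqa' : q.eval a ≠ 0 := by
    rwa [dvd_iff_isRoot] at hqa
  have h1 := V.ord_aeval_of_eval_ne_zero hV x a (Or.inr (by omega)) q hqa'
  have h2 : aeval x p = (x - algebraMap K F a) ^ p.rootMultiplicity a * aeval x q := by
    conv_lhs => rw [hq]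
    simp
  rw [h2]
  refine ⟨mul_ne_zero (pow_ne_zero _ hx0) h1.1, ?_⟩
  rw [V.map_mul (pow_ne_zero _ hx0) h1.1, V.map_pow hx0, h1.2, hx]
  ring

/-- the order of `p(x)` at a valuation with `V x < 0`. -/
theorem AddVal.ord_aeval_of_neg_aux (V : AddVal F)
    (hV : ∀ c : K, c ≠ 0 → V.ord (algebraMap K F c) = 0) (x : F) (hx0 : x ≠ 0)
    (hx : V.ord x < 0) (p : K[X]) (hp : p ≠ 0) :
    aeval x p ≠ 0 ∧ V.ord (aeval x p) = V.ord x * p.natDegree := by
  have hlc : p.leadingCoeff ≠ 0 := leadingCoeff_ne_zero.mpr hp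
  have h1 : aeval x p = algebraMap K F p.leadingCoeff * x ^ p.natDegree
      + ∑ i ∈ Finset.range p.natDegree, algebraMap K F (p.coeff i) * x ^ i := by
    rw [aeval_eq_sum_range, Finset.sum_range_succ, add_comm]
    simp only [Algebra.smul_def, coeff_natDegree]
  have hl0 : algebraMap K F p.leadingCoeff * x ^ p.natDegree ≠ 0 :=
    mul_ne_zero (by simpa using hlc) (pow_ne_zero _ hx0)
  have hl : V.ord (algebraMap K F p.leadingCoeff * x ^ p.natDegree) = V.ord x * p.natDegree := by
    rw [V.map_mul (by simpa using hlc) (pow_ne_zero _ hx0), hV _ hlc, V.map_pow hx0]; ring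
  have h2 := V.ord_add_of_lt hl0
    (y := ∑ i ∈ Finset.range p.natDegree, algebraMap K F (p.coeff i) * x ^ i) (by
    refine AddVal.Ge.sum V _ _ fun i hi => ?_
    rcases eq_or_ne (p.coeff i) 0 with h | h
    · rw [h, _root_.map_zero, zero_mul]; exact V.ge_zero _
    · refine Or.inr ?_
      rw [hl, V.map_mul (by simpa using h) (pow_ne_zero _ hx0), hV _ h, V.map_pow hx0]
      have hi' : (i : ℤ) + 1 ≤ p.natDegree := by exact_mod_cast Finset.mem_range.mp hi
      nlinarith)
  rw [h1]
  exact ⟨h2.1, h2.2.trans hl⟩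

variable (ν : AddVal F) (hν : ∀ c : K, c ≠ 0 → ν.ord (algebraMap K F c) = 0) (x : F)
  (P : K[X]) (hP : P ≠ 0)

include hν hP in
theorem AddVal.aeval_ne_zero_of_pos (a : K) (h : 0 < ν.ord (x - algebraMap K F a))
    (hxa : x - algebraMap K F a ≠ 0) : aeval x P ≠ 0 :=
  (ν.ord_aeval_of_pos_aux hν x a _ h hxa rfl P hP).1

include hν hP in
theorem AddVal.ord_aeval_of_pos (a : K) (h : 0 < ν.ord (x - algebraMap K F a))
    (hxa : x - algebraMap K F a ≠ 0) :
    ν.ord (aeval x P) = P.rootMultiplicity a * ν.ord (x - algebraMap K F a) := by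
  rw [(ν.ord_aeval_of_pos_aux hν x a _ h hxa rfl P hP).2, mul_comm]

include hν hP in
theorem AddVal.aeval_ne_zero_of_neg (hx0 : x ≠ 0) (h : ν.ord x < 0) : aeval x P ≠ 0 :=
  (ν.ord_aeval_of_neg_aux hν x hx0 h P hP).1

include hν hP in
theorem AddVal.ord_aeval_of_neg (hx0 : x ≠ 0) (h : ν.ord x < 0) :
    ν.ord (aeval x P) = P.natDegree * ν.ord x := by
  rw [(ν.ord_aeval_of_neg_aux hν x hx0 h P hP).2, mul_comm]

include hP in
/-- over an algebraically closed field the root multiplicities add up to the degree. -/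
theorem sum_rootMultiplicity [IsAlgClosed K] (T : Finset K) (hT : ∀ a, P.IsRoot a → a ∈ T) :
    ∑ a ∈ T, P.rootMultiplicity a = P.natDegree := by
  classical
  have hA : P.roots.toFinset ⊆ T := by
    intro a ha
    rw [Multiset.mem_toFinset, mem_roots hP] at ha
    exact hT a ha
  rw [← (IsAlgClosed.splits P).natDegree_eq_card_roots.symm, ← Multiset.toFinset_sum_count_eq]
  rw [← Finset.sum_subset hA]
  · exact Finset.sum_congr rfl fun a _ => (count_roots P).symm
  · intro a _ ha
    rw [← count_roots]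
    rw [Multiset.mem_toFinset] at ha
    exact Multiset.count_eq_zero_of_notMem ha

end Fermat.Agent.S24Aux
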