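/-
S24 helper library: places over a point of the `x`-line versus embeddings.
-/
import Fermat.Agent.S24.Approx
import Fermat.Agent.S24.ValPoly
import Fermat.Agent.S24.GalEmb
import Fermat.Agent.S24.LocalData

set_option autoImplicit false
set_option linter.style.haveILetI false
set_option linter.unusedSectionVars false

namespace Fermat.Agent.S24Aux

open AlgebraicCurve IntermediateField Polynomial

variable {K F L : Type*} [Field K] [Field F] [Algebra K F] [Field L] [Algebra K L]

/-- two `K`-embeddings agreeing at `x` agree on `K(x)`. -/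
theorem algHom_eq_of_mem_adjoin (x : F) (j j' : F →ₐ[K] L) (h : j x = j' x) {c : F}
    (hc : c ∈ K⟮x⟯) : j c = j' c := by
  obtain ⟨r, s, rfl⟩ := (IntermediateField.mem_adjoin_simple_iff K c).mp hc
  rw [map_div₀, map_div₀, ← aeval_algHom_apply, ← aeval_algHom_apply, ← aeval_algHom_apply,
    ← aeval_algHom_apply, h]

theorem AddVal.map_prod (w : AddVal L) {Y : Type*} (S : Finset Y) (g : Y → L)
    (hg : ∀ s ∈ S, g s ≠ 0) : w.ord (∏ s ∈ S, g s) = ∑ s ∈ S, w.ord (g s) := by
  classical
  induction S using Finset.induction_on with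
  | empty => simp [w.map_one]
  | insert a S ha ih =>
    rw [Finset.prod_insert ha, Finset.sum_insert ha,
      w.map_mul (hg a (Finset.mem_insert_self _ _))
        (Finset.prod_ne_zero_iff.mpr fun s hs => hg s (Finset.mem_insert_of_mem hs)),
      ih fun s hs => hg s (Finset.mem_insert_of_mem hs)]

/-- `T` is a local parameter of the subfield `k`: any two valuations positive at `T` are
proportional on `k`. -/
def Comparable (K : Type*) {F : Type*} [Field K] [Field F] [Algebra K F]
    (k : IntermediateField K F) (T : F) : Prop :=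
  ∀ V W : AddVal F, (∀ c : K, c ≠ 0 → V.ord (algebraMap K F c) = 0) →
    (∀ c : K, c ≠ 0 → W.ord (algebraMap K F c) = 0) → 0 < V.ord T → 0 < W.ord T →
    ∀ c ∈ k, c ≠ 0 → V.ord c * W.ord T = W.ord c * V.ord T

theorem comparable_sub (x : F) (a : K) (hxa : x - algebraMap K F a ≠ 0) :
    Comparable K K⟮x⟯ (x - algebraMap K F a) := by
  intro V W hV hW hVT hWT c hc hc0
  obtain ⟨r, s, rfl⟩ := (IntermediateField.mem_adjoin_simple_iff K c).mp hc
  have hr : r ≠ 0 := by
    rintro rfl
    simp at hc0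
  have hs : s ≠ 0 := by
    rintro rfl
    simp at hc0
  rw [V.map_div (V.aeval_ne_zero_of_pos hV x r hr a hVT hxa)
      (V.aeval_ne_zero_of_pos hV x s hs a hVT hxa),
    W.map_div (V.aeval_ne_zero_of_pos hV x r hr a hVT hxa)
      (V.aeval_ne_zero_of_pos hV x s hs a hVT hxa),
    V.ord_aeval_of_pos hV x r hr a hVT hxa, V.ord_aeval_of_pos hV x s hs a hVT hxa,
    W.ord_aeval_of_pos hW x r hr a hWT hxa, W.ord_aeval_of_pos hW x s hs a hWT hxa]
  ring

theorem comparable_inv (x : F) (hx0 : x ≠ 0) : Comparable K K⟮x⟯ x⁻¹ := by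
  intro V W hV hW hVT hWT c hc hc0
  rw [V.map_inv hx0] at hVT ⊢
  rw [W.map_inv hx0] at hWT ⊢
  have hVT' : V.ord x < 0 := by omega
  have hWT' : W.ord x < 0 := by omega
  obtain ⟨r, s, rfl⟩ := (IntermediateField.mem_adjoin_simple_iff K c).mp hc
  have hr : r ≠ 0 := by
    rintro rfl
    simp at hc0
  have hs : s ≠ 0 := by
    rintro rfl
    simp at hc0
  rw [V.map_div (V.aeval_ne_zero_of_neg hV x r hr hx0 hVT')
      (V.aeval_ne_zero_of_neg hV x s hs hx0 hVT'),
    W.map_div (V.aeval_ne_zero_of_neg hV x r hr hx0 hVT')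
      (V.aeval_ne_zero_of_neg hV x s hs hx0 hVT'),
    V.ord_aeval_of_neg hV x r hr hx0 hVT', V.ord_aeval_of_neg hV x s hs hx0 hVT',
    W.ord_aeval_of_neg hW x r hr hx0 hWT', W.ord_aeval_of_neg hW x s hs hx0 hWT']
  ring

section Local

variable (x T : F) (hT0 : T ≠ 0) (hTk : T ∈ K⟮x⟯) (hcomp : Comparable K K⟮x⟯ T)
  (w : AddVal L) (hw : ∀ c : K, c ≠ 0 → w.ord (algebraMap K L c) = 0)
  {X : Type*} [Fintype X] (ι : X → F →ₐ[K] L) (hinj : Function.Injective ι)
  (hx : ∀ s s', ι s x = ι s' x)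
  (hcard : Fintype.card X = Module.finrank K⟮x⟯ F)
  (e0 : ℕ) (he0 : 0 < e0) (hwT : ∀ s, w.ord (ι s T) = e0)
  (vs : X → Place K F) (m : X → ℕ) (hm : ∀ s, 0 < m s)
  (hvs : ∀ s f, f ≠ 0 → w.ord (ι s f) = m s * (vs s).ord f)

include hT0 hwT hvs in
theorem fibre_mul_ord (s : X) : (m s : ℤ) * (vs s).ord T = e0 := by
  rw [← hvs s T hT0, hwT]

include hT0 hwT hvs he0 in
theorem fibre_ord_pos (s : X) : 0 < (vs s).ord T := by
  have h1 := fibre_mul_ord T hT0 w ι e0 hwT vs m hvs s
  have h2 : (0 : ℤ) < e0 := by exact_mod_cast he0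
  by_contra hcon
  have h3 : (vs s).ord T ≤ 0 := by omega
  have h4 : (0 : ℤ) ≤ m s := by positivity
  nlinarith

/-- the `K(x)`-algebra structure on `L` given by the embedding `ι s₀`. -/
@[reducible] noncomputable def algOfEmb (j : F →ₐ[K] L) : Algebra K⟮x⟯ L :=
  (j.toRingHom.comp (algebraMap K⟮x⟯ F)).toAlgebra

/-- the embeddings as `K(x)`-algebra homomorphisms. -/
noncomputable def embOver (s₀ s : X) :
    letI := algOfEmb x (ι s₀)
    F →ₐ[K⟮x⟯] L :=
  letI := algOfEmb x (ι s₀)
  { (ι s).toRingHom with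
    commutes' := fun c => algHom_eq_of_mem_adjoin x (ι s) (ι s₀) (hx s s₀) c.2 }

include hinj in
theorem embOver_injective (s₀ : X) :
    letI := algOfEmb x (ι s₀)
    Function.Injective (embOver x ι hx s₀) := by
  letI := algOfEmb x (ι s₀)
  intro s s' h
  apply hinj
  ext f
  exact DFunLike.congr_fun h f

variable [CharZero K]

include hcard in
theorem finiteDimensional_of_card [Nonempty X] : FiniteDimensional K⟮x⟯ F :=
  Module.finite_of_finrank_pos (by rw [← hcard]; exact Fintype.card_pos)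

include hinj hx hcard in
/-- the norm formula in `L`. -/
theorem emb_norm_eq_prod [Nonempty X] (s₀ : X) (c : F) :
    ι s₀ (Algebra.norm K⟮x⟯ c : K⟮x⟯) = ∏ s, ι s c := by
  haveI := finiteDimensional_of_card x hcard
  letI := algOfEmb x (ι s₀)
  exact algebraMap_norm_eq_prod (embOver x ι hx s₀) (embOver_injective x ι hinj hx s₀) hcard c

include hinj hx hcard hvs in
/-- the norm formula for orders. -/
theorem ord_emb_norm [Nonempty X] (s₀ : X) (c : F) (hc : c ≠ 0) :
    w.ord (ι s₀ (Algebra.norm K⟮x⟯ c : K⟮x⟯)) = ∑ s, (m s : ℤ) * (vs s).ord c := by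
  rw [emb_norm_eq_prod x ι hinj hx hcard s₀ c,
    w.map_prod _ _ fun s _ => (_root_.map_ne_zero (ι s)).mpr hc]
  exact Finset.sum_congr rfl fun s _ => hvs s c hc

include hT0 hTk hcomp hw hinj hx hcard he0 hwT hm hvs in
/-- every place over `T = 0` comes from an embedding. -/
theorem exists_eq_place [Nonempty X] (v : Place K F) (hv : 0 < v.ord T) : ∃ s, vs s = v := by
  classical
  by_contra hcon
  push Not at hcon
  have hvS : v ∉ Finset.univ.image vs := by
    intro h
    obtain ⟨s, _, hs⟩ := Finset.mem_image.mp h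
    exact hcon s hs
  obtain ⟨u, hu, huS⟩ := Place.exists_pos_forall_neg v _ hvS
  have hu0 : u ≠ 0 := Place.ne_zero_of_ord_ne_zero v (by omega)
  obtain ⟨s₀⟩ := ‹Nonempty X›
  haveI := finiteDimensional_of_card x hcard
  -- all conjugates of `u⁻¹` are integral
  have hconj : ∀ s, ι s u⁻¹ ∈ w.valuationSubring := by
    intro s
    rw [AddVal.mem_valuationSubring]
    refine Or.inr ?_
    rw [hvs s _ (inv_ne_zero hu0), (vs s).ord_inv]
    have h1 := huS (vs s) (Finset.mem_image_of_mem _ (Finset.mem_univ s))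
    have h2 : (0 : ℤ) ≤ m s := by positivity
    nlinarith
  have hcoeff : ∀ i, (((minpoly K⟮x⟯ u⁻¹).coeff i : K⟮x⟯) : F) ∈ v.toValuationSubring := by
    intro i
    letI := algOfEmb x (ι s₀)
    have h1 := coeff_minpoly_mem (embOver x ι hx s₀) (embOver_injective x ι hinj hx s₀) hcard
      w.valuationSubring u⁻¹ hconj i
    set c : K⟮x⟯ := (minpoly K⟮x⟯ u⁻¹).coeff i with hc
    have h2 : w.Ge 0 (ι s₀ (c : F)) := (AddVal.mem_valuationSubring w _).mp h1
    rcases eq_or_ne (c : F) 0 with h0 | h0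
    · rw [h0]; exact zero_mem _
    rw [Place.mem_iff v h0]
    have h3 := hcomp (Place.addVal v) (w.comap (ι s₀).toRingHom)
      (fun a ha => Place.ord_algebraMap v ha)
      (fun a ha => by
        rw [AddVal.comap_ord]
        simpa using hw a ha)
      hv (by
        rw [AddVal.comap_ord]
        have := hwT s₀
        have h4 : (0 : ℤ) < e0 := by exact_mod_cast he0
        simpa [this] using h4) c c.2 h0
    simp only [Place.addVal_ord, AddVal.comap_ord] at h3
    have h4 : w.ord (ι s₀ (c : F)) ≥ 0 := (w.ge_iff ((_root_.map_ne_zero _).mpr h0)).mp h2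
    have h5 : w.ord (ι s₀ T) = e0 := hwT s₀
    have h6 : (0 : ℤ) < e0 := by exact_mod_cast he0
    simp only [AlgHom.toRingHom_eq_coe, RingHom.coe_coe] at h3
    rw [h5] at h3
    by_contra hneg
    have h7 : v.ord (c : F) < 0 := by omega
    nlinarith
  have hint : IsIntegral v.toValuationSubring u⁻¹ := by
    have hI : IsIntegral K⟮x⟯ u⁻¹ := Algebra.IsIntegral.isIntegral _
    refine IsIntegral.of_aeval_monic_of_isIntegral_coeff
      (p := (minpoly K⟮x⟯ u⁻¹).map (algebraMap K⟮x⟯ F)) ((minpoly.monic hI).map _) ?_ ?_ ?_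
    · rw [(minpoly.monic hI).natDegree_map]
      exact (minpoly.natDegree_pos hI).ne'
    · rw [eval_map_algebraMap, minpoly.aeval]
      exact isIntegral_zero
    · intro i
      rw [coeff_map]
      exact (isIntegral_algebraMap (R := v.toValuationSubring) (x := ⟨_, hcoeff i⟩))
  obtain ⟨a, ha⟩ := IsIntegrallyClosed.isIntegral_iff.mp hint
  have hmem : u⁻¹ ∈ v.toValuationSubring := by
    rw [← ha]; exact a.2
  rw [Place.mem_iff v (inv_ne_zero hu0), v.ord_inv] at hmem
  omega

variable [IsAlgClosed K] (htr : Algebra.trdeg K F = 1)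

include hT0 hTk hinj hx he0 hwT hm hvs htr in
/-- (α) the fibre over a place `v` has at most `ord_v T` elements. -/
theorem card_fibre_le [DecidableEq (Place K F)] (s : X) :
    ((Finset.univ.filter fun s' => vs s' = vs s).card : ℤ) ≤ (vs s).ord T := by
  have hpos := fibre_ord_pos T hT0 w ι e0 he0 hwT vs m hvs s
  obtain ⟨e, he⟩ := Int.eq_ofNat_of_zero_le hpos.le
  rw [he]
  have he' : 0 < e := by
    rw [he] at hpos
    exact_mod_cast hpos
  have := card_le_of_same_place (vs s) (Place.exists_const_of_trdeg htr (vs s)) w T e he' he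
    (Finset.univ.filter fun s' => vs s' = vs s) ι hinj.injOn (m s) (hm s) (by
      intro s' hs' f hf
      have hs'' : vs s' = vs s := (Finset.mem_filter.mp hs').2
      rw [hvs s' f hf, hs'']
      have h1 := fibre_mul_ord T hT0 w ι e0 hwT vs m hvs s
      have h2 := fibre_mul_ord T hT0 w ι e0 hwT vs m hvs s'
      rw [hs''] at h2
      have h3 : (m s' : ℤ) = m s := by
        have : ((m s' : ℤ) - m s) * (vs s).ord T = 0 := by rw [sub_mul, h1, h2, sub_self]
        rcases mul_eq_zero.mp this with h | h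
        · omega
        · omega
      rw [h3])
    (fun s' _ s'' _ => algHom_eq_of_mem_adjoin x _ _ (hx s' s'') hTk)
  exact_mod_cast this

variable (σ : Equiv.Perm X) (hσ : ∀ s f, f ≠ 0 → w.ord (ι (σ s) f) = w.ord (ι s f))
  (hfix : ∀ s (k : ℕ), (σ ^ k) s = s → ∀ f, f ≠ 0 → (e0 : ℤ) ∣ k * w.ord (ι s f))

include hm hvs hσ in
theorem place_perm (s : X) : vs (σ s) = vs s := by
  refine Place.eq_of_forall_le fun f hf h => ?_
  have h1 := hσ s f hf
  rw [hvs _ f hf, hvs _ f hf] at h1
  have h2 : (0 : ℤ) < m s := by exact_mod_cast hm s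
  have h3 : (0 : ℤ) < m (σ s) := by exact_mod_cast hm (σ s)
  by_contra hneg
  have h4 : (vs s).ord f < 0 := by omega
  nlinarith

include hm hvs hσ in
theorem place_perm_pow (s : X) (i : ℕ) : vs ((σ ^ i) s) = vs s := by
  induction i with
  | zero => simp
  | succ i ih =>
    rw [pow_succ', Equiv.Perm.mul_apply, place_perm w ι vs m hm hvs σ hσ, ih]

include hT0 hwT hm hvs hfix in
/-- (β) the period of `s` under `σ` is a multiple of `ord_v T`. -/
theorem ord_dvd_of_pow_fix (s : X) (k : ℕ) (hk : (σ ^ k) s = s) : (vs s).ord T ∣ k := by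
  obtain ⟨π, hπ⟩ := Place.exists_ord_eq_one (vs s)
  have hπ0 : π ≠ 0 := Place.ne_zero_of_ord_ne_zero (vs s) (by omega)
  have h1 := hfix s k hk π hπ0
  rw [hvs s π hπ0, hπ, mul_one, ← fibre_mul_ord T hT0 w ι e0 hwT vs m hvs s, mul_comm (k : ℤ)] at h1
  have h2 : (m s : ℤ) ≠ 0 := by exact_mod_cast (hm s).ne'
  exact (mul_dvd_mul_iff_left h2).mp h1

include hT0 hwT hm hvs hfix in
theorem pow_injOn (s : X) :
    Set.InjOn (fun i : ℕ => (σ ^ i) s) (Finset.range ((vs s).ord T).toNat) := by
  -- `σ^i s = σ^j s` with `i ≤ j` gives `σ^(j-i) s = s`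
  have key : ∀ i j : ℕ, i ≤ j → j < ((vs s).ord T).toNat → (σ ^ i) s = (σ ^ j) s → i = j := by
    intro i j hij hj h
    have h1 : (σ ^ (j - i)) s = s := by
      have : σ ^ j = σ ^ i * σ ^ (j - i) := by rw [← pow_add, Nat.add_sub_cancel' hij]
      rw [this, Equiv.Perm.mul_apply] at h
      exact ((σ ^ i).injective h).symm
    have h2 := ord_dvd_of_pow_fix T hT0 w ι e0 hwT vs m hm hvs σ hfix s _ h1
    by_contra hne
    have h3 : (0 : ℤ) < ((j - i : ℕ) : ℤ) := by
      have : 0 < j - i := by omega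
      exact_mod_cast this
    have h4 := Int.le_of_dvd h3 h2
    omega
  intro i hi j hj h
  rcases le_total i j with hij | hij
  · exact key i j hij (Finset.mem_range.mp hj) h
  · exact (key j i hij (Finset.mem_range.mp hi) h.symm).symm

include hT0 hTk hinj hx he0 hwT hm hvs htr hσ hfix in
/-- the fibre of `s ↦ v_s` through `s` is `{σ^i s | i < ord_v T}`. -/
theorem fibre_eq_image [DecidableEq (Place K F)] [DecidableEq X] (s : X) :
    (Finset.univ.filter fun s' => vs s' = vs s)
      = (Finset.range ((vs s).ord T).toNat).image fun i => (σ ^ i) s := by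
  have hpos := fibre_ord_pos T hT0 w ι e0 he0 hwT vs m hvs s
  symm
  refine Finset.eq_of_subset_of_card_le ?_ ?_
  · intro s' hs'
    obtain ⟨i, _, rfl⟩ := Finset.mem_image.mp hs'
    exact Finset.mem_filter.mpr ⟨Finset.mem_univ _, place_perm_pow w ι vs m hm hvs σ hσ s i⟩
  · rw [Finset.card_image_of_injOn (pow_injOn T hT0 w ι e0 hwT vs m hm hvs σ hfix s),
      Finset.card_range]
    have := card_fibre_le x T hT0 hTk w ι hinj hx e0 he0 hwT vs m hm hvs htr s
    omega

include hT0 hTk hinj hx he0 hwT hm hvs htr hσ hfix in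
theorem card_fibre [DecidableEq (Place K F)] (s : X) :
    ((Finset.univ.filter fun s' => vs s' = vs s).card : ℤ) = (vs s).ord T := by
  classical
  have hpos := fibre_ord_pos T hT0 w ι e0 he0 hwT vs m hvs s
  rw [fibre_eq_image x T hT0 hTk w ι hinj hx e0 he0 hwT vs m hm hvs htr σ hσ hfix s,
    Finset.card_image_of_injOn (pow_injOn T hT0 w ι e0 hwT vs m hm hvs σ hfix s),
    Finset.card_range]
  omega

include hT0 hTk hinj hx he0 hwT hm hvs htr hσ hfix in
/-- two embeddings induce the same place iff they are in the same `σ`-orbit. -/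
theorem place_eq_iff (s s' : X) : vs s = vs s' ↔ ∃ i : ℕ, (σ ^ i) s = s' := by
  classical
  constructor
  · intro h
    have h1 : s' ∈ Finset.univ.filter fun s'' => vs s'' = vs s :=
      Finset.mem_filter.mpr ⟨Finset.mem_univ _, h.symm⟩
    rw [fibre_eq_image x T hT0 hTk w ι hinj hx e0 he0 hwT vs m hm hvs htr σ hσ hfix s] at h1
    obtain ⟨i, _, hi⟩ := Finset.mem_image.mp h1
    exact ⟨i, hi⟩
  · rintro ⟨i, rfl⟩
    exact (place_perm_pow w ι vs m hm hvs σ hσ s i).symm

include hT0 hTk hinj hx he0 hwT hm hvs htr hσ hfix in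
/-- summing over embeddings versus summing over places. -/
theorem sum_emb_eq [DecidableEq (Place K F)] (g : Place K F → ℤ) :
    ∑ s, (m s : ℤ) * g (vs s) = e0 * ∑ v ∈ Finset.univ.image vs, g v := by
  rw [← Finset.sum_fiberwise_of_maps_to (s := Finset.univ) (t := Finset.univ.image vs) (g := vs)
    (fun s _ => Finset.mem_image_of_mem _ (Finset.mem_univ s)), Finset.mul_sum]
  refine Finset.sum_congr rfl fun v hv => ?_
  obtain ⟨s, _, rfl⟩ := Finset.mem_image.mp hv
  have hpos := fibre_ord_pos T hT0 w ι e0 he0 hwT vs m hvs s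
  have h1 : ∀ s' ∈ Finset.univ.filter (fun s' => vs s' = vs s),
      (m s' : ℤ) * g (vs s') = m s * g (vs s) := by
    intro s' hs'
    have hs'' : vs s' = vs s := (Finset.mem_filter.mp hs').2
    have a1 := fibre_mul_ord T hT0 w ι e0 hwT vs m hvs s
    have a2 := fibre_mul_ord T hT0 w ι e0 hwT vs m hvs s'
    rw [hs''] at a2
    have a3 : (m s' : ℤ) = m s := by
      have : ((m s' : ℤ) - m s) * (vs s).ord T = 0 := by rw [sub_mul, a1, a2, sub_self]
      rcases mul_eq_zero.mp this with h | h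
      · omega
      · omega
    rw [a3, hs'']
  rw [Finset.sum_congr rfl h1, Finset.sum_const, nsmul_eq_mul,
    card_fibre x T hT0 hTk w ι hinj hx e0 he0 hwT vs m hm hvs htr σ hσ hfix s,
    ← fibre_mul_ord T hT0 w ι e0 hwT vs m hvs s]
  ring

omit [Fintype X] in
theorem comp_zpow_eq_of_comp {Z : Type*} (g : X → Z) (h : ∀ s, g (σ s) = g s) (n : ℤ) (s : X) :
    g ((σ ^ n) s) = g s := by
  have hinv : ∀ s, g (σ⁻¹ s) = g s := fun s => by
    have := h (σ⁻¹ s)
    simpa using this.symm
  induction n using Int.induction_on generalizing s with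
  | zero => simp
  | succ n ih => rw [zpow_add_one, Equiv.Perm.mul_apply, ih, h]
  | pred n ih => rw [zpow_sub_one, Equiv.Perm.mul_apply, ih, hinv]

include hT0 hTk hinj hx he0 hwT hm hvs htr hσ hfix in
/-- the number of places in the image is the number of `σ`-orbits. -/
theorem card_image_eq_orbits [DecidableEq (Place K F)] :
    (Finset.univ.image vs).card
      = Nat.card (MulAction.orbitRel.Quotient (Subgroup.zpowers σ) X) := by
  have hiff : ∀ s s' : X, (MulAction.orbitRel (Subgroup.zpowers σ) X) s s' ↔ vs s = vs s' := by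
    intro s s'
    rw [MulAction.orbitRel_apply, MulAction.mem_orbit_iff]
    constructor
    · rintro ⟨⟨g, n, rfl⟩, hg⟩
      have hg' : (σ ^ n) s' = s := hg
      rw [← hg']
      exact comp_zpow_eq_of_comp σ vs (place_perm w ι vs m hm hvs σ hσ) n s'
    · intro h
      obtain ⟨i, hi⟩ := (place_eq_iff x T hT0 hTk w ι hinj hx e0 he0 hwT vs m hm hvs htr σ hσ hfix
        s' s).mp h.symm
      exact ⟨⟨σ ^ i, ⟨i, by simp⟩⟩, hi⟩
  let φ : MulAction.orbitRel.Quotient (Subgroup.zpowers σ) X → {v // v ∈ Finset.univ.image vs} :=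
    Quotient.lift (fun s => ⟨vs s, Finset.mem_image_of_mem _ (Finset.mem_univ s)⟩)
      (fun s s' h => Subtype.ext ((hiff s s').mp h))
  have hφ : Function.Bijective φ := by
    constructor
    · intro a b
      induction a using Quotient.inductionOn with | _ s =>
      induction b using Quotient.inductionOn with | _ s' =>
      intro h
      exact Quotient.sound ((hiff s s').mpr (congrArg Subtype.val h))
    · rintro ⟨v, hv⟩
      obtain ⟨s, _, rfl⟩ := Finset.mem_image.mp hv
      exact ⟨Quotient.mk _ s, rfl⟩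
  rw [Nat.card_eq_of_bijective φ hφ, Nat.card_eq_fintype_card, Fintype.card_coe]

include hT0 hTk hcomp hw hinj hx hcard he0 hwT htr hσ hfix in
/-- **Local theorem**: the places over `T = 0`. -/
theorem exists_places_over [Nonempty X] :
    ∃ P : Finset (Place K F), (∀ v, v ∈ P ↔ 0 < v.ord T) ∧
      (∑ v ∈ P, v.ord T = Fintype.card X) ∧
      (P.card = Nat.card (MulAction.orbitRel.Quotient (Subgroup.zpowers σ) X)) ∧
      (∀ c : F, c ≠ 0 → ∀ s₀ : X,
        w.ord (ι s₀ (Algebra.norm K⟮x⟯ c : K⟮x⟯)) = e0 * ∑ v ∈ P, v.ord c) := by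
  classical
  have hex : ∀ s, ∃ (v : Place K F) (m : ℕ), 0 < m ∧ ∀ f : F, f ≠ 0 →
      w.ord (ι s f) = m * v.ord f := fun s =>
    exists_place_of_emb w hw (ι s) ⟨T, hT0, by
      rw [hwT s]
      exact_mod_cast he0.ne'⟩
  choose vs m hm hvs using hex
  have he0' : (e0 : ℤ) ≠ 0 := by exact_mod_cast he0.ne'
  refine ⟨Finset.univ.image vs, fun v => ⟨?_, ?_⟩, ?_, ?_, ?_⟩
  · intro hv
    obtain ⟨s, _, rfl⟩ := Finset.mem_image.mp hv
    exact fibre_ord_pos T hT0 w ι e0 he0 hwT vs m hvs s
  · intro hv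
    obtain ⟨s, rfl⟩ := exists_eq_place x T hT0 hTk hcomp w hw ι hinj hx hcard e0 he0 hwT vs m hm
      hvs v hv
    exact Finset.mem_image_of_mem _ (Finset.mem_univ s)
  · have h1 := sum_emb_eq x T hT0 hTk w ι hinj hx e0 he0 hwT vs m hm hvs htr σ hσ hfix
      (fun v => v.ord T)
    have h2 : ∑ s, (m s : ℤ) * (vs s).ord T = e0 * Fintype.card X := by
      rw [Finset.sum_congr rfl fun s _ => fibre_mul_ord T hT0 w ι e0 hwT vs m hvs s,
        Finset.sum_const, nsmul_eq_mul, Finset.card_univ, mul_comm]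
    rw [h2] at h1
    exact (mul_left_cancel₀ he0' h1).symm
  · exact card_image_eq_orbits x T hT0 hTk w ι hinj hx e0 he0 hwT vs m hm hvs htr σ hσ hfix
  · intro c hc s₀
    rw [ord_emb_norm x w ι hinj hx hcard vs m hvs s₀ c hc]
    exact sum_emb_eq x T hT0 hTk w ι hinj hx e0 he0 hwT vs m hm hvs htr σ hσ hfix
      (fun v => v.ord c)

end Local

open IntermediateField.algebraAdjoinAdjoin in
theorem trdeg_eq_one_of_finite (x : F) (hx : Transcendental K x) [FiniteDimensional K⟮x⟯ F] :
    Algebra.trdeg K F = 1 := by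
  haveI h1 : Algebra.IsAlgebraic (Algebra.adjoin K {x}) K⟮x⟯ :=
    IsLocalization.isAlgebraic _ (nonZeroDivisors (Algebra.adjoin K {x}))
  haveI h2 : Algebra.IsAlgebraic (Algebra.adjoin K {x}) F :=
    Algebra.IsAlgebraic.trans (Algebra.adjoin K {x}) K⟮x⟯ F
  apply le_antisymm
  · have := Algebra.IsAlgebraic.trdeg_le_cardinalMk K ({x} : Set F)
    simpa using this
  · haveI : Algebra.Transcendental K F := ⟨⟨x, hx⟩⟩
    exact Cardinal.one_le_iff_pos.mpr (trdeg_pos K F)

theorem locParam_ne_zero (x : F) (hx : Transcendental K x) (pt : Option K) :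
    locParam x pt ≠ 0 := by
  rcases pt with _ | a
  · rw [locParam_none]
    refine inv_ne_zero ?_
    rintro rfl
    exact hx isAlgebraic_zero
  · rw [locParam_some]
    intro h0
    rw [sub_eq_zero] at h0
    exact hx (h0 ▸ isAlgebraic_algebraMap a)

theorem locParam_mem (x : F) (pt : Option K) : locParam x pt ∈ K⟮x⟯ := by
  rcases pt with _ | a
  · exact inv_mem (mem_adjoin_simple_self K x)
  · exact sub_mem (mem_adjoin_simple_self K x) (IntermediateField.algebraMap_mem _ a)

theorem comparable_locParam (x : F) (hx : Transcendental K x) (pt : Option K) :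
    Comparable K K⟮x⟯ (locParam x pt) := by
  rcases pt with _ | a
  · refine comparable_inv x ?_
    rintro rfl
    exact hx isAlgebraic_zero
  · exact comparable_sub x a (locParam_ne_zero x hx (some a))

section LD

variable [IsAlgClosed K] [CharZero K] {w : AddVal L} {x : F} [FiniteDimensional K⟮x⟯ F]
  {G : Type*} [Group G] {X : Type*} [Fintype X] [MulAction G X]

theorem LocalData.nonempty (hdeg : Module.finrank K⟮x⟯ F ≤ Fintype.card X) : Nonempty X := by
  have h1 : 0 < Module.finrank K⟮x⟯ F := Module.finrank_pos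
  exact Fintype.card_pos_iff.mp (by omega)

theorem LocalData.card_eq (hdeg : Module.finrank K⟮x⟯ F ≤ Fintype.card X)
    {pt : Option K} {g : G} {e0 : ℕ} (dat : LocalData w x pt X g e0) :
    Fintype.card X = Module.finrank K⟮x⟯ F := by
  obtain ⟨s₀⟩ := LocalData.nonempty (K := K) (x := x) hdeg
  refine le_antisymm ?_ hdeg
  letI := algOfEmb x (dat.ι s₀)
  exact card_le_finrank_of_injective (embOver x dat.ι dat.agree s₀)
    (embOver_injective x dat.ι dat.inj dat.agree s₀)

/-- (FB) the places over the point `pt`. -/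
theorem LocalData.exists_places_over (hw : ∀ c : K, c ≠ 0 → w.ord (algebraMap K L c) = 0)
    (hx : Transcendental K x) (hdeg : Module.finrank K⟮x⟯ F ≤ Fintype.card X)
    {pt : Option K} {g : G} {e0 : ℕ} (he0 : 0 < e0) (dat : LocalData w x pt X g e0) :
    ∃ P : Finset (Place K F), (∀ v, v ∈ P ↔ 0 < v.ord (locParam x pt)) ∧
      (∑ v ∈ P, v.ord (locParam x pt) = Fintype.card X) ∧
      (P.card = Nat.card (MulAction.orbitRel.Quotient (Subgroup.zpowers g) X)) ∧
      (∀ c : F, c ≠ 0 → ∀ s₀ : X,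
        w.ord (dat.ι s₀ (Algebra.norm K⟮x⟯ c : K⟮x⟯)) = e0 * ∑ v ∈ P, v.ord c) := by
  haveI := LocalData.nonempty (K := K) (x := x) hdeg
  have hpow : ∀ (k : ℕ) (s : X), (MulAction.toPerm g ^ k) s = g ^ k • s := by
    intro k s
    rw [← MulAction.toPermHom_apply, ← map_pow, MulAction.toPermHom_apply, MulAction.toPerm_apply]
  have hzpow : ∀ (k : ℤ) (s : X), (MulAction.toPerm g ^ k) s = g ^ k • s := by
    intro k s
    rw [← MulAction.toPermHom_apply, ← map_zpow, MulAction.toPermHom_apply,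
      MulAction.toPerm_apply]
  obtain ⟨P, h1, h2, h3, h4⟩ := Fermat.Agent.S24Aux.exists_places_over x (locParam x pt)
    (locParam_ne_zero x hx pt) (locParam_mem x pt) (comparable_locParam x hx pt) w hw dat.ι dat.inj
    dat.agree (dat.card_eq hdeg) e0 he0 dat.ord_u (trdeg_eq_one_of_finite x hx)
    (MulAction.toPerm g) (fun s f _ => dat.ord_smul s f)
    (fun s k hk f hf => dat.dvd_of_fixed s k f hf (by rw [← hpow]; exact hk))
  refine ⟨P, h1, h2, ?_, h4⟩
  rw [h3]
  refine Nat.card_congr (Quotient.congr (Equiv.refl X) fun a b => ?_)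
  change (MulAction.orbitRel (Subgroup.zpowers (MulAction.toPerm g)) X) a b ↔
    (MulAction.orbitRel (Subgroup.zpowers g) X) a b
  rw [MulAction.orbitRel_apply, MulAction.orbitRel_apply, MulAction.mem_orbit_iff,
    MulAction.mem_orbit_iff]
  constructor
  · rintro ⟨⟨_, n, rfl⟩, hn⟩
    refine ⟨⟨g ^ n, n, rfl⟩, ?_⟩
    have hn' : (MulAction.toPerm g ^ n) b = a := hn
    rw [hzpow] at hn'
    exact hn'
  · rintro ⟨⟨_, n, rfl⟩, hn⟩
    refine ⟨⟨MulAction.toPerm g ^ n, n, rfl⟩, ?_⟩
    have hn' : g ^ n • b = a := hn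
    change (MulAction.toPerm g ^ n) b = a
    rw [hzpow]
    exact hn'

end LD

end Fermat.Agent.S24Aux
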