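import Mathlib

set_option autoImplicit false
set_option linter.style.haveILetI false
set_option linter.unusedVariables false
set_option linter.unusedSectionVars false

namespace Fermat.Agent.S24Aux

open Polynomial IsLocalRing

section Taylor

variable {K O : Type*} [Field K] [CommRing O] [IsDomain O] [IsDiscreteValuationRing O] [Algebra K O]

theorem not_dvd_algebraMap {π : O} (hπ : Irreducible π) (a : K) (ha : a ≠ 0) :
    ¬ π ∣ algebraMap K O a := by
  intro h
  have hu : IsUnit (algebraMap K O a) := (IsUnit.mk0 a ha).map (algebraMap K O)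
  exact hπ.not_isUnit (isUnit_of_dvd_unit h hu)

theorem X_pow_dvd_of_pow_dvd_aeval {π : O} (hπ : Irreducible π) (n : ℕ) :
    ∀ Q : K[X], π ^ n ∣ aeval π Q → (X : K[X]) ^ n ∣ Q := by
  induction n with
  | zero => intro Q _; simp
  | succ n ih =>
    intro Q hQ
    have h1 : aeval π Q = aeval π (divX Q) * π + algebraMap K O (Q.coeff 0) := by
      conv_lhs => rw [← divX_mul_X_add Q]
      simp
    have h2 : π ∣ algebraMap K O (Q.coeff 0) := by
      have h3 : π ∣ aeval π Q := (dvd_pow_self π (Nat.succ_ne_zero n)).trans hQ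
      rw [h1] at h3
      exact (dvd_add_right (Dvd.intro_left _ rfl)).mp h3
    have h0 : Q.coeff 0 = 0 := by
      by_contra h
      exact not_dvd_algebraMap hπ _ h h2
    rw [h0, map_zero, add_zero] at h1
    rw [h1, pow_succ] at hQ
    have h4 : π ^ n ∣ aeval π (divX Q) := (mul_dvd_mul_iff_right hπ.ne_zero).mp hQ
    have h5 := ih _ h4
    have h6 : Q = divX Q * X := by
      conv_lhs => rw [← divX_mul_X_add Q, h0, map_zero, add_zero]
    rw [h6, pow_succ]
    exact mul_dvd_mul_right h5 X

/-- the relation "`p` is the Taylor expansion of `u` in the uniformizer `π`" -/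
def IsTaylor (π : O) (u : O) (p : PowerSeries K) : Prop :=
  ∀ n : ℕ, ∃ P : K[X], (PowerSeries.X : PowerSeries K) ^ n ∣ ((P : PowerSeries K) - p) ∧
    π ^ n ∣ (u - aeval π P)

theorem IsTaylor.add {π u u' : O} {p p' : PowerSeries K} (h : IsTaylor π u p)
    (h' : IsTaylor π u' p') : IsTaylor π (u + u') (p + p') := by
  intro n
  obtain ⟨P, h1, h2⟩ := h n
  obtain ⟨P', h1', h2'⟩ := h' n
  refine ⟨P + P', ?_, ?_⟩
  · have := dvd_add h1 h1'
    convert this using 1
    rw [Polynomial.coe_add]; ring
  · have := dvd_add h2 h2'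
    convert this using 1
    rw [map_add]; ring

theorem IsTaylor.mul {π u u' : O} {p p' : PowerSeries K} (h : IsTaylor π u p)
    (h' : IsTaylor π u' p') : IsTaylor π (u * u') (p * p') := by
  intro n
  obtain ⟨P, h1, h2⟩ := h n
  obtain ⟨P', h1', h2'⟩ := h' n
  refine ⟨P * P', ?_, ?_⟩
  · have := dvd_add (Dvd.dvd.mul_left h1' (P : PowerSeries K)) (Dvd.dvd.mul_right h1 p')
    convert this using 1
    rw [Polynomial.coe_mul]; ring
  · have := dvd_add (Dvd.dvd.mul_left h2' u) (Dvd.dvd.mul_right h2 (aeval π P'))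
    convert this using 1
    rw [map_mul]; ring

theorem IsTaylor.algebraMap (π : O) (a : K) : IsTaylor π (algebraMap K O a) (PowerSeries.C a) := by
  intro n
  exact ⟨C a, by simp, by simp⟩

theorem IsTaylor.self (π : O) : IsTaylor (K := K) π π PowerSeries.X := by
  intro n
  exact ⟨X, by simp, by simp⟩

theorem IsTaylor.unique {π : O} (hπ : Irreducible π) {u : O} {p p' : PowerSeries K}
    (h : IsTaylor π u p) (h' : IsTaylor π u p') : p = p' := by
  rw [← sub_eq_zero]
  ext m
  rw [map_zero]
  obtain ⟨P, h1, h2⟩ := h (m + 1)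
  obtain ⟨P', h1', h2'⟩ := h' (m + 1)
  have h3 : π ^ (m + 1) ∣ aeval π (P - P') := by
    have := dvd_sub h2' h2
    convert this using 1
    rw [map_sub]; ring
  have h4 := X_pow_dvd_of_pow_dvd_aeval hπ _ _ h3
  have h5 : (PowerSeries.X : PowerSeries K) ^ (m + 1) ∣ ((P - P' : K[X]) : PowerSeries K) := by
    obtain ⟨R, hR⟩ := h4
    rw [hR, Polynomial.coe_mul, Polynomial.coe_pow, Polynomial.coe_X]
    exact Dvd.intro _ rfl
  have h6 : (PowerSeries.X : PowerSeries K) ^ (m + 1) ∣ p - p' := by
    have := dvd_sub (dvd_sub h5 h1) (dvd_neg.mpr h1')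
    convert this using 1
    rw [Polynomial.coe_sub]; ring
  exact PowerSeries.X_pow_dvd_iff.mp h6 m (Nat.lt_succ_self m)

theorem exists_isTaylor {π : O} (hπ : Irreducible π)
    (hres : ∀ u : O, ∃ a : K, π ∣ u - algebraMap K O a) (u : O) :
    ∃ p : PowerSeries K, IsTaylor π u p := by
  choose c hc using hres
  choose s hs using hc
  -- `u - c u = π * s u`
  let r : ℕ → O := fun n => Nat.rec u (fun _ w => s w) n
  have hr : ∀ n, r (n + 1) = s (r n) := fun n => rfl
  have hE : ∀ n, u = (∑ i ∈ Finset.range n, algebraMap K O (c (r i)) * π ^ i) + π ^ n * r n := by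
    intro n
    induction n with
    | zero => simp [r]
    | succ n ih =>
      rw [Finset.sum_range_succ, hr, pow_succ, mul_assoc, ← hs (r n)]
      conv_lhs => rw [ih]
      ring
  refine ⟨PowerSeries.mk fun i => c (r i), fun n => ⟨PowerSeries.trunc n (PowerSeries.mk fun i => c (r i)), ?_, ?_⟩⟩
  · rw [PowerSeries.X_pow_dvd_iff]
    intro m hm
    rw [map_sub, Polynomial.coeff_coe, PowerSeries.coeff_trunc, if_pos hm, sub_self]
  · have h1 : aeval π (PowerSeries.trunc n (PowerSeries.mk fun i => c (r i))) =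
        ∑ i ∈ Finset.range n, algebraMap K O (c (r i)) * π ^ i := by
      rw [aeval_def, PowerSeries.eval₂_trunc_eq_sum_range]
      simp
    rw [h1]
    refine ⟨r n, ?_⟩
    conv_lhs => rw [hE n]
    ring

theorem exists_taylor_algHom {π : O} (hπ : Irreducible π)
    (hres : ∀ u : O, ∃ a : K, π ∣ u - algebraMap K O a) :
    ∃ φ : O →ₐ[K] PowerSeries K, Function.Injective φ ∧ φ π = PowerSeries.X := by
  choose f hf using exists_isTaylor hπ hres
  let φ : O →ₐ[K] PowerSeries K :=
    { toFun := f
      map_one' := by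
        have := IsTaylor.algebraMap (K := K) π (1 : K)
        rw [map_one, map_one] at this
        exact (hf 1).unique hπ this
      map_mul' := fun a b => (hf (a * b)).unique hπ ((hf a).mul (hf b))
      map_zero' := by
        have := IsTaylor.algebraMap (K := K) π (0 : K)
        rw [map_zero, map_zero] at this
        exact (hf 0).unique hπ this
      map_add' := fun a b => (hf (a + b)).unique hπ ((hf a).add (hf b))
      commutes' := fun a => (hf _).unique hπ (IsTaylor.algebraMap π a) }
  refine ⟨φ, ?_, (hf π).unique hπ (IsTaylor.self π)⟩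
  rw [injective_iff_map_eq_zero]
  intro u hu
  have h0 : IsTaylor π u (0 : PowerSeries K) := by
    have := hf u
    have hu' : f u = 0 := hu
    rwa [hu'] at this
  by_contra hne
  obtain ⟨n, hn⟩ := FiniteMultiplicity.of_not_isUnit hπ.not_isUnit hne
  obtain ⟨P, h1, h2⟩ := h0 (n + 1)
  apply hn
  rw [sub_zero] at h1
  have h3 : (X : K[X]) ^ (n + 1) ∣ P := by
    rw [Polynomial.X_pow_dvd_iff]
    intro m hm
    have := PowerSeries.X_pow_dvd_iff.mp h1 m hm
    rwa [Polynomial.coeff_coe] at this
  obtain ⟨R, rfl⟩ := h3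
  have h4 : π ^ (n + 1) ∣ aeval π (X ^ (n + 1) * R : K[X]) := by
    rw [map_mul, map_pow, aeval_X]
    exact Dvd.intro _ rfl
  have := dvd_add h2 h4
  rwa [sub_add_cancel] at this

end Taylor

end Fermat.Agent.S24Aux
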