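import Mathlib
import Fermat.Agent.S24.Taylor
import Fermat.Agent.S24.Diff

set_option autoImplicit false
set_option linter.style.haveILetI false
set_option linter.unusedVariables false
set_option linter.unusedSectionVars false

namespace Fermat.Agent.S24Aux

open KaehlerDifferential AlgebraicCurve IsLocalRing

section A4

variable {K F : Type*} [Field K] [Field F] [Algebra K F]

theorem exists_sub_mem_of_deg (v : Place K F) (hdeg : v.deg = 1) (u : v.toValuationSubring) :
    ∃ a : K, u - algebraMap K v.toValuationSubring a ∈ maximalIdeal v.toValuationSubring := by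
  have h1 : (⊥ : Subalgebra K v.ResidueField) = ⊤ := Subalgebra.bot_eq_top_of_finrank_eq_one hdeg
  have h2 : residue v.toValuationSubring u ∈ (⊥ : Subalgebra K v.ResidueField) := by
    rw [h1]; exact Algebra.mem_top
  obtain ⟨a, ha⟩ := Algebra.mem_bot.mp h2
  refine ⟨a, ?_⟩
  rw [← residue_eq_zero_iff, map_sub, sub_eq_zero]
  exact ha.symm

theorem exists_irreducible_of_ord (v : Place K F) (t : F) (ht : v.ord t = 1) :
    ∃ π : v.toValuationSubring, Irreducible π ∧ (π : F) = t := by
  obtain ⟨π₀, hπ₀⟩ := IsDiscreteValuationRing.exists_irreducible v.toValuationSubring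
  have ht0 : t ≠ 0 := by
    rintro rfl
    simp at ht
  obtain ⟨u, hu⟩ := v.exists_unit_mul_zpow ht0 hπ₀
  rw [ht, zpow_one] at hu
  exact ⟨u * π₀, (irreducible_units_mul u).mpr hπ₀, by rw [hu]; rfl⟩

variable [CharZero K]

theorem coeff_mem (v : Place K F) (hdeg : v.deg = 1) (t : F)
    (ht : v.ord t = 1) (u : v.toValuationSubring) (c : F)
    (hc : D K F (u : F) = c • D K F t) : c ∈ v.toValuationSubring := by
  obtain ⟨π, hπ, rfl⟩ := exists_irreducible_of_ord v t ht
  by_contra hcO
  have hc0 : c ≠ 0 := fun h => hcO (h ▸ zero_mem _)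
  have hb : c⁻¹ ∈ v.toValuationSubring :=
    (v.toValuationSubring.mem_or_inv_mem c).resolve_left hcO
  set b : v.toValuationSubring := ⟨c⁻¹, hb⟩ with hbdef
  have hbnu : ¬ IsUnit b := by
    rintro ⟨w, hw⟩
    apply hcO
    have h1 : ((w⁻¹ : v.toValuationSubringˣ) : v.toValuationSubring) * b = 1 := by
      rw [← hw]; simp
    have h2 : (((w⁻¹ : v.toValuationSubringˣ) : v.toValuationSubring) : F) * c⁻¹ = 1 := by
      have := congrArg (Subtype.val) h1
      simpa using this
    have h3 : c = (((w⁻¹ : v.toValuationSubringˣ) : v.toValuationSubring) : F) := by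
      field_simp at h2
      exact h2.symm
    rw [h3]
    exact Subtype.property _
  have hres : ∀ u : v.toValuationSubring, ∃ a : K, π ∣ u - algebraMap K v.toValuationSubring a := by
    intro u
    obtain ⟨a, ha⟩ := exists_sub_mem_of_deg v hdeg u
    rw [hπ.maximalIdeal_eq, Ideal.mem_span_singleton] at ha
    exact ⟨a, ha⟩
  obtain ⟨φ, hφinj, hφπ⟩ := exists_taylor_algHom hπ hres
  letI : Algebra v.toValuationSubring (PowerSeries K) := φ.toRingHom.toAlgebra
  haveI : IsScalarTower K v.toValuationSubring (PowerSeries K) :=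
    IsScalarTower.of_algebraMap_eq (fun a => (φ.commutes a).symm)
  let d₀ : Derivation K v.toValuationSubring (PowerSeries K) :=
    (PowerSeries.derivative K).compAlgebraMap v.toValuationSubring
  have hd₀ : ∀ x, d₀ x = PowerSeries.derivative K (φ x) := fun x => rfl
  let ω : Ω[v.toValuationSubring⁄K] := b • D K v.toValuationSubring u - D K v.toValuationSubring π
  have hω : KaehlerDifferential.map K K v.toValuationSubring F ω = 0 := by
    rw [map_sub, map_smul, KaehlerDifferential.map_D, KaehlerDifferential.map_D]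
    have h1 : algebraMap v.toValuationSubring F u = (u : F) := rfl
    have h2 : algebraMap v.toValuationSubring F π = (π : F) := rfl
    rw [h1, h2, hc, ← algebraMap_smul F b, smul_smul]
    have h3 : algebraMap v.toValuationSubring F b * c = 1 := by
      show c⁻¹ * c = 1
      exact inv_mul_cancel₀ hc0
    rw [h3, one_smul, sub_self]
  obtain ⟨s, hs⟩ := (IsLocalizedModule.eq_zero_iff (nonZeroDivisors v.toValuationSubring)
    (KaehlerDifferential.map K K v.toValuationSubring F)).mp hω
  have h1 := congrArg d₀.liftKaehlerDifferential hs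
  rw [map_zero, Submonoid.smul_def, map_smul, map_sub, map_smul,
    Derivation.liftKaehlerDifferential_comp_D, Derivation.liftKaehlerDifferential_comp_D,
    hd₀, hd₀, hφπ] at h1
  have hX : PowerSeries.derivative K (PowerSeries.X : PowerSeries K) = 1 := by
    simp
  rw [hX, Algebra.smul_def, Algebra.smul_def] at h1
  have hs0 : algebraMap v.toValuationSubring (PowerSeries K) (s : v.toValuationSubring) ≠ 0 := by
    show φ s ≠ 0
    rw [Ne, map_eq_zero_iff φ hφinj]
    exact nonZeroDivisors.ne_zero s.2
  have h2 := (mul_eq_zero.mp h1).resolve_left hs0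
  rw [sub_eq_zero] at h2
  have h3 : IsUnit (φ b) := IsUnit.of_mul_eq_one _ h2
  have h4 : π ∣ b := by
    have : b ∈ maximalIdeal v.toValuationSubring := (mem_maximalIdeal b).mpr hbnu
    rwa [hπ.maximalIdeal_eq, Ideal.mem_span_singleton] at this
  have h5 : (PowerSeries.X : PowerSeries K) ∣ φ b := by
    rw [← hφπ]; exact map_dvd φ h4
  have h6 : IsUnit (PowerSeries.X : PowerSeries K) := isUnit_of_dvd_unit h5 h3
  exact PowerSeries.X_prime.not_isUnit h6


omit [CharZero K] in
theorem ord_eq_zero_of_isUnit (v : Place K F) (w : v.toValuationSubring) (hw : IsUnit w) :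
    v.ord (w : F) = 0 := by
  obtain ⟨U, rfl⟩ := hw
  exact v.ord_coe_unit U

/-- **A4**: the order of `df` at a place of degree one where `f` has a zero or a pole. -/
theorem ordDifferential_D (htr : Algebra.trdeg K F = 1) (v : Place K F) (hdeg : v.deg = 1)
    (f : F) (hf : v.ord f ≠ 0) : v.ordDifferential (D K F f) = v.ord f - 1 := by
  haveI := dCoordGenerates htr v
  haveI := nontrivial_kaehler (K := K) (F := F) htr
  obtain ⟨t, ht, hd⟩ := exists_dCoord_eq v
  obtain ⟨π, hπ, hπt⟩ := exists_irreducible_of_ord v t ht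
  have hf0 : f ≠ 0 := by
    rintro rfl
    simp at hf
  have ht0 : t ≠ 0 := by
    rintro rfl
    simp at ht
  obtain ⟨u, hu⟩ := v.exists_unit_mul_zpow hf0 hπ
  set m := v.ord f with hm
  have htt : Transcendental K t :=
    transcendental_of_ord_ne_zero v t (by rw [ht]; exact one_ne_zero)
  obtain ⟨c, hc⟩ := exists_eq_smul_D htr t htt (D K F ((u : v.toValuationSubring) : F))
  have hcO := coeff_mem v hdeg t ht (u : v.toValuationSubring) c hc
  rw [hπt] at hu
  have hDf : D K F f = (t ^ (m - 1) * (t * c + (m : F) * ((u : v.toValuationSubring) : F))) •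
      D K F t := by
    rw [hu, Derivation.leibniz, Derivation.leibniz_zpow, hc, ← Int.cast_smul_eq_zsmul F,
      smul_smul, smul_smul, smul_smul, ← add_smul]
    congr 1
    have : t ^ m = t ^ (m - 1) * t := by
      rw [← zpow_add_one₀ ht0, sub_add_cancel]
    rw [this]
    ring
  -- the bracket is a unit
  let w : v.toValuationSubring := π * ⟨c, hcO⟩ +
    algebraMap K v.toValuationSubring (m : K) * (u : v.toValuationSubring)
  have hw : (w : F) = t * c + (m : F) * ((u : v.toValuationSubring) : F) := by
    show (π : F) * c + algebraMap K F (m : K) * ((u : v.toValuationSubring) : F) = _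
    rw [hπt, map_intCast]
  have hwu : IsUnit w := by
    have h1 : IsUnit (algebraMap K v.toValuationSubring (m : K) * (u : v.toValuationSubring)) :=
      ((IsUnit.mk0 (m : K) (Int.cast_ne_zero.mpr hf)).map _).mul u.isUnit
    have h2 : π * ⟨c, hcO⟩ ∈ maximalIdeal v.toValuationSubring :=
      Ideal.mul_mem_right _ _ ((mem_maximalIdeal π).mpr hπ.not_isUnit)
    by_contra hnu
    have h3 : w ∈ maximalIdeal v.toValuationSubring := (mem_maximalIdeal w).mpr hnu
    have h4 := sub_mem h3 h2
    rw [add_sub_cancel_left] at h4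
    exact h4 h1
  have hw0 : (w : F) ≠ 0 := by
    intro h
    have : w = 0 := Subtype.ext h
    rw [this] at hwu
    exact not_isUnit_zero hwu
  rw [← hw, ← hd] at hDf
  rw [Place.ordDifferential, v.differentialCoeff_unique hDf,
    v.ord_mul (zpow_ne_zero _ ht0) hw0, v.ord_zpow, ht, ord_eq_zero_of_isUnit v w hwu]
  ring

/-- version for a place over a finite value `a` of `x`. -/
theorem ordDifferential_D_of_sub (htr : Algebra.trdeg K F = 1) (v : Place K F) (hdeg : v.deg = 1)
    (x : F) (a : K) (hx : v.ord (x - algebraMap K F a) ≠ 0) :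
    v.ordDifferential (D K F x) = v.ord (x - algebraMap K F a) - 1 := by
  rw [← ordDifferential_D htr v hdeg _ hx, map_sub, Derivation.map_algebraMap, sub_zero]

end A4

end Fermat.Agent.S24Aux
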