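/-
S24 helper library: abstract Riemann-Hurwitz from uniformisation data at all points.
-/
import Fermat.Agent.S24.Fibre
import Fermat.Agent.S24.OrdDiff

set_option autoImplicit false
set_option linter.style.haveILetI false
set_option linter.unusedSectionVars false

namespace Fermat.Agent.S24Aux

open AlgebraicCurve IntermediateField KaehlerDifferential

variable {K F : Type*} [Field K] [Field F] [Algebra K F] [IsAlgClosed K] [CharZero K]
  {L : Type*} [Field L] [Algebra K L] {w : AddVal L}
  {x : F} [FiniteDimensional K⟮x⟯ F]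
  {G : Type*} [Group G] {X : Type*} [Fintype X] [MulAction G X]

omit [CharZero K] [FiniteDimensional K⟮x⟯ F] in
/-- every place has a centre on the `x`-line. -/
theorem Place.exists_center (htr : Algebra.trdeg K F = 1) (hx : Transcendental K x)
    (v : Place K F) : ∃ pt : Option K, 0 < v.ord (locParam x pt) := by
  by_cases h : 0 ≤ v.ord x
  · obtain ⟨a, ha, _⟩ := Place.existsUnique_center htr v x hx h
    exact ⟨some a, ha⟩
  · refine ⟨none, ?_⟩
    rw [locParam_none, v.ord_inv]
    omega

omit [IsAlgClosed K] [CharZero K] [FiniteDimensional K⟮x⟯ F] in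
/-- the centre is unique. -/
theorem Place.center_unique (hx : Transcendental K x) (v : Place K F) {pt pt' : Option K}
    (h : 0 < v.ord (locParam x pt)) (h' : 0 < v.ord (locParam x pt')) : pt = pt' := by
  have hne := locParam_ne_zero x hx
  have key : ∀ a : K, 0 < v.ord (locParam x (some a)) → (Place.addVal v).Ge 0 x := by
    intro a ha
    have : x = (x - algebraMap K F a) + algebraMap K F a := by ring
    rw [this]
    refine AddVal.Ge.add _ (Or.inr ?_) ?_
    · rw [Place.addVal_ord]
      rw [locParam_some] at ha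
      omega
    · rcases eq_or_ne a 0 with rfl | ha0
      · rw [map_zero]; exact AddVal.ge_zero _ _
      · exact Or.inr (Place.ord_algebraMap v ha0).ge
  have hx0 : x ≠ 0 := by
    rintro rfl
    exact hx isAlgebraic_zero
  have key2 : ∀ a : K, 0 < v.ord (locParam x (some a)) → 0 < v.ord (locParam x (none : Option K))
      → False := by
    intro a ha hn
    have h1 := ((Place.addVal v).ge_iff hx0).mp (key a ha)
    rw [locParam_none, v.ord_inv] at hn
    rw [Place.addVal_ord] at h1
    omega
  rcases pt with _ | a <;> rcases pt' with _ | b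
  · rfl
  · exact (key2 b h' h).elim
  · exact (key2 a h h').elim
  · congr 1
    by_contra hab
    have h1 : algebraMap K F (a - b) = (x - algebraMap K F b) - (x - algebraMap K F a) := by
      rw [map_sub]; ring
    have h2 : v.ord (algebraMap K F (a - b)) = 0 :=
      Place.ord_algebraMap v (sub_ne_zero.mpr hab)
    have h3 : (Place.addVal v).Ge 1 (algebraMap K F (a - b)) := by
      rw [h1]
      refine AddVal.Ge.sub _ (Or.inr ?_) (Or.inr ?_)
      · rw [Place.addVal_ord]; rw [locParam_some] at h'; omega
      · rw [Place.addVal_ord]; rw [locParam_some] at h; omega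
    have h4 := ((Place.addVal v).ge_iff
      ((map_ne_zero _).mpr (sub_ne_zero.mpr hab))).mp h3
    rw [Place.addVal_ord, h2] at h4
    omega

omit [CharZero K] [FiniteDimensional K⟮x⟯ F] in
/-- a sum over places, organised by centres. -/
theorem sum_support_eq_sum_centers (htr : Algebra.trdeg K F = 1) (hx : Transcendental K x)
    (P : Option K → Finset (Place K F)) (hP : ∀ pt v, v ∈ P pt ↔ 0 < v.ord (locParam x pt))
    (D : Place K F →₀ ℤ) (A : Finset (Option K))
    (hA : ∀ v ∈ D.support, ∀ pt, v ∈ P pt → pt ∈ A) :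
    ∑ v ∈ D.support, D v = ∑ pt ∈ A, ∑ v ∈ P pt, D v := by
  classical
  rw [← Finset.sum_biUnion]
  · refine Finset.sum_subset ?_ ?_
    · intro v hv
      obtain ⟨pt, hpt⟩ := Place.exists_center htr hx v
      exact Finset.mem_biUnion.mpr ⟨pt, hA v hv pt ((hP pt v).mpr hpt), (hP pt v).mpr hpt⟩
    · intro v _ hv
      exact Finsupp.notMem_support_iff.mp hv
  · intro pt _ pt' _ hne
    rw [Function.onFun, Finset.disjoint_left]
    intro v hv hv'
    exact hne (Place.center_unique hx v ((hP pt v).mp hv) ((hP pt' v).mp hv'))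

open Polynomial in
/-- the order of a polynomial at a point of the line. -/
noncomputable def ordAt (pt : Option K) (r : Polynomial K) : ℤ :=
  match pt with
  | some a => r.rootMultiplicity a
  | none => - r.natDegree

open Polynomial in
omit [IsAlgClosed K] [CharZero K] [FiniteDimensional K⟮x⟯ F] in
theorem AddVal.ord_aeval_locParam (W : AddVal F)
    (hW : ∀ c : K, c ≠ 0 → W.ord (algebraMap K F c) = 0) (hx : Transcendental K x)
    (pt : Option K) (h : 0 < W.ord (locParam x pt)) (r : K[X]) (hr : r ≠ 0) :
    aeval x r ≠ 0 ∧ W.ord (aeval x r) = ordAt pt r * W.ord (locParam x pt) := by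
  have hx0 : x ≠ 0 := by
    rintro rfl
    exact hx isAlgebraic_zero
  rcases pt with _ | a
  · rw [locParam_none, W.map_inv hx0] at h ⊢
    have h' : W.ord x < 0 := by omega
    refine ⟨W.aeval_ne_zero_of_neg hW x r hr hx0 h', ?_⟩
    rw [W.ord_aeval_of_neg hW x r hr hx0 h', ordAt]
    ring
  · rw [locParam_some] at h ⊢
    exact ⟨W.aeval_ne_zero_of_pos hW x r hr a h (locParam_ne_zero x hx (some a)),
      W.ord_aeval_of_pos hW x r hr a h (locParam_ne_zero x hx (some a))⟩

open Polynomial in
omit [CharZero K] in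
theorem sum_ordAt (r : K[X]) (hr : r ≠ 0) (A : Finset (Option K)) (hnone : none ∈ A)
    (hA : ∀ a, r.IsRoot a → some a ∈ A) : ∑ pt ∈ A, ordAt pt r = 0 := by
  classical
  have h1 : A = Finset.insertNone (Finset.eraseNone A) := by
    rw [Finset.insertNone_eraseNone, Finset.insert_eq_of_mem hnone]
  rw [h1, Finset.sum_insertNone]
  have h2 := sum_rootMultiplicity r hr (Finset.eraseNone A)
    (fun a ha => Finset.mem_eraseNone.mpr (hA a ha))
  simp only [ordAt]
  have h3 : (∑ a ∈ Finset.eraseNone A, (r.rootMultiplicity a : ℤ)) = r.natDegree := by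
    exact_mod_cast h2
  rw [h3]
  ring

omit [FiniteDimensional K⟮x⟯ F] in
/-- the order of `dx` at a place with centre `pt`. -/
theorem ordDifferential_D_of_center (htr : Algebra.trdeg K F = 1) (_hx : Transcendental K x)
    (v : Place K F) (pt : Option K) (h : 0 < v.ord (locParam x pt)) :
    v.ordDifferential (D K F x)
      = (if pt = none then -2 * v.ord (locParam x pt) else 0) + v.ord (locParam x pt) - 1 := by
  have hdeg := Place.deg_eq_one_of_trdeg htr v
  rcases pt with _ | a
  · rw [if_pos rfl]
    rw [locParam_none, v.ord_inv] at h ⊢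
    rw [ordDifferential_D htr v hdeg x (by omega)]
    ring
  · rw [if_neg (by simp)]
    rw [locParam_some] at h ⊢
    rw [ordDifferential_D_of_sub htr v hdeg x a (by omega)]
    ring

omit [Fintype X] in
/-- the trivial group has singleton orbits. -/
theorem card_orbits_one [Finite X] :
    Nat.card (MulAction.orbitRel.Quotient (Subgroup.zpowers (1 : G)) X) = Nat.card X := by
  refine (Nat.card_eq_of_bijective (Quotient.mk (MulAction.orbitRel (Subgroup.zpowers (1 : G)) X))
    ⟨?_, Quotient.mk_surjective⟩).symm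
  intro a b h
  have h1 : (MulAction.orbitRel (Subgroup.zpowers (1 : G)) X) a b := Quotient.exact h
  rw [MulAction.orbitRel_apply, MulAction.mem_orbit_iff] at h1
  obtain ⟨⟨_, n, rfl⟩, hn⟩ := h1
  have hn' : ((1 : G) ^ n) • b = a := hn
  rw [one_zpow, one_smul] at hn'
  exact hn'.symm

omit [CharZero K] [FiniteDimensional K⟮x⟯ F] in
theorem exists_algebraMap_eq_of_isAlgebraic (halg : IsAlgebraic K x) :
    ∃ a : K, algebraMap K F a = x :=
  minpoly.mem_range_of_degree_eq_one K x
    (IsAlgClosed.degree_eq_one_of_irreducible K (minpoly.irreducible halg.isIntegral))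

/-- data at all points force `x` to be transcendental. -/
theorem transcendental_of_localData (hw : ∀ c : K, c ≠ 0 → w.ord (algebraMap K L c) = 0)
    (hdeg : Module.finrank K⟮x⟯ F ≤ Fintype.card X)
    (g : Option K → G) (e : Option K → ℕ) (he : ∀ pt, 0 < e pt)
    (dat : ∀ pt, Nonempty (LocalData w x pt X (g pt) (e pt))) : Transcendental K x := by
  obtain ⟨s₀⟩ := LocalData.nonempty (K := K) (x := x) hdeg
  intro halg
  obtain ⟨a, ha⟩ := exists_algebraMap_eq_of_isAlgebraic halg
  obtain ⟨d⟩ := dat (some (a + 1))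
  have h1 := d.ord_u s₀
  have h2 : locParam x (some (a + 1)) = algebraMap K F (-1) := by
    rw [locParam_some, ← ha, ← map_sub]
    congr 1
    ring
  rw [h2, AlgHom.commutes, hw (-1) (by norm_num)] at h1
  have := he (some (a + 1))
  have h3 : (e (some (a + 1)) : ℤ) = 0 := h1.symm
  have h4 : e (some (a + 1)) = 0 := by exact_mod_cast h3
  omega

/-- (GL) Riemann-Hurwitz. -/
theorem degree_of_localData (hw : ∀ c : K, c ≠ 0 → w.ord (algebraMap K L c) = 0)
    (hdeg : Module.finrank K⟮x⟯ F ≤ Fintype.card X)
    (g : Option K → G) (e : Option K → ℕ) (he : ∀ pt, 0 < e pt)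
    (dat : ∀ pt, Nonempty (LocalData w x pt X (g pt) (e pt)))
    (B : Finset (Option K)) (hB : ∀ pt, pt ∉ B → g pt = 1) (hinf : none ∈ B)
    (ω : Ω[F⁄K]) (hω : ω ≠ 0) (D : Divisor K F) (hD : ∀ v, D v = v.ordDifferential ω) :
    Divisor.degree D = -2 * (Fintype.card X : ℤ) + ∑ pt ∈ B, ((Fintype.card X : ℤ) -
      (Nat.card (MulAction.orbitRel.Quotient (Subgroup.zpowers (g pt)) X) : ℤ)) := by
  classical
  obtain ⟨s₀⟩ := LocalData.nonempty (K := K) (x := x) hdeg
  have hx : Transcendental K x := transcendental_of_localData hw hdeg g e he dat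
  have htr := trdeg_eq_one_of_finite x hx
  choose P hP1 hP2 hP3 hP4 using fun pt =>
    (dat pt).some.exists_places_over hw hx hdeg (he pt)
  -- `ω = c • dx`
  obtain ⟨c, hc⟩ := exists_eq_smul_D htr x hx ω
  have hc0 : c ≠ 0 := by
    rintro rfl
    exact hω (by rw [hc, zero_smul])
  haveI := nontrivial_kaehler (K := K) (F := F) htr
  have hDv : ∀ v, D v = v.ord c + v.ordDifferential (KaehlerDifferential.D K F x) := by
    intro v
    haveI := dCoordGenerates htr v
    rw [hD v, hc]
    refine v.ordDifferential_smul hc0 ?_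
    intro h0
    have := v.differentialCoeff_smul_dCoord (KaehlerDifferential.D K F x)
    rw [h0, zero_smul] at this
    exact D_ne_zero htr x hx this.symm
  -- the norm of `c`
  have hN0 : ((Algebra.norm K⟮x⟯ c : K⟮x⟯) : F) ≠ 0 := by
    have : (Algebra.norm K⟮x⟯ c : K⟮x⟯) ≠ 0 := Algebra.norm_ne_zero_iff.mpr hc0
    simpa using this
  obtain ⟨r, s, hrs⟩ := (mem_adjoin_simple_iff K _).mp (Algebra.norm K⟮x⟯ c : K⟮x⟯).2
  have hr : r ≠ 0 := by
    rintro rfl
    rw [hrs] at hN0
    simp at hN0
  have hs : s ≠ 0 := by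
    rintro rfl
    rw [hrs] at hN0
    simp at hN0
  have hnorm : ∀ pt, ∑ v ∈ P pt, v.ord c = ordAt pt r - ordAt pt s := by
    intro pt
    have hW : ∀ a : K, a ≠ 0 →
        (w.comap ((dat pt).some.ι s₀).toRingHom).ord (algebraMap K F a) = 0 := by
      intro a ha
      rw [AddVal.comap_ord]
      simpa using hw a ha
    have hWu : (w.comap ((dat pt).some.ι s₀).toRingHom).ord (locParam x pt) = e pt :=
      (dat pt).some.ord_u s₀
    have hepos : (0 : ℤ) < e pt := by exact_mod_cast he pt
    have h1 := AddVal.ord_aeval_locParam _ hW hx pt (by rw [hWu]; exact hepos) r hr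
    have h2 := AddVal.ord_aeval_locParam _ hW hx pt (by rw [hWu]; exact hepos) s hs
    have h3 := hP4 pt c hc0 s₀
    rw [hrs] at h3
    have h4 : (w.comap ((dat pt).some.ι s₀).toRingHom).ord
        (Polynomial.aeval x r / Polynomial.aeval x s) = e pt * ∑ v ∈ P pt, v.ord c := h3
    rw [AddVal.map_div _ h1.1 h2.1, h1.2, h2.2, hWu] at h4
    have h5 : (e pt : ℤ) * (ordAt pt r - ordAt pt s) = e pt * ∑ v ∈ P pt, v.ord c := by
      rw [← h4]; ring
    exact (mul_left_cancel₀ hepos.ne' h5).symm
  -- the degree as a sum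
  have hdegD : Divisor.degree D = ∑ v ∈ D.support, D v := by
    rw [Divisor.degree, Finsupp.liftAddHom_apply, Finsupp.sum]
    refine Finset.sum_congr rfl fun v _ => ?_
    rw [AddMonoidHom.coe_mulRight, Place.deg_eq_one_of_trdeg htr v]
    simp
  choose ctr hctr using Place.exists_center (x := x) htr hx
  set A : Finset (Option K) := B ∪ D.support.image ctr ∪
    (r.roots.toFinset ∪ s.roots.toFinset).image some with hAdef
  have hBA : B ⊆ A := fun pt hpt =>
    Finset.mem_union_left _ (Finset.mem_union_left _ hpt)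
  have hA : ∀ v ∈ D.support, ∀ pt, v ∈ P pt → pt ∈ A := by
    intro v hv pt hpt
    have : pt = ctr v := Place.center_unique hx v ((hP1 pt v).mp hpt) (hctr v)
    rw [this]
    exact Finset.mem_union_left _ (Finset.mem_union_right _ (Finset.mem_image_of_mem _ hv))
  have hAr : ∀ a, r.IsRoot a → some a ∈ A := fun a ha =>
    Finset.mem_union_right _ (Finset.mem_image_of_mem _ (Finset.mem_union_left _
      (Multiset.mem_toFinset.mpr ((Polynomial.mem_roots hr).mpr ha))))
  have hAs : ∀ a, s.IsRoot a → some a ∈ A := fun a ha =>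
    Finset.mem_union_right _ (Finset.mem_image_of_mem _ (Finset.mem_union_right _
      (Multiset.mem_toFinset.mpr ((Polynomial.mem_roots hs).mpr ha))))
  have hsum : ∀ pt, ∑ v ∈ P pt, D v = (ordAt pt r - ordAt pt s) +
      (((Fintype.card X : ℤ) - (P pt).card) - if pt = none then 2 * (Fintype.card X : ℤ) else 0) := by
    intro pt
    rw [Finset.sum_congr rfl (fun v _ => hDv v), Finset.sum_add_distrib, hnorm pt]
    congr 1
    rw [Finset.sum_congr rfl
      (fun v hv => ordDifferential_D_of_center htr hx v pt ((hP1 pt v).mp hv))]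
    rw [Finset.sum_sub_distrib, Finset.sum_add_distrib, hP2 pt]
    by_cases hpt : pt = none
    · simp only [if_pos hpt, ← Finset.mul_sum, hP2 pt]
      simp
      ring
    · simp only [if_neg hpt]
      simp
  rw [hdegD, sum_support_eq_sum_centers htr hx P hP1 D A hA, Finset.sum_congr rfl
    (fun pt _ => hsum pt), Finset.sum_add_distrib, Finset.sum_sub_distrib, Finset.sum_sub_distrib,
    sum_ordAt r hr A (hBA hinf) hAr, sum_ordAt s hs A (hBA hinf) hAs,
    Finset.sum_ite_eq' A none, if_pos (hBA hinf)]
  have hBsum : ∑ pt ∈ A, ((Fintype.card X : ℤ) - (P pt).card) = ∑ pt ∈ B, ((Fintype.card X : ℤ) -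
      (Nat.card (MulAction.orbitRel.Quotient (Subgroup.zpowers (g pt)) X) : ℤ)) := by
    rw [← Finset.sum_subset hBA]
    · exact Finset.sum_congr rfl fun pt _ => by rw [hP3 pt]
    · intro pt _ hpt
      rw [hP3 pt, hB pt hpt, card_orbits_one, Nat.card_eq_fintype_card, sub_self]
  rw [hBsum]
  ring

end Fermat.Agent.S24Aux
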