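/-
S24 helper library: bounding the degree of a function field over `K(x)` from polynomial relations.
-/
import Mathlib

set_option autoImplicit false

namespace Fermat.Agent.S24Aux

open IntermediateField Polynomial

variable {K F : Type*} [Field K] [Field F] [Algebra K F]

/-- `K[X] → K(x)` -/
noncomputable def toAdj (x : F) : K[X] →+* K⟮x⟯ := (aeval (AdjoinSimple.gen K x)).toRingHom

theorem algebraMap_toAdj (x : F) (p : K[X]) : algebraMap K⟮x⟯ F (toAdj x p) = aeval x p := by
  unfold toAdj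
  show algebraMap K⟮x⟯ F (aeval (AdjoinSimple.gen K x) p) = aeval x p
  rw [← aeval_algebraMap_apply, AdjoinSimple.algebraMap_gen]

theorem toAdj_injective {x : F} (hx : Transcendental K x) : Function.Injective (toAdj (K := K) x) := by
  rw [injective_iff_map_eq_zero]
  intro p hp
  have h1 : aeval x p = 0 := by rw [← algebraMap_toAdj, hp, map_zero]
  exact (transcendental_iff.mp hx) p h1

theorem aeval_map_toAdj (x y : F) (Q : K[X][X]) :
    aeval y (Q.map (toAdj x)) = (Q.map (aeval x).toRingHom).eval y := by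
  rw [aeval_def, eval₂_map, eval_map]
  congr 1
  ext p
  · simp [toAdj]
  · simp [toAdj]

/-- a relation gives a bound on the degree of the minimal polynomial -/
theorem natDegree_minpoly_le_of_relation {x : F} (hx : Transcendental K x) {y : F} {μ : ℕ}
    (h : ∃ Q : K[X][X], Q ≠ 0 ∧ Q.natDegree ≤ μ ∧ (Q.map (aeval x).toRingHom).eval y = 0) :
    IsIntegral K⟮x⟯ y ∧ (minpoly K⟮x⟯ y).natDegree ≤ μ := by
  obtain ⟨Q, hQ0, hQd, hQ⟩ := h
  have hq0 : Q.map (toAdj x) ≠ 0 := (Polynomial.map_ne_zero_iff (toAdj_injective hx)).mpr hQ0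
  have hq : aeval y (Q.map (toAdj x)) = 0 := by rw [aeval_map_toAdj, hQ]
  refine ⟨(isAlgebraic_iff_isIntegral).mp ⟨_, hq0, hq⟩, ?_⟩
  exact (natDegree_le_of_dvd (minpoly.dvd _ _ hq) hq0).trans (natDegree_map_le.trans hQd)

/-- the inverse of an element of `A` is in `A` up to a denominator in `K[x]` -/
theorem exists_mul_inv_mem (A : Subalgebra K F) {x : F} (hxA : x ∈ A) {b : F} (hb : b ∈ A)
    (hb0 : b ≠ 0) (h : ∃ Q : K[X][X], Q ≠ 0 ∧ (Q.map (aeval x).toRingHom).eval b = 0) :
    ∃ c : K[X], c ≠ 0 ∧ aeval x c * b⁻¹ ∈ A := by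
  obtain ⟨Q, hQ0, hQ⟩ := h
  -- induction on the degree to remove powers of `Y`
  induction hn : Q.natDegree using Nat.strong_induction_on generalizing Q with
  | _ n ih =>
    by_cases hc : Q.coeff 0 = 0
    · -- `Q = Y * Q'`
      have hX : X ∣ Q := X_dvd_iff.mpr hc
      obtain ⟨Q', rfl⟩ := hX
      have hQ'0 : Q' ≠ 0 := right_ne_zero_of_mul hQ0
      rw [Polynomial.map_mul, eval_mul, Polynomial.map_X, eval_X] at hQ
      have hQ' := (mul_eq_zero.mp hQ).resolve_left hb0
      refine ih Q'.natDegree ?_ Q' hQ'0 hQ' rfl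
      rw [← hn, natDegree_X_mul hQ'0]
      omega
    · refine ⟨Q.coeff 0, hc, ?_⟩
      -- `Q = Y * divX Q + C (coeff 0)`
      have hdec := Q.divX_mul_X_add
      have h1 : (Q.divX.map (aeval x).toRingHom).eval b * b + aeval x (Q.coeff 0) = 0 := by
        rw [← hdec] at hQ
        simpa [Polynomial.map_add, Polynomial.map_mul] using hQ
      have h2 : aeval x (Q.coeff 0) * b⁻¹ = -(Q.divX.map (aeval x).toRingHom).eval b := by
        field_simp
        linear_combination h1
      rw [h2]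
      apply A.neg_mem
      rw [eval_map, eval₂_eq_sum_range]
      refine A.sum_mem fun i _ => A.mul_mem ?_ (A.pow_mem hb i)
      show aeval x (Q.divX.coeff i) ∈ A
      rw [aeval_eq_sum_range]
      exact A.sum_mem fun j _ => A.smul_mem (A.pow_mem hxA j) _

theorem finrank_le_of_relations [CharZero K] (x : F) (hx : Transcendental K x) (S : Set F)
    (hS : S.Finite) (hxS : x ∈ Algebra.adjoin K S) (htop : IntermediateField.adjoin K S = ⊤)
    (μ : ℕ)
    (hrel : ∀ y ∈ Algebra.adjoin K S, ∃ Q : K[X][X], Q ≠ 0 ∧ Q.natDegree ≤ μ ∧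
      (Q.map (aeval x).toRingHom).eval y = 0) :
    FiniteDimensional K⟮x⟯ F ∧ Module.finrank K⟮x⟯ F ≤ μ := by
  have hfd : FiniteDimensional K⟮x⟯ F := by
    have h1 : IntermediateField.adjoin K⟮x⟯ S = ⊤ := adjoin_eq_top_of_adjoin_eq_top K htop
    have : Finite S := hS
    have h2 : FiniteDimensional K⟮x⟯ (IntermediateField.adjoin K⟮x⟯ S) :=
      finiteDimensional_adjoin fun y hy =>
        (natDegree_minpoly_le_of_relation hx (hrel y (Algebra.subset_adjoin hy))).1
    rw [h1] at h2
    exact (IntermediateField.topEquiv (F := K⟮x⟯) (E := F)).toLinearEquiv.finiteDimensional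
  refine ⟨hfd, ?_⟩
  obtain ⟨α, hα⟩ := Field.exists_primitive_element K⟮x⟯ F
  -- write `α = a / b`
  have hαmem : α ∈ IntermediateField.adjoin K S := by rw [htop]; trivial
  obtain ⟨a, ha, b, hb, hab⟩ := mem_adjoin_iff_div.mp hαmem
  by_cases hb0 : b = 0
  · -- then `α = 0`
    have hα0 : α = 0 := by rw [hab, hb0, div_zero]
    have h1 := (Field.primitive_element_iff_minpoly_natDegree_eq K⟮x⟯ α).mp hα
    rw [← h1]
    exact (natDegree_minpoly_le_of_relation hx (hrel α (by rw [hα0]; exact zero_mem _))).2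
  · obtain ⟨Q, hQ0, -, hQ⟩ := hrel b hb
    obtain ⟨c, hc0, hc⟩ := exists_mul_inv_mem (Algebra.adjoin K S) hxS hb hb0 ⟨Q, hQ0, hQ⟩
    set β : F := aeval x c * α with hβ
    have hβA : β ∈ Algebra.adjoin K S := by
      rw [hβ, hab, div_eq_mul_inv, mul_left_comm]
      exact mul_mem ha hc
    have hc' : toAdj x c ≠ 0 := fun h => hc0 (toAdj_injective hx (by rw [h, map_zero]))
    have hβtop : K⟮x⟯⟮β⟯ = ⊤ := by
      rw [← top_le_iff, ← hα, adjoin_simple_le_iff]
      have h1 : α = algebraMap K⟮x⟯ F (toAdj x c)⁻¹ * β := by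
        rw [hβ, ← algebraMap_toAdj, ← mul_assoc, ← map_mul, inv_mul_cancel₀ hc', map_one, one_mul]
      rw [h1]
      exact mul_mem (IntermediateField.algebraMap_mem _ _) (mem_adjoin_simple_self _ _)
    have h1 := (Field.primitive_element_iff_minpoly_natDegree_eq K⟮x⟯ β).mp hβtop
    rw [← h1]
    exact (natDegree_minpoly_le_of_relation hx (hrel β hβA)).2

end Fermat.Agent.S24Aux
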