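/-
S24 helper library: extension of a "relation homomorphism" to the generated field.
-/
import Mathlib

set_option autoImplicit false

namespace Fermat.Agent.S24Aux

open scoped IntermediateField.algebraAdjoinAdjoin in
/-- (Lemma Ext) an additive, multiplicative, `K`-linear, "injective and functional" relation which
is defined on generators extends to a homomorphism of the generated field. -/
theorem exists_algHom_of_rel {K E L : Type*} [Field K] [Field E] [Field L] [Algebra K E]
    [Algebra K L] (S : Set E) (R : E → L → Prop)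
    (hadd : ∀ a b l m, R a l → R b m → R (a + b) (l + m))
    (hmul : ∀ a b l m, R a l → R b m → R (a * b) (l * m))
    (hconst : ∀ c : K, R (algebraMap K E c) (algebraMap K L c))
    (hgen : ∀ s ∈ S, ∃ l, R s l) (h0 : ∀ l, R 0 l → l = 0) (hinj : ∀ a, R a 0 → a = 0) :
    ∃ φ : IntermediateField.adjoin K S →ₐ[K] L,
      ∀ (y : IntermediateField.adjoin K S) (l : L), R (y : E) l → φ y = l := by
  classical
  have ex : ∀ a ∈ Algebra.adjoin K S, ∃ l, R a l := by
    intro a ha
    induction ha using Algebra.adjoin_induction with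
    | mem x hx => exact hgen x hx
    | algebraMap c => exact ⟨_, hconst c⟩
    | add x y _ _ hx hy =>
      obtain ⟨l, hl⟩ := hx
      obtain ⟨m, hm⟩ := hy
      exact ⟨_, hadd _ _ _ _ hl hm⟩
    | mul x y _ _ hx hy =>
      obtain ⟨l, hl⟩ := hx
      obtain ⟨m, hm⟩ := hy
      exact ⟨_, hmul _ _ _ _ hl hm⟩
  have hneg : ∀ a l, R a l → R (-a) (-l) := by
    intro a l h
    have := hmul _ _ _ _ (hconst (-1)) h
    simpa using this
  have uniq : ∀ a l l', R a l → R a l' → l = l' := by
    intro a l l' h h'
    have := hadd _ _ _ _ h (hneg _ _ h')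
    rw [add_neg_cancel] at this
    have := h0 _ this
    exact add_neg_eq_zero.mp this
  let f : Algebra.adjoin K S → L := fun a => (ex a a.2).choose
  have spec : ∀ a : Algebra.adjoin K S, R (a : E) (f a) := fun a => (ex a a.2).choose_spec
  let φ0 : Algebra.adjoin K S →ₐ[K] L :=
    { toFun := f
      map_one' := uniq _ _ _ (spec 1) (by simpa using hconst 1)
      map_mul' := fun a b => uniq _ _ _ (spec (a * b)) (hmul _ _ _ _ (spec a) (spec b))
      map_zero' := h0 _ (spec 0)
      map_add' := fun a b => uniq _ _ _ (spec (a + b)) (hadd _ _ _ _ (spec a) (spec b))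
      commutes' := fun c => uniq _ _ _ (spec _) (hconst c) }
  have hφ0 : ∀ a, φ0 a = f a := fun _ => rfl
  have hinj0 : Function.Injective φ0 := by
    rw [injective_iff_map_eq_zero]
    intro a ha
    have h1 := spec a
    rw [← hφ0, ha] at h1
    exact Subtype.ext (hinj _ h1)
  refine ⟨IsFractionRing.liftAlgHom (K := IntermediateField.adjoin K S) hinj0, ?_⟩
  intro y l hy
  obtain ⟨a, b, hb, hab⟩ := IsFractionRing.div_surjective (A := Algebra.adjoin K S) y
  have hb0 : b ≠ 0 := nonZeroDivisors.ne_zero hb
  have hfb : f b ≠ 0 := by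
    intro h
    exact hb0 (hinj0 (by rw [hφ0, h, map_zero]))
  rw [← hab, map_div₀, IsFractionRing.liftAlgHom_apply, IsFractionRing.liftAlgHom_apply,
    IsFractionRing.lift_algebraMap, IsFractionRing.lift_algebraMap]
  show f a / f b = l
  have h1 := hmul _ _ _ _ hy (spec b)
  have h2 : (y : E) * (b : E) = (a : E) := by
    have hbE : (b : E) ≠ 0 := fun h => hb0 (Subtype.ext h)
    have h3 : (y : E) = (a : E) / (b : E) := by
      rw [← hab]
      rfl
    rw [h3, div_mul_cancel₀ _ hbE]
  rw [h2] at h1
  have h3 := uniq _ _ _ (spec a) h1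
  rw [h3, mul_div_cancel_right₀ _ hfb]

end Fermat.Agent.S24Aux
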