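/-
S24 helper library: the valuation of the field of Laurent series and the rescaling `t ↦ ζ t`.
-/
import Fermat.Agent.S24.LocalData

set_option autoImplicit false

namespace Fermat.Agent.S24Aux

open HahnSeries

variable (k : Type*) [Field k]

/-- the `t`-adic valuation on `k((t))`. -/
noncomputable def laurentVal : AddVal (LaurentSeries k) where
  ord := HahnSeries.order
  map_mul hx hy := HahnSeries.order_mul hx hy
  map_add _ _ hxy := HahnSeries.min_order_le_order_add hxy

@[simp] theorem laurentVal_ord (f : LaurentSeries k) : (laurentVal k).ord f = f.order := rfl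

variable {k}

theorem rescale_support_subset (ζ : k) (f : LaurentSeries k) :
    Function.support (fun n : ℤ => ζ ^ n * f.coeff n) ⊆ f.support := by
  intro n hn
  rw [Function.mem_support] at hn
  exact fun h => hn (by rw [h, mul_zero])

theorem algebraMap_laurent_eq_single {K : Type*} [Field K] [Algebra K k] (c : K) :
    algebraMap K (LaurentSeries k) c = HahnSeries.single 0 (algebraMap K k c) := by
  have h1 : algebraMap K (PowerSeries k) c = PowerSeries.C (algebraMap K k c) := by
    simp [PowerSeries.algebraMap_apply]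
  rw [HahnSeries.algebraMap_apply', h1, HahnSeries.ofPowerSeries_C]
  rfl

/-- the underlying function of the rescaling -/
noncomputable def rescaleFun (ζ : k) (f : LaurentSeries k) : LaurentSeries k where
  coeff n := ζ ^ n * f.coeff n
  isPWO_support' := f.isPWO_support.mono (rescale_support_subset ζ f)

@[simp] theorem rescaleFun_coeff (ζ : k) (f : LaurentSeries k) (n : ℤ) :
    (rescaleFun ζ f).coeff n = ζ ^ n * f.coeff n := rfl

theorem rescaleFun_support {ζ : k} (hζ : ζ ≠ 0) (f : LaurentSeries k) :
    (rescaleFun ζ f).support = f.support := by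
  ext n
  simp [HahnSeries.mem_support, zpow_ne_zero n hζ]

theorem rescaleFun_mul {ζ : k} (hζ : ζ ≠ 0) (f g : LaurentSeries k) :
    rescaleFun ζ (f * g) = rescaleFun ζ f * rescaleFun ζ g := by
  ext n
  rw [rescaleFun_coeff, HahnSeries.coeff_mul, HahnSeries.coeff_mul, Finset.mul_sum]
  refine Finset.sum_congr ?_ fun ij hij => ?_
  · ext ij
    simp only [Finset.mem_antidiagonal, rescaleFun_support hζ]
  · rw [Finset.mem_antidiagonal] at hij
    rw [rescaleFun_coeff, rescaleFun_coeff, ← hij.2.2, zpow_add₀ hζ]
    ring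

/-- the rescaling `t ↦ ζ t` of Laurent series -/
noncomputable def rescaleL (ζ : k) (hζ : ζ ≠ 0) : LaurentSeries k →+* LaurentSeries k where
  toFun := rescaleFun ζ
  map_one' := by
    ext n
    rw [rescaleFun_coeff, HahnSeries.coeff_one]
    split_ifs with h
    · subst h; simp
    · simp
  map_mul' := rescaleFun_mul hζ
  map_zero' := by ext n; simp
  map_add' f g := by ext n; simp [mul_add]

@[simp] theorem rescaleL_coeff (ζ : k) (hζ : ζ ≠ 0) (f : LaurentSeries k) (n : ℤ) :
    (rescaleL ζ hζ f).coeff n = ζ ^ n * f.coeff n := rfl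

theorem rescaleL_ofPowerSeries (ζ : k) (hζ : ζ ≠ 0) (p : PowerSeries k) :
    rescaleL ζ hζ (HahnSeries.ofPowerSeries ℤ k p) =
      HahnSeries.ofPowerSeries ℤ k (PowerSeries.rescale ζ p) := by
  ext n
  rw [rescaleL_coeff]
  rcases lt_or_ge n 0 with hn | hn
  · have h1 : ∀ q : PowerSeries k, (HahnSeries.ofPowerSeries ℤ k q).coeff n = 0 := by
      intro q
      rw [HahnSeries.ofPowerSeries_apply]
      refine HahnSeries.embDomain_of_notMem_range ?_
      rintro ⟨m, rfl⟩
      exact absurd hn (not_lt.mpr (Int.natCast_nonneg m))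
    rw [h1, h1, mul_zero]
  · obtain ⟨m, rfl⟩ := Int.eq_ofNat_of_zero_le hn
    rw [HahnSeries.ofPowerSeries_apply_coeff, HahnSeries.ofPowerSeries_apply_coeff,
      PowerSeries.coeff_rescale, zpow_natCast]

theorem rescaleL_algebraMap {K : Type*} [Field K] [Algebra K k] (ζ : k) (hζ : ζ ≠ 0) (c : K) :
    rescaleL ζ hζ (algebraMap K (LaurentSeries k) c) = algebraMap K (LaurentSeries k) c := by
  ext n
  rw [rescaleL_coeff, algebraMap_laurent_eq_single, HahnSeries.coeff_single]
  split_ifs with h
  · subst h; simp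
  · simp

theorem order_rescaleL (ζ : k) (hζ : ζ ≠ 0) (f : LaurentSeries k) :
    (rescaleL ζ hζ f).order = f.order := by
  rcases eq_or_ne f 0 with rfl | hf
  · simp
  have hf' : rescaleL ζ hζ f ≠ 0 := by
    intro h
    apply hf
    ext n
    have := congrArg (fun g : LaurentSeries k => g.coeff n) h
    simp only [rescaleL_coeff, HahnSeries.coeff_zero, mul_eq_zero] at this
    rcases this with h | h
    · exact absurd h (zpow_ne_zero n hζ)
    · simpa using h
  apply le_antisymm
  · apply HahnSeries.order_le_of_coeff_ne_zero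
    rw [rescaleL_coeff]
    exact mul_ne_zero (zpow_ne_zero _ hζ) (fun h => hf (HahnSeries.coeff_order_eq_zero.mp h))
  · apply HahnSeries.order_le_of_coeff_ne_zero
    have : (rescaleL ζ hζ f).coeff (rescaleL ζ hζ f).order ≠ 0 :=
      fun h => hf' (HahnSeries.coeff_order_eq_zero.mp h)
    rw [rescaleL_coeff] at this
    exact right_ne_zero_of_mul this

theorem rescaleL_pow_apply (ζ : k) (hζ : ζ ≠ 0) (m : ℕ) (f : LaurentSeries k) :
    ((rescaleL ζ hζ)^[m]) f = rescaleL (ζ ^ m) (pow_ne_zero m hζ) f := by
  induction m generalizing f with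
  | zero => ext n; simp
  | succ m ih =>
    rw [Function.iterate_succ_apply, ih]
    ext n
    simp only [rescaleL_coeff]
    rw [← mul_assoc, ← mul_zpow, pow_succ]

theorem dvd_of_rescaleL_eq {ζ : k} {e0 : ℕ} (hprim : IsPrimitiveRoot ζ e0) (hζ : ζ ≠ 0) (m : ℕ)
    {f : LaurentSeries k} (hf : f ≠ 0) (h : rescaleL (ζ ^ m) (pow_ne_zero m hζ) f = f) :
    (e0 : ℤ) ∣ m * f.order := by
  have h1 := congrArg (fun g : LaurentSeries k => g.coeff f.order) h
  simp only [rescaleL_coeff] at h1
  have h2 : (ζ ^ m) ^ f.order = 1 := by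
    have : f.coeff f.order ≠ 0 := fun h => hf (HahnSeries.coeff_order_eq_zero.mp h)
    exact mul_right_cancel₀ this (by rw [h1, one_mul])
  rw [← zpow_natCast, ← zpow_mul] at h2
  exact (hprim.zpow_eq_one_iff_dvd _).mp h2

theorem laurentVal_algebraMap {K : Type*} [Field K] [Algebra K k] (c : K) (hc : c ≠ 0) :
    (laurentVal k).ord (algebraMap K (LaurentSeries k) c) = 0 := by
  rw [laurentVal_ord, algebraMap_laurent_eq_single]
  exact HahnSeries.order_single (by simpa using hc)

end Fermat.Agent.S24Aux
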