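/-
S24 helper library: definitions for the modular part.
-/
import Mathlib
import Fermat.Prelude.Def_ModularCurve_ArithmeticGalois
import Fermat.Agent.Lib.Dim_Level1
import Fermat.Agent.Lib.S23_Raise

set_option autoImplicit false

namespace Fermat.Agent.S24Aux

open UpperHalfPlane ModularForm CongruenceSubgroup ModularCurve
open scoped MatrixGroups Manifold
open Fermat.Agent.DimAux Fermat.Agent.S23Aux

noncomputable section

/-- the constant field -/
abbrev Kb : Type := AlgebraicClosure ℚ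

/-- a fixed embedding of `ℚ̄` in `ℂ` -/
instance instAlgebraKbComplex : Algebra Kb ℂ :=
  haveI : Algebra.IsAlgebraic ℚ Kb := AlgebraicClosure.isAlgebraic ℚ
  (IsAlgClosed.lift (R := ℚ) (S := Kb) (M := ℂ)).toRingHom.toAlgebra

/-- coefficientwise embedding `ℚ̄((q)) → ℂ((q))` -/
def cC : LaurentSeries Kb →+* LaurentSeries ℂ := coeffMap (algebraMap Kb ℂ)

/-- power series as Laurent series -/
abbrev PS (p : PowerSeries ℂ) : LaurentSeries ℂ := HahnSeries.ofPowerSeries ℤ ℂ p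

/-- the coset space -/
abbrev XN (N : ℕ) : Type := SL(2, ℤ) ⧸ Gamma0 N

/-- the function field -/
abbrev FN (N : ℕ) : Type := ↥(modularFunctionFieldBar N)

/-- the formal series `j(q^d)` over `ℚ̄` (junk for `d = 0`) -/
def Jd (d : ℕ) : LaurentSeries Kb :=
  if h : d = 0 then 0 else haveI : NeZero d := ⟨h⟩; coeffEmb Kb (qExpand ℚ d jq)

/-- the generators of the function field -/
def gens (N : ℕ) : Set (LaurentSeries Kb) := Jd '' (N.divisors : Set ℕ)

/-- `τ ↦ f (d τ)` -/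
def rs (d : ℕ) (f : ℍ → ℂ) : ℍ → ℂ := fun τ => f (ofComplex ((d : ℂ) * τ))

/-- the common denominator `∏_{d ∣ N} Δ(dτ)` -/
def Bf (N : ℕ) : ℍ → ℂ := ∏ d ∈ N.divisors, rs d discriminant

/-- the weight of `Bf N` -/
def kB (N : ℕ) : ℤ := 12 * (N.divisors.card : ℤ)

/-- the numerator of `j(dτ)` -/
def Gd (N d : ℕ) : ℍ → ℂ := (rs d E₄) ^ 3 * ∏ d' ∈ N.divisors.erase d, rs d' discriminant

/-- `y ∈ ℚ̄((q))` is the `q`-expansion of `G / B^M`, `G` a modular form on `Γ₀(N)`. -/
structure Rel (N : ℕ) (y : LaurentSeries Kb) (M : ℕ) (G : ℍ → ℂ) : Prop where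
  mem : G ∈ MFun (Gamma0 N) (kB N * M)
  eq : PS (qExpansion 1 G) = cC y * PS (qExpansion 1 (Bf N)) ^ M

/-- An "expansion": a class `H` of functions on `ℍ` and an injective ring homomorphism `E` from
`H` to power series, such that all conjugates of modular forms on `Γ₀(N)` are in `H`. -/
structure Expn (N : ℕ) where
  H : (ℍ → ℂ) → Prop
  E : (ℍ → ℂ) → PowerSeries ℂ
  H_add : ∀ f g, H f → H g → H (f + g)
  H_mul : ∀ f g, H f → H g → H (f * g)
  H_const : ∀ c : ℂ, H (fun _ => c)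
  E_add : ∀ f g, H f → H g → E (f + g) = E f + E g
  E_mul : ∀ f g, H f → H g → E (f * g) = E f * E g
  E_const : ∀ c : ℂ, E (fun _ => c) = PowerSeries.C c
  E_inj : ∀ f, H f → E f = 0 → f = 0
  H_cj : ∀ (k : ℤ) (G : ℍ → ℂ), G ∈ MFun (Gamma0 N) k → ∀ s : XN N, H (cj (Gamma0 N) k G s)

end

end Fermat.Agent.S24Aux
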