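/-
S24 helper library (M6): `j(Nτ)` is invariant exactly under `Γ₀(N)`.
-/
import Fermat.Agent.S24.ModDefs

set_option autoImplicit false

namespace Fermat.Agent.S24Aux

open UpperHalfPlane ModularForm CongruenceSubgroup ModularCurve Filter Topology
open scoped MatrixGroups Manifold Real
open Fermat.Agent.DimAux Fermat.Agent.S23Aux

/-- the `j`-function -/
noncomputable def jf : ℍ → ℂ := fun τ => (E₄ τ) ^ 3 / discriminant τ

theorem jf_smul (γ : SL(2, ℤ)) (τ : ℍ) : jf (γ • τ) = jf τ := by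
  unfold jf
  have h4 := slash_apply' (k := 4) (E₄ : ℍ → ℂ) γ τ
  have h12 := slash_apply' (k := 12) (discriminant : ℍ → ℂ) γ τ
  rw [E4_mem.2.1 γ (Subgroup.mem_top _)] at h4
  rw [Delta_mem.2.1 γ (Subgroup.mem_top _)] at h12
  rw [h4, h12]
  have hd : denom γ τ ≠ 0 := denom_ne_zero γ τ
  have hD := discriminant_ne_zero τ
  rw [mul_pow, ← zpow_natCast, ← zpow_mul]
  norm_num
  field_simp

/-- `|j(z)| e^{-2π Im z} → 1`. -/
theorem tendsto_norm_jf :
    Tendsto (fun z : ℍ => ‖jf z‖ * Real.exp (-2 * π * z.im)) atImInfty (𝓝 1) := by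
  have h1 : Tendsto (fun z : ℍ => (E₄ z) ^ 3 / ∏' n : ℕ, (1 - eta_q n z) ^ 24) atImInfty
      (𝓝 (1 ^ 3 / 1)) :=
    (tendsto_E4.pow 3).div tendsto_atImInfty_tprod_one_sub_eta_q_pow one_ne_zero
  have h2 := h1.norm
  simp only [one_pow, div_one, norm_one] at h2
  refine h2.congr fun z => ?_
  have hq : ‖Function.Periodic.qParam 1 (z : ℂ)‖ = Real.exp (-2 * π * z.im) := by
    simp [Function.Periodic.qParam, Complex.norm_exp]
  have hq0 : Function.Periodic.qParam 1 (z : ℂ) ≠ 0 := by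
    simp [Function.Periodic.qParam]
  unfold jf
  rw [discriminant_eq_q_prod, ← hq, ← norm_mul]
  congr 1
  have hD := discriminant_ne_zero z
  rw [discriminant_eq_q_prod] at hD
  have hP := right_ne_zero_of_mul hD
  field_simp

theorem im_upperT_smul (a d : ℕ) (b : ℤ) (h : a * d ≠ 0) (τ : ℍ) :
    (upperT a d b h • τ).im = (a : ℝ) / d * τ.im := by
  have h1 := coe_upperT_smul a d b h τ
  have h2 := congrArg Complex.im h1
  rw [coe_im] at h2
  rw [h2]
  have : ((a : ℂ) * τ + b) / d = (((a : ℝ) / d * τ.re + b / d : ℝ) : ℂ) +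
      (((a : ℝ) / d * τ.im : ℝ) : ℂ) * Complex.I := by
    have hd : (d : ℂ) ≠ 0 := by
      have : d ≠ 0 := fun h0 => h (by simp [h0])
      exact_mod_cast this
    conv_lhs => rw [← Complex.re_add_im (τ : ℂ)]
    push_cast
    simp only [coe_re, coe_im]
    field_simp
    ring
  rw [this]
  simp

theorem tendsto_upperT_smul (a d : ℕ) (b : ℤ) (h : a * d ≠ 0) :
    Tendsto (fun τ : ℍ => upperT a d b h • τ) atImInfty atImInfty := by
  rw [atImInfty, tendsto_comap_iff]
  have hpos : (0 : ℝ) < (a : ℝ) / d := by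
    have ha : 0 < a := Nat.pos_of_ne_zero fun h0 => h (by simp [h0])
    have hd : 0 < d := Nat.pos_of_ne_zero fun h0 => h (by simp [h0])
    positivity
  have : (im ∘ fun τ : ℍ => upperT a d b h • τ) = fun τ : ℍ => (a : ℝ) / d * τ.im := by
    ext τ
    exact im_upperT_smul a d b h τ
  rw [this]
  exact (tendsto_comap (f := im) (x := atTop)).const_mul_atTop hpos

/-- comparison of growth rates -/
theorem ratio_eq_of_jf_eq (a d a' d' : ℕ) (b b' : ℤ) (h : a * d ≠ 0) (h' : a' * d' ≠ 0)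
    (H : ∀ τ : ℍ, jf (upperT a d b h • τ) = jf (upperT a' d' b' h' • τ)) :
    (a : ℝ) / d = (a' : ℝ) / d' := by
  have h1 := tendsto_norm_jf.comp (tendsto_upperT_smul a d b h)
  have h2 := tendsto_norm_jf.comp (tendsto_upperT_smul a' d' b' h')
  have h3 := h1.div h2 one_ne_zero
  rw [div_one] at h3
  set c : ℝ := 2 * π * ((a' : ℝ) / d' - (a : ℝ) / d) with hc
  have hev : ∀ᶠ τ : ℍ in atImInfty, jf (upperT a' d' b' h' • τ) ≠ 0 := by
    have := h2.eventually (lt_mem_nhds (show (0 : ℝ) < 1 by norm_num))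
    filter_upwards [this] with τ hτ h0
    simp [Function.comp, h0] at hτ
  have h4 : Tendsto (fun τ : ℍ => Real.exp (c * τ.im)) atImInfty (𝓝 1) := by
    refine h3.congr' ?_
    filter_upwards [hev] with τ hτ
    simp only [Function.comp, Pi.div_apply, H τ, im_upperT_smul]
    rw [mul_div_mul_left _ _ (norm_ne_zero_iff.mpr hτ), ← Real.exp_sub, hc]
    congr 1
    ring
  have him : Tendsto (fun τ : ℍ => τ.im) atImInfty atTop := tendsto_comap
  rcases lt_trichotomy c 0 with hneg | h0 | hpos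
  · exfalso
    have h5 : Tendsto (fun τ : ℍ => Real.exp (c * τ.im)) atImInfty (𝓝 0) :=
      Real.tendsto_exp_atBot.comp (him.const_mul_atTop_of_neg hneg)
    exact zero_ne_one (tendsto_nhds_unique h5 h4)
  · have hπ : (2 * π : ℝ) ≠ 0 := by positivity
    rw [hc] at h0
    have := (mul_eq_zero.mp h0).resolve_left hπ
    linarith
  · exfalso
    have h5 : Tendsto (fun τ : ℍ => Real.exp (c * τ.im)) atImInfty atTop :=
      Real.tendsto_exp_atTop.comp (him.const_mul_atTop hpos)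
    exact not_tendsto_nhds_of_tendsto_atTop h5 1 h4

theorem Bf_apply_ne_zero {N : ℕ} (τ : ℍ) : Bf N τ ≠ 0 := by
  unfold Bf
  rw [Finset.prod_apply, Finset.prod_ne_zero_iff]
  intro d _
  exact discriminant_ne_zero _

variable {N : ℕ} [NeZero N]

theorem ofComplex_mul_eq (d : ℕ) [NeZero d] (τ : ℍ) :
    ofComplex ((d : ℂ) * τ) = gN d • τ := by
  have h : (((gN d • τ : ℍ)) : ℂ) = (d : ℂ) * τ := by
    unfold gN
    rw [coe_upperT_smul]
    simp
  rw [← h, ofComplex_apply]

theorem Gd_self_eq (τ : ℍ) : Gd N N τ = jf (gN N • τ) * Bf N τ := by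
  have hN : N ∈ N.divisors := Nat.mem_divisors_self N (NeZero.ne N)
  unfold Gd Bf jf
  rw [← Finset.mul_prod_erase _ _ hN]
  simp only [Pi.mul_apply, Pi.pow_apply, rs, ofComplex_mul_eq]
  have := discriminant_ne_zero (gN N • τ)
  field_simp

theorem mem_Gamma0_of_slash_eq (γ : SL(2, ℤ))
    (h : (Gd N N ∣[kB N] γ) * Bf N = Gd N N * (Bf N ∣[kB N] γ)) : γ ∈ Gamma0 N := by
  have key : ∀ τ : ℍ, jf (gN N • (γ • τ)) = jf (gN N • τ) := by
    intro τ
    have h1 := congrFun h τ
    simp only [Pi.mul_apply] at h1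
    rw [SL_slash_apply, SL_slash_apply, Gd_self_eq, Gd_self_eq] at h1
    have hB1 := Bf_apply_ne_zero (N := N) τ
    have hB2 := Bf_apply_ne_zero (N := N) (γ • τ)
    have hd : denom γ τ ^ (-kB N) ≠ 0 := zpow_ne_zero _ (denom_ne_zero γ τ)
    have h2 : jf (gN N • γ • τ) * (Bf N (γ • τ) * denom γ τ ^ (-kB N) * Bf N τ) =
        jf (gN N • τ) * (Bf N (γ • τ) * denom γ τ ^ (-kB N) * Bf N τ) := by
      linear_combination h1
    exact mul_right_cancel₀ (mul_ne_zero (mul_ne_zero hB2 hd) hB1) h2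
  obtain ⟨γ', a, d, b, had, hadN, hdec, hd1⟩ := exists_decomp N (N_mul_one_ne_zero N) γ
  have H : ∀ τ : ℍ, jf (upperT a d b had • τ) = jf (upperT N 1 0 (N_mul_one_ne_zero N) • τ) := by
    intro τ
    have h1 := key τ
    have h2 : gN N • (γ • τ) = γ' • (upperT a d b had • τ) := by
      have e1 : γ • τ = (γ : GL (Fin 2) ℝ) • τ := rfl
      have e2 : γ' • (upperT a d b had • τ) = (γ' : GL (Fin 2) ℝ) • (upperT a d b had • τ) := rfl
      rw [e1, e2, ← mul_smul, ← mul_smul]
      unfold gN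
      rw [hdec]
    rw [h2, jf_smul] at h1
    exact h1
  have hr := ratio_eq_of_jf_eq a d N 1 b 0 had (N_mul_one_ne_zero N) H
  have hd0 : d ≠ 0 := fun h0 => had (by simp [h0])
  have hd0' : (d : ℝ) ≠ 0 := by exact_mod_cast hd0
  have h1 : (a : ℝ) = N * d := by
    field_simp at hr
    rw [mul_comm]
    simpa using hr
  have h2 : a = N * d := by exact_mod_cast h1
  have h3 : d = 1 := by
    rw [h2] at hadN
    have hN : 0 < N := Nat.pos_of_ne_zero (NeZero.ne N)
    have : N * (d * d) = N * 1 := by rw [mul_one]; nlinarith [hadN]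
    have := Nat.eq_of_mul_eq_mul_left hN this
    exact Nat.eq_one_of_mul_eq_one_right this
  rw [Gamma0_mem, ZMod.intCast_zmod_eq_zero_iff_dvd]
  exact hd1 h3

end Fermat.Agent.S24Aux
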