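import Mathlib
import Fermat.Prelude.Def_ModularCurve_ArithmeticGalois
import Fermat.Prelude.Thm_ModularCurve_coeffMap_qExpand
import Fermat.Agent.Lib.S23_LevelOne
import Fermat.Agent.Lib.S23_Raise

/-!
# S24 (M1): the formal `q`-expansions of the Prelude are the analytic ones
-/

set_option autoImplicit false

open UpperHalfPlane ModularForm EisensteinSeries Filter Topology
open scoped Manifold MatrixGroups

namespace Fermat.Agent.S24Aux

noncomputable section

local notation "𝕢" => Function.Periodic.qParam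

/-! ### Taylor coefficients of locally uniform limits -/

lemma tendstoLocallyUniformlyOn_iteratedDeriv {ι : Type*} {φ : Filter ι} [φ.NeBot]
    {F : ι → ℂ → ℂ} {f : ℂ → ℂ} {U : Set ℂ} (hU : IsOpen U)
    (hf : TendstoLocallyUniformlyOn F f φ U) (hF : ∀ i, DifferentiableOn ℂ (F i) U) (k : ℕ) :
    TendstoLocallyUniformlyOn (fun i => iteratedDeriv k (F i)) (iteratedDeriv k f) φ U ∧
      ∀ i, DifferentiableOn ℂ (iteratedDeriv k (F i)) U := by
  induction k with
  | zero => simpa [iteratedDeriv_zero] using ⟨hf, hF⟩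
  | succ k ih =>
    refine ⟨?_, fun i => ?_⟩
    · have := ih.1.deriv (.of_forall ih.2) hU
      simpa only [iteratedDeriv_succ, Function.comp_def] using this
    · rw [iteratedDeriv_succ]
      exact (ih.2 i).deriv hU

lemma iteratedDeriv_polynomial_eval (p : Polynomial ℂ) (k : ℕ) :
    iteratedDeriv k (fun x => p.eval x) = fun x => ((Polynomial.derivative)^[k] p).eval x := by
  induction k with
  | zero => simp
  | succ k ih =>
    rw [iteratedDeriv_succ, ih]
    funext x
    rw [Polynomial.deriv, Function.iterate_succ_apply']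

lemma iteratedDeriv_polynomial_eval_zero (p : Polynomial ℂ) (k : ℕ) :
    iteratedDeriv k (fun x => p.eval x) 0 = (k.factorial : ℂ) * p.coeff k := by
  rw [iteratedDeriv_polynomial_eval]
  show Polynomial.eval 0 _ = _
  rw [← Polynomial.coeff_zero_eq_eval_zero,
    Polynomial.coeff_iterate_derivative, zero_add, Nat.descFactorial_self, nsmul_eq_mul]

/-- finite partial products, as integral polynomials -/
def etaPoly (s : Finset ℕ) : Polynomial ℤ := ∏ n ∈ s, (1 - Polynomial.X ^ (n + 1))

lemma etaPoly_coe (s : Finset ℕ) :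
    ((etaPoly s : Polynomial ℤ) : PowerSeries ℤ) = ∏ n ∈ s, (1 - PowerSeries.X ^ (n + 1)) := by
  have := map_prod (Polynomial.coeToPowerSeries.ringHom (R := ℤ))
    (fun n => (1 - Polynomial.X ^ (n + 1) : Polynomial ℤ)) s
  rw [Polynomial.coeToPowerSeries.ringHom_apply] at this
  rw [etaPoly, this]
  refine Finset.prod_congr rfl fun n _ => ?_
  simp

lemma etaPoly_eval (s : Finset ℕ) (q : ℂ) :
    ((etaPoly s).map (Int.castRingHom ℂ)).eval q = ∏ n ∈ s, (1 - q ^ (n + 1)) := by
  simp [etaPoly, Polynomial.map_prod, Polynomial.eval_prod]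

open PowerSeries.WithPiTopology in
lemma tendsto_coeff_etaPoly (k : ℕ) :
    Tendsto (fun s : Finset ℕ => (((etaPoly s).coeff k : ℤ) : ℂ)) atTop
      (𝓝 ((ModularCurve.etaProd.coeff k : ℤ) : ℂ)) := by
  have h1 : HasProd (fun n : ℕ => (1 - PowerSeries.X ^ (n + 1) : PowerSeries ℤ))
      ModularCurve.etaProd := (PowerSeries.WithPiTopology.multipliable_one_sub_X_pow ℤ).hasProd
  have h2 := ((PowerSeries.WithPiTopology.continuous_coeff ℤ k).tendsto _).comp h1
  have h3 : Continuous (fun m : ℤ => (m : ℂ)) := continuous_of_discreteTopology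
  have h4 := (h3.tendsto _).comp h2
  refine h4.congr fun s => ?_
  simp only [Function.comp]
  rw [← etaPoly_coe, Polynomial.coeff_coe]

/-- the Taylor coefficients of the analytic Euler product are the formal ones -/
lemma iteratedDeriv_euler (k : ℕ) :
    iteratedDeriv k (fun q : ℂ => ∏' n : ℕ, (1 - q ^ (n + 1))) 0 =
      (k.factorial : ℂ) * ((ModularCurve.etaProd.coeff k : ℤ) : ℂ) := by
  have h1 := multipliableLocallyUniformlyOn_one_sub_pow.hasProdLocallyUniformlyOn
  rw [hasProdLocallyUniformlyOn_iff_tendstoLocallyUniformlyOn] at h1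
  have h2 := (tendstoLocallyUniformlyOn_iteratedDeriv Metric.isOpen_ball h1 (fun s => by
    have : Differentiable ℂ (fun q : ℂ => ∏ n ∈ s, (1 - q ^ (n + 1))) := by fun_prop
    exact this.differentiableOn) k).1
  have h3 := h2.tendsto_at (Metric.mem_ball_self (x := (0 : ℂ)) one_pos)
  have h4 : ∀ s : Finset ℕ, iteratedDeriv k (fun q : ℂ => ∏ n ∈ s, (1 - q ^ (n + 1))) 0 =
      (k.factorial : ℂ) * (((etaPoly s).coeff k : ℤ) : ℂ) := by
    intro s
    have := iteratedDeriv_polynomial_eval_zero ((etaPoly s).map (Int.castRingHom ℂ)) k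
    simp only [etaPoly_eval] at this
    rw [this, Polynomial.coeff_map]
    simp
  simp only [h4] at h3
  exact tendsto_nhds_unique h3 ((tendsto_coeff_etaPoly k).const_mul _)

lemma hasSum_euler {q : ℂ} (hq : ‖q‖ < 1) :
    HasSum (fun n : ℕ => ((ModularCurve.etaProd.coeff n : ℤ) : ℂ) * q ^ n)
      (∏' n : ℕ, (1 - q ^ (n + 1))) := by
  have h := Complex.hasSum_taylorSeries_on_ball differentiableOn_tprod_one_sub_pow (z := q)
    (by simpa using hq)
  have h2 : (fun n : ℕ => ((ModularCurve.etaProd.coeff n : ℤ) : ℂ) * q ^ n) =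
      fun n : ℕ => ((n.factorial : ℂ))⁻¹ • (q - 0) ^ n •
        iteratedDeriv n (fun q : ℂ => ∏' n : ℕ, (1 - q ^ (n + 1))) 0 := by
    funext n
    rw [iteratedDeriv_euler, sub_zero, smul_eq_mul, smul_eq_mul]
    have : (n.factorial : ℂ) ≠ 0 := by exact_mod_cast n.factorial_ne_zero
    field_simp
  rw [h2]
  exact h

/-- the Euler product as a function on `ℍ` -/
def eulerFun (τ : ℍ) : ℂ := ∏' n : ℕ, (1 - 𝕢 1 τ ^ (n + 1))

lemma hasQExp_euler :
    S23Aux.HasQExp 1 eulerFun (ModularCurve.etaProd.map (Int.castRingHom ℂ)) where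
  mdiff := by
    rw [UpperHalfPlane.mdifferentiable_iff]
    have h1 : DifferentiableOn ℂ ((fun q : ℂ => ∏' n : ℕ, (1 - q ^ (n + 1))) ∘ (𝕢 1))
        {z | 0 < z.im} :=
      differentiableOn_tprod_one_sub_pow.comp (by fun_prop)
        (fun z hz => by simpa using norm_qParam_lt_one 1 ⟨z, hz⟩)
    refine h1.congr fun z hz => ?_
    simp [eulerFun, ofComplex_apply_of_im_pos hz]
  hasSum τ := by
    have := hasSum_euler (q := 𝕢 1 τ) (by simpa using norm_qParam_lt_one 1 τ)
    simpa [smul_eq_mul, eulerFun] using this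

lemma hasQExp_qParam : S23Aux.HasQExp 1 (fun τ : ℍ => 𝕢 1 τ) PowerSeries.X where
  mdiff := by
    rw [UpperHalfPlane.mdifferentiable_iff]
    have h1 : DifferentiableOn ℂ (𝕢 1) {z | 0 < z.im} := by fun_prop
    refine h1.congr fun z hz => ?_
    simp [ofComplex_apply_of_im_pos hz]
  hasSum τ := by
    have := hasSum_single (f := fun m : ℕ => (PowerSeries.X : PowerSeries ℂ).coeff m • 𝕢 1 τ ^ m) 1
      (fun m hm => by simp [PowerSeries.coeff_X, hm])
    simpa using this

lemma discriminant_eq_mul : (ModularForm.discriminant : ℍ → ℂ) =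
    (fun τ : ℍ => 𝕢 1 τ) * eulerFun ^ 24 := by
  funext τ
  rw [discriminant_eq_q_prod, Pi.mul_apply, Pi.pow_apply, eulerFun,
    ← (multipliable_one_sub_pow (by simpa using norm_qParam_lt_one 1 τ)).tprod_pow 24]

/-- (a) the `q`-expansion of `Δ` is the formal product. -/
theorem qExpansion_discriminant : qExpansion 1 ModularForm.discriminant = (PowerSeries.X * ModularCurve.etaProd ^ 24).map (Int.castRingHom ℂ) := by
  have h := hasQExp_qParam.mul (hasQExp_euler.pow one_pos 24) one_pos
  rw [← discriminant_eq_mul] at h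
  rw [h.qExpansion_eq one_pos]
  simp

/-- (b) the `q`-expansion of `E₄` is the formal one. -/
theorem qExpansion_E4 : qExpansion 1 E₄ = ModularCurve.eisenstein4.map (Int.castRingHom ℂ) := by
  rw [S23Aux.E4_qExpansion_eq]
  congr 1
  ext n
  have h240 : (240 : PowerSeries ℤ) = PowerSeries.C (240 : ℤ) := by simp
  rw [h240]
  simp only [map_add, PowerSeries.coeff_C_mul, S23Aux.sigmaSeries, PowerSeries.coeff_mk,
    PowerSeries.coeff_one, ModularCurve.eisenstein4]
  by_cases hn : n = 0
  · simp [hn]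
  · simp [hn, ArithmeticFunction.sigma_apply]

lemma coeffMap_ofPowerSeries {R S : Type*} [CommRing R] [CommRing S] (f : R →+* S)
    (P : PowerSeries R) :
    ModularCurve.coeffMap f (HahnSeries.ofPowerSeries ℤ R P) =
      HahnSeries.ofPowerSeries ℤ S (P.map f) := by
  ext k
  rw [ModularCurve.coeffMap_coeff]
  rcases lt_or_ge k 0 with hk | hk
  · rw [ModularCurve.ofPowerSeries_coeff_of_neg _ hk, ModularCurve.ofPowerSeries_coeff_of_neg _ hk,
      map_zero]
  · obtain ⟨n, rfl⟩ := Int.eq_ofNat_of_zero_le hk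
    rw [HahnSeries.ofPowerSeries_apply_coeff, HahnSeries.ofPowerSeries_apply_coeff,
      PowerSeries.coeff_map]

lemma coeffEmb_jq : ModularCurve.coeffEmb ℂ ModularCurve.jq =
    HahnSeries.single (-1 : ℤ) 1 *
      HahnSeries.ofPowerSeries ℤ ℂ (ModularCurve.jNum.map (Int.castRingHom ℂ)) := by
  rw [ModularCurve.coeffEmb, ModularCurve.jq, map_mul, ModularCurve.coeffMap_single, map_one,
    coeffMap_ofPowerSeries, ModularCurve.jNumQ]
  congr 2

/-- (c) `E₄³ = j Δ` for formal `q`-expansions. -/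
theorem jq_rel : (HahnSeries.ofPowerSeries ℤ ℂ (qExpansion 1 E₄)) ^ 3 = ModularCurve.coeffEmb ℂ ModularCurve.jq * HahnSeries.ofPowerSeries ℤ ℂ (qExpansion 1 ModularForm.discriminant) := by
  rw [qExpansion_E4, qExpansion_discriminant, coeffEmb_jq, map_mul (PowerSeries.map _),
    map_mul (HahnSeries.ofPowerSeries ℤ ℂ), PowerSeries.map_X, HahnSeries.ofPowerSeries_X]
  have h1 : (HahnSeries.single (-1 : ℤ) (1 : ℂ)) * HahnSeries.single (1 : ℤ) (1 : ℂ) = 1 := by
    rw [HahnSeries.single_mul_single]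
    simp
  have h2 : ModularCurve.jNum * ModularCurve.etaProd ^ 24 = ModularCurve.eisenstein4 ^ 3 := by
    have := ModularCurve.dedekindEtaUnit_mul_inv
    rw [ModularCurve.dedekindEtaUnit] at this
    rw [ModularCurve.jNum, mul_assoc, mul_comm ModularCurve.dedekindEtaUnitInv, this, mul_one]
  calc _ = HahnSeries.ofPowerSeries ℤ ℂ
        ((ModularCurve.jNum * ModularCurve.etaProd ^ 24).map (Int.castRingHom ℂ)) := by
        rw [h2, map_pow, map_pow]
    _ = (HahnSeries.single (-1 : ℤ) (1 : ℂ) * HahnSeries.single (1 : ℤ) (1 : ℂ)) *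
        (HahnSeries.ofPowerSeries ℤ ℂ (ModularCurve.jNum.map (Int.castRingHom ℂ)) *
          HahnSeries.ofPowerSeries ℤ ℂ
            ((ModularCurve.etaProd ^ 24).map (Int.castRingHom ℂ))) := by
        rw [h1, one_mul, map_mul, map_mul]
    _ = _ := by ring

lemma ofPowerSeries_twist (P : PowerSeries ℂ) (d : ℕ) [NeZero d] :
    HahnSeries.ofPowerSeries ℤ ℂ (S23Aux.twist P d 1) =
      ModularCurve.qExpand ℂ d (HahnSeries.ofPowerSeries ℤ ℂ P) := by
  have hd : 0 < d := Nat.pos_of_ne_zero (NeZero.ne d)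
  ext k
  by_cases hdk : (d : ℤ) ∣ k
  · obtain ⟨m, rfl⟩ := hdk
    rw [ModularCurve.qExpand_coeff_mul]
    rcases lt_or_ge m 0 with hm | hm
    · rw [ModularCurve.ofPowerSeries_coeff_of_neg _ hm, ModularCurve.ofPowerSeries_coeff_of_neg]
      exact mul_neg_of_pos_of_neg (by exact_mod_cast hd) hm
    · obtain ⟨n, rfl⟩ := Int.eq_ofNat_of_zero_le hm
      rw [HahnSeries.ofPowerSeries_apply_coeff]
      have : (d : ℤ) * (n : ℤ) = ((d * n : ℕ) : ℤ) := by push_cast; ring
      rw [this, HahnSeries.ofPowerSeries_apply_coeff, S23Aux.coeff_twist_mul P hd]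
      simp
  · rw [ModularCurve.qExpand_coeff_of_not_dvd _ _ hdk]
    rcases lt_or_ge k 0 with hk | hk
    · exact ModularCurve.ofPowerSeries_coeff_of_neg _ hk
    · obtain ⟨n, rfl⟩ := Int.eq_ofNat_of_zero_le hk
      rw [HahnSeries.ofPowerSeries_apply_coeff, S23Aux.coeff_twist, if_neg]
      intro h
      exact hdk (by exact_mod_cast h)

/-- (d) the twisted version of (c). -/
theorem jq_rel_twist (d : ℕ) [NeZero d] : (HahnSeries.ofPowerSeries ℤ ℂ (S23Aux.twist (qExpansion 1 E₄) d 1)) ^ 3 = ModularCurve.coeffEmb ℂ (ModularCurve.qExpand ℚ d ModularCurve.jq) * HahnSeries.ofPowerSeries ℤ ℂ (S23Aux.twist (qExpansion 1 ModularForm.discriminant) d 1) := by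
  rw [ofPowerSeries_twist, ofPowerSeries_twist, ModularCurve.coeffEmb,
    ModularCurve.coeffMap_qExpand, ← map_pow, ← map_mul]
  congr 1
  exact jq_rel

end

end Fermat.Agent.S24Aux
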