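/-
S24 helper library (M2a): the relation `Rel` between formal series and modular forms.
-/
import Fermat.Agent.S24.ModDefs
import Fermat.Agent.S24.ModDist
import Fermat.Agent.S24.FormalQ

set_option autoImplicit false
set_option linter.unusedSectionVars false
set_option linter.style.haveILetI false

namespace Fermat.Agent.S24Aux

open UpperHalfPlane ModularForm CongruenceSubgroup ModularCurve
open scoped MatrixGroups Manifold
open Fermat.Agent.DimAux Fermat.Agent.S23Aux

variable {N : ℕ} [NeZero N]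

theorem PS_mul (a b : PowerSeries ℂ) : PS (a * b) = PS a * PS b := map_mul _ _ _

theorem PS_add (a b : PowerSeries ℂ) : PS (a + b) = PS a + PS b := map_add _ _ _

theorem PS_pow (a : PowerSeries ℂ) (n : ℕ) : PS (a ^ n) = PS a ^ n := map_pow _ _ _

theorem PS_zero : PS 0 = 0 := map_zero _

theorem PS_prod {ι : Type*} (s : Finset ι) (f : ι → PowerSeries ℂ) :
    PS (∏ i ∈ s, f i) = ∏ i ∈ s, PS (f i) := map_prod _ _ _

theorem PS_injective : Function.Injective PS := HahnSeries.ofPowerSeries_injective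

theorem PS_twist (P : PowerSeries ℂ) (d : ℕ) [NeZero d] :
    PS (twist P d 1) = qExpand ℂ d (PS P) := ofPowerSeries_twist P d

theorem cC_injective : Function.Injective cC := by
  intro x y h
  ext k
  have := congrArg (fun z => HahnSeries.coeff z k) h
  simp only [cC, coeffMap_coeff] at this
  exact (algebraMap Kb ℂ).injective this

theorem cC_algebraMap (c : Kb) :
    cC (algebraMap Kb (LaurentSeries Kb) c) = algebraMap Kb (LaurentSeries ℂ) c := by
  rw [algebraMap_laurentSeries_eq_single, cC, coeffMap_single, HahnSeries.algebraMap_apply',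
    PowerSeries.algebraMap_apply, HahnSeries.ofPowerSeries_C]
  rfl

theorem rs_eq_raiseFun (d : ℕ) [NeZero d] {k : ℤ} (G : ModularForm 𝒮ℒ k) :
    rs d G = raiseFun d G := by
  funext τ
  rw [raiseFun_apply, rs, ofComplex_mul_eq]

theorem Gamma0_le_of_dvd {d : ℕ} (hd : d ∣ N) : Gamma0 N ≤ Gamma0 d := by
  intro γ hγ
  rw [Gamma0_mem, ZMod.intCast_zmod_eq_zero_iff_dvd] at hγ ⊢
  exact (Int.natCast_dvd_natCast.2 hd).trans hγ

theorem rs_mem_MFun {d : ℕ} (hd : d ∣ N) {k : ℤ} {G : ℍ → ℂ} (hG : G ∈ MFun ⊤ k) :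
    rs d G ∈ MFun (Gamma0 N) k := by
  haveI : NeZero d := ⟨fun h => NeZero.ne N (by rw [h] at hd; exact Nat.eq_zero_of_zero_dvd hd)⟩
  have h1 := coe_mem_MFun (levelRaise d (toMF1 hG))
  rw [coe_levelRaise, ← rs_eq_raiseFun, coe_toMF1] at h1
  exact MFun_mono (Gamma0_le_of_dvd hd) h1

theorem prod_mem_MFun {Γ : Subgroup SL(2, ℤ)} {ι : Type*} (s : Finset ι) (f : ι → ℍ → ℂ) (k : ℤ)
    (h : ∀ i ∈ s, f i ∈ MFun Γ k) : ∏ i ∈ s, f i ∈ MFun Γ (k * s.card) := by
  classical
  induction s using Finset.induction_on with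
  | empty => simpa using one_mem_MFun
  | insert a s ha ih =>
    rw [Finset.prod_insert ha, Finset.card_insert_of_notMem ha]
    exact MFun_cast (by push_cast; ring) (mul_mem_MFun (h a (Finset.mem_insert_self a s))
      (ih fun i hi => h i (Finset.mem_insert_of_mem hi)))

theorem Bf_mem : Bf N ∈ MFun (Gamma0 N) (kB N) :=
  prod_mem_MFun _ _ 12 fun _ hd => rs_mem_MFun (Nat.dvd_of_mem_divisors hd) (SFun_le_MFun Delta_mem)

theorem Bf_ne_zero (τ : ℍ) : Bf N τ ≠ 0 := Bf_apply_ne_zero τ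

theorem Gd_mem {d : ℕ} (hd : d ∣ N) : Gd N d ∈ MFun (Gamma0 N) (kB N) := by
  have hdm : d ∈ N.divisors := Nat.mem_divisors.2 ⟨hd, NeZero.ne N⟩
  have h1 := pow_mem_MFun (rs_mem_MFun hd E4_mem) 3
  have h2 := prod_mem_MFun (Γ := Gamma0 N) (N.divisors.erase d) (fun d' => rs d' discriminant) 12
    fun d' hd' => rs_mem_MFun (Nat.dvd_of_mem_divisors (Finset.mem_of_mem_erase hd'))
      (SFun_le_MFun Delta_mem)
  refine MFun_cast ?_ (mul_mem_MFun h1 h2)
  rw [Finset.card_erase_of_mem hdm, kB]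
  have : 1 ≤ N.divisors.card := Finset.card_pos.2 ⟨d, hdm⟩
  push_cast [Nat.cast_sub this]
  ring

theorem T_mem_Gamma0 : ModularGroup.T ∈ Gamma0 N := by
  rw [Gamma0_mem]
  simp [ModularGroup.T]

theorem periodic_of_mem {k : ℤ} {G : ℍ → ℂ} (hG : G ∈ MFun (Gamma0 N) k) :
    Function.Periodic (G ∘ ofComplex) (1 : ℝ) := by
  apply periodic_of_vadd
  intro z
  have h1 := slash_apply' (k := k) G ModularGroup.T z
  rw [hG.2.1 _ T_mem_Gamma0, modular_T_smul] at h1
  have h2 := denom_T_zpow 1 z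
  rw [zpow_one] at h2
  rw [h1, h2]; simp

/-- every form on `Γ₀(N)` has a `q`-expansion -/
theorem hasQExp_of_mem {k : ℤ} {G : ℍ → ℂ} (hG : G ∈ MFun (Gamma0 N) k) :
    HasQExp 1 G (qExpansion 1 G) :=
  HasQExp.of_periodic one_pos (periodic_of_mem hG) hG.1 (bdd_of_mem hG)

theorem hasQExp_one' : HasQExp 1 (1 : ℍ → ℂ) 1 := by
  have := (hasQExp_levelOne E₄).pow one_pos 0
  simpa using this

theorem hasQExp_const' (c : ℂ) : HasQExp 1 (fun _ : ℍ => c) (PowerSeries.C c) := by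
  have := hasQExp_one'.smul c
  convert this using 1
  · funext τ; simp
  · ext n; simp [PowerSeries.coeff_C, PowerSeries.coeff_one]

theorem hasQExp_prod {ι : Type*} (s : Finset ι) (f : ι → ℍ → ℂ) (P : ι → PowerSeries ℂ)
    (h : ∀ i ∈ s, HasQExp 1 (f i) (P i)) : HasQExp 1 (∏ i ∈ s, f i) (∏ i ∈ s, P i) := by
  classical
  induction s using Finset.induction_on with
  | empty => simpa using hasQExp_one'
  | insert a s ha ih =>
    rw [Finset.prod_insert ha, Finset.prod_insert ha]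
    exact (h a (Finset.mem_insert_self a s)).mul
      (ih fun i hi => h i (Finset.mem_insert_of_mem hi)) one_pos

theorem hasQExp_rs (d : ℕ) [NeZero d] {k : ℤ} (G : ModularForm 𝒮ℒ k) :
    HasQExp 1 (rs d G) (twist (qExpansion 1 G) d 1) := by
  rw [rs_eq_raiseFun]
  have := hasQExp_raiseFun d G 1 d one_pos (by ring)
  simpa using this

theorem hasQExp_rs_discriminant {d : ℕ} (hd : d ≠ 0) :
    HasQExp 1 (rs d discriminant) (twist (qExpansion 1 discriminant) d 1) := by
  haveI : NeZero d := ⟨hd⟩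
  have := hasQExp_rs d (toMF1 (SFun_le_MFun Delta_mem))
  rwa [coe_toMF1] at this

theorem hasQExp_Bf :
    HasQExp 1 (Bf N) (∏ d ∈ N.divisors, twist (qExpansion 1 discriminant) d 1) :=
  hasQExp_prod _ _ _ fun _ hd => hasQExp_rs_discriminant (Nat.pos_of_mem_divisors hd).ne'

theorem hasQExp_Gd {d : ℕ} (hd : d ∣ N) :
    HasQExp 1 (Gd N d) ((twist (qExpansion 1 E₄) d 1) ^ 3 *
      ∏ d' ∈ N.divisors.erase d, twist (qExpansion 1 discriminant) d' 1) := by
  haveI : NeZero d := ⟨fun h => NeZero.ne N (by rw [h] at hd; exact Nat.eq_zero_of_zero_dvd hd)⟩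
  exact ((hasQExp_rs d E₄).pow one_pos 3).mul (hasQExp_prod _ _ _ fun _ hd' =>
    hasQExp_rs_discriminant (Nat.pos_of_mem_divisors (Finset.mem_of_mem_erase hd')).ne') one_pos

theorem cC_coeffEmb (x : LaurentSeries ℚ) : cC (coeffEmb Kb x) = coeffEmb ℂ x := by
  rw [cC, coeffEmb, coeffMap_coeffMap]
  exact coeffMap_congr (Subsingleton.elim _ _) x

theorem cC_Jd (d : ℕ) [NeZero d] : cC (Jd d) = coeffEmb ℂ (qExpand ℚ d jq) := by
  rw [Jd, dif_neg (NeZero.ne d), cC_coeffEmb]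

theorem exists_Dq : ∃ Dq : LaurentSeries Kb, cC Dq = PS (qExpansion 1 discriminant) := by
  refine ⟨HahnSeries.ofPowerSeries ℤ Kb ((PowerSeries.X * etaProd ^ 24).map (Int.castRingHom Kb)),
    ?_⟩
  rw [cC, coeffMap_ofPowerSeries, qExpansion_discriminant]
  congr 1
  ext n
  rw [PowerSeries.coeff_map, PowerSeries.coeff_map, PowerSeries.coeff_map]
  simp

theorem exists_twist_Dq {d : ℕ} (hd : d ≠ 0) :
    ∃ Dq : LaurentSeries Kb, cC Dq = PS (twist (qExpansion 1 discriminant) d 1) := by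
  haveI : NeZero d := ⟨hd⟩
  obtain ⟨Dq, hDq⟩ := exists_Dq
  refine ⟨qExpand Kb d Dq, ?_⟩
  rw [PS_twist, ← hDq, cC, coeffMap_qExpand]

/-- the `q`-expansions of `B` and `Δ` are defined over `ℚ̄` -/
theorem exists_Bq : ∃ Bq : LaurentSeries Kb, cC Bq = PS (qExpansion 1 (Bf N)) := by
  rw [hasQExp_Bf.qExpansion_eq one_pos, PS_prod]
  have h : ∀ d ∈ N.divisors, ∃ Dq : LaurentSeries Kb,
      cC Dq = PS (twist (qExpansion 1 discriminant) d 1) :=
    fun d hd => exists_twist_Dq (Nat.pos_of_mem_divisors hd).ne'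
  choose! D hD using h
  refine ⟨∏ d ∈ N.divisors, D d, ?_⟩
  rw [map_prod]
  exact Finset.prod_congr rfl hD

theorem rel_gen {d : ℕ} (hd : d ∣ N) : Rel N (Jd d) 1 (Gd N d) := by
  haveI : NeZero d := ⟨fun h => NeZero.ne N (by rw [h] at hd; exact Nat.eq_zero_of_zero_dvd hd)⟩
  have hdm : d ∈ N.divisors := Nat.mem_divisors.2 ⟨hd, NeZero.ne N⟩
  refine ⟨MFun_cast (by simp) (Gd_mem hd), ?_⟩
  rw [(hasQExp_Gd hd).qExpansion_eq one_pos, hasQExp_Bf.qExpansion_eq one_pos, pow_one,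
    ← Finset.mul_prod_erase _ _ hdm, PS_mul, PS_mul, PS_pow, PS, PS, jq_rel_twist, cC_Jd, mul_assoc]

/-- `j = E₄³ / Δ`, with an arbitrary extra factor -/
theorem rel_J1_mul {y : LaurentSeries Kb} {M : ℕ} {G : ℍ → ℂ} (h : Rel N y M G) :
    PS (qExpansion 1 ((E₄ : ℍ → ℂ) ^ 3 * G)) =
      cC (Jd 1 * y) * PS (qExpansion 1 discriminant) * PS (qExpansion 1 (Bf N)) ^ M := by
  have h1 := ((hasQExp_levelOne E₄).pow one_pos 3).mul (hasQExp_of_mem h.mem) one_pos
  have h2 : PS (qExpansion 1 E₄) ^ 3 = coeffEmb ℂ jq * PS (qExpansion 1 discriminant) := jq_rel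
  rw [h1.qExpansion_eq one_pos, PS_mul, PS_pow, h2, h.eq, map_mul, cC_Jd, qExpand_one_apply]
  ring

theorem rel_const (c : Kb) :
    Rel N (algebraMap Kb (LaurentSeries Kb) c) 0 (fun _ => algebraMap Kb ℂ c) := by
  refine ⟨MFun_cast (by simp) (const_mem_MFun _), ?_⟩
  rw [(hasQExp_const' _).qExpansion_eq one_pos, pow_zero, mul_one, cC_algebraMap,
    HahnSeries.algebraMap_apply', PowerSeries.algebraMap_apply]

theorem Rel.add {y y' : LaurentSeries Kb} {M M' : ℕ} {G G' : ℍ → ℂ} (h : Rel N y M G)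
    (h' : Rel N y' M' G') : Rel N (y + y') (M + M') (G * Bf N ^ M' + G' * Bf N ^ M) := by
  have hB := hasQExp_of_mem (Bf_mem (N := N))
  refine ⟨Submodule.add_mem _
    (MFun_cast (by push_cast; ring) (mul_mem_MFun h.mem (pow_mem_MFun Bf_mem M')))
    (MFun_cast (by push_cast; ring) (mul_mem_MFun h'.mem (pow_mem_MFun Bf_mem M))), ?_⟩
  have h1 := (((hasQExp_of_mem h.mem).mul (hB.pow one_pos M') one_pos).add
    ((hasQExp_of_mem h'.mem).mul (hB.pow one_pos M) one_pos))
  rw [h1.qExpansion_eq one_pos, PS_add, PS_mul, PS_mul, PS_pow, PS_pow, h.eq, h'.eq, map_add]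
  ring

theorem Rel.mul {y y' : LaurentSeries Kb} {M M' : ℕ} {G G' : ℍ → ℂ} (h : Rel N y M G)
    (h' : Rel N y' M' G') : Rel N (y * y') (M + M') (G * G') := by
  refine ⟨MFun_cast (by push_cast; ring) (mul_mem_MFun h.mem h'.mem), ?_⟩
  have h1 := (hasQExp_of_mem h.mem).mul (hasQExp_of_mem h'.mem) one_pos
  rw [h1.qExpansion_eq one_pos, PS_mul, h.eq, h'.eq, map_mul]
  ring

theorem eq_zero_of_qExpansion_eq_zero {k : ℤ} {G : ℍ → ℂ} (hG : G ∈ MFun (Gamma0 N) k)
    (h : qExpansion 1 G = 0) : G = 0 := by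
  funext τ
  have h1 := (hasQExp_of_mem hG).hasSum τ
  rw [h] at h1
  simp only [map_zero, zero_smul] at h1
  exact h1.unique hasSum_zero

theorem Rel.eq_zero_of_left {M : ℕ} {G : ℍ → ℂ} (h : Rel N 0 M G) : G = 0 := by
  apply eq_zero_of_qExpansion_eq_zero h.mem
  have := h.eq
  rw [map_zero, zero_mul] at this
  exact PS_injective (by rw [this, PS_zero])

theorem PS_qExpansion_Bf_ne_zero : PS (qExpansion 1 (Bf N)) ≠ 0 := by
  intro h
  have h1 : qExpansion 1 (Bf N) = 0 := PS_injective (by rw [h, PS_zero])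
  have h2 := eq_zero_of_qExpansion_eq_zero Bf_mem h1
  exact Bf_ne_zero (N := N) UpperHalfPlane.I (by rw [h2]; rfl)

theorem Rel.eq_zero_of_right {y : LaurentSeries Kb} {M : ℕ} (h : Rel N y M 0) : y = 0 := by
  have h1 := h.eq
  have h2 : qExpansion 1 (0 : ℍ → ℂ) = 0 := by
    have := (hasQExp_const' 0).qExpansion_eq one_pos
    rw [map_zero] at this
    exact this
  rw [h2, PS_zero] at h1
  have h3 := (mul_eq_zero.1 h1.symm).resolve_right (pow_ne_zero _ PS_qExpansion_Bf_ne_zero)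
  exact cC_injective (by rw [h3, map_zero])

theorem exists_rel_of_mem_adjoin {y : LaurentSeries Kb} (hy : y ∈ Algebra.adjoin Kb (gens N)) :
    ∃ (M : ℕ) (G : ℍ → ℂ), Rel N y M G := by
  induction hy using Algebra.adjoin_induction with
  | mem x hx =>
    obtain ⟨d, hd, rfl⟩ := hx
    exact ⟨1, _, rel_gen (Nat.dvd_of_mem_divisors hd)⟩
  | algebraMap c => exact ⟨0, _, rel_const c⟩
  | add x y _ _ hx hy =>
    obtain ⟨M, G, h⟩ := hx
    obtain ⟨M', G', h'⟩ := hy
    exact ⟨_, _, h.add h'⟩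
  | mul x y _ _ hx hy =>
    obtain ⟨M, G, h⟩ := hx
    obtain ⟨M', G', h'⟩ := hy
    exact ⟨_, _, h.mul h'⟩

theorem Jd_mem_gens {d : ℕ} (hd : d ∣ N) : Jd d ∈ gens N :=
  ⟨d, Nat.mem_divisors.2 ⟨hd, NeZero.ne N⟩, rfl⟩

theorem fieldBar_eq_adjoin : modularFunctionFieldBar N = IntermediateField.adjoin Kb (gens N) := by
  apply le_antisymm
  · rw [modularFunctionFieldBar, laurentBaseChange, IntermediateField.adjoin_le_iff]
    rintro _ ⟨x, hx, rfl⟩
    have hx' : x ∈ IntermediateField.adjoin ℚ (divisorExpansions N) := hx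
    clear hx
    show coeffEmb Kb x ∈ IntermediateField.adjoin Kb (gens N)
    induction hx' using IntermediateField.adjoin_induction with
    | mem x hx =>
      obtain ⟨d, hne, hd, rfl⟩ := hx
      apply IntermediateField.subset_adjoin
      have := Jd_mem_gens hd
      rwa [Jd, dif_neg (NeZero.ne d)] at this
    | algebraMap c =>
      have : coeffEmb Kb (algebraMap ℚ (LaurentSeries ℚ) c) =
          algebraMap Kb (LaurentSeries Kb) (algebraMap ℚ Kb c) := by
        rw [algebraMap_laurentSeries_eq_single, algebraMap_laurentSeries_eq_single, coeffEmb,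
          coeffMap_single]
      rw [this]
      exact IntermediateField.algebraMap_mem _ _
    | add x y _ _ hx hy => rw [map_add]; exact add_mem hx hy
    | inv x _ hx => rw [map_inv₀]; exact inv_mem hx
    | mul x y _ _ hx hy => rw [map_mul]; exact mul_mem hx hy
  · rw [IntermediateField.adjoin_le_iff]
    rintro _ ⟨d, hd, rfl⟩
    have hd' := Nat.dvd_of_mem_divisors hd
    haveI : NeZero d := ⟨(Nat.pos_of_mem_divisors hd).ne'⟩
    rw [Jd, dif_neg (NeZero.ne d)]
    exact coeffEmb_mem_laurentBaseChange Kb (jqd_mem_full N hd')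

theorem Jd_mem {d : ℕ} (hd : d ∣ N) : Jd d ∈ modularFunctionFieldBar N := by
  rw [fieldBar_eq_adjoin]
  exact IntermediateField.subset_adjoin _ _ (Jd_mem_gens hd)

end Fermat.Agent.S24Aux
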