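/-
S24 helper library (M2b): embeddings of the function field attached to an expansion.
-/
import Fermat.Agent.S24.ModRel
import Fermat.Agent.S24.ModDist
import Fermat.Agent.S24.ExtRel
import Fermat.Agent.S24.Laurent

set_option autoImplicit false

namespace Fermat.Agent.S24Aux

open UpperHalfPlane ModularForm CongruenceSubgroup ModularCurve
open scoped MatrixGroups Manifold
open Fermat.Agent.DimAux Fermat.Agent.S23Aux

section general

variable {N : ℕ}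

theorem Expn.H_levelOne (P : Expn N) {k : ℤ} {a : ℍ → ℂ} (ha : a ∈ MFun ⊤ k) : P.H a := by
  have h := P.H_cj k a (MFun_mono le_top ha) ((1 : SL(2, ℤ)) : XN N)
  rwa [cj_levelOne ha] at h

theorem Expn.eq_of_E_eq (P : Expn N) {f g : ℍ → ℂ} (hf : P.H f) (hg : P.H g)
    (h : P.E f = P.E g) : f = g := by
  have hm : P.H ((fun _ => (-1 : ℂ)) * g) := P.H_mul _ _ (P.H_const _) hg
  have h1 : P.E (f + (fun _ => (-1 : ℂ)) * g) = 0 := by
    rw [P.E_add _ _ hf hm, P.E_mul _ _ (P.H_const _) hg, P.E_const, h]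
    simp
  have h2 := P.E_inj _ (P.H_add _ _ hf hm) h1
  ext τ
  have h3 := congrFun h2 τ
  simp only [Pi.add_apply, Pi.mul_apply, Pi.zero_apply] at h3
  linear_combination h3

theorem Expn.H_pow (P : Expn N) {f : ℍ → ℂ} (hf : P.H f) (n : ℕ) : P.H (f ^ n) := by
  induction n with
  | zero => rw [pow_zero]; exact P.H_const 1
  | succ n ih => rw [pow_succ]; exact P.H_mul _ _ ih hf

theorem Expn.E_pow (P : Expn N) {f : ℍ → ℂ} (hf : P.H f) (n : ℕ) : P.E (f ^ n) = P.E f ^ n := by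
  induction n with
  | zero =>
    rw [pow_zero, pow_zero]
    have := P.E_const 1
    rw [map_one] at this
    exact this
  | succ n ih => rw [pow_succ, pow_succ, P.E_mul _ _ (P.H_pow hf n) hf, ih]

theorem cj_congr_weight {Γ : Subgroup SL(2, ℤ)} {k l : ℤ} (h : k = l) (f : ℍ → ℂ)
    (x : SL(2, ℤ) ⧸ Γ) : cj Γ k f x = cj Γ l f x := by
  subst h; rfl

theorem cj_const {Γ : Subgroup SL(2, ℤ)} (c : ℂ) (x : SL(2, ℤ) ⧸ Γ) :
    cj Γ 0 (fun _ => c) x = fun _ => c :=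
  is_invariant_const _ c

theorem cj_pow {Γ : Subgroup SL(2, ℤ)} (k : ℤ) (f : ℍ → ℂ) (x : SL(2, ℤ) ⧸ Γ) (n : ℕ) :
    cj Γ (k * n) (f ^ n) x = cj Γ k f x ^ n := by
  induction n with
  | zero =>
    rw [pow_zero, pow_zero, cj_congr_weight (show k * ((0 : ℕ) : ℤ) = 0 by simp)]
    exact cj_const 1 x
  | succ n ih =>
    rw [pow_succ, pow_succ, cj_congr_weight (show k * ((n + 1 : ℕ) : ℤ) = k * n + k by
      push_cast; ring), cj_mul, ih]

theorem cj_eq_zero {Γ : Subgroup SL(2, ℤ)} {k : ℤ} {f : ℍ → ℂ} {x : SL(2, ℤ) ⧸ Γ}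
    (h : cj Γ k f x = 0) : f = 0 := by
  unfold cj at h
  have h1 := congrArg (fun g => g ∣[k] (Quotient.out x : SL(2, ℤ))) h
  simp only [← SlashAction.slash_mul, inv_mul_cancel, SlashAction.slash_one,
    SlashAction.zero_slash] at h1
  exact h1

theorem PS_C (c : Kb) : PS (PowerSeries.C (algebraMap Kb ℂ c)) =
    algebraMap Kb (LaurentSeries ℂ) c := by
  rw [algebraMap_laurent_eq_single]
  exact HahnSeries.ofPowerSeries_C _

end general

variable {N : ℕ} [NeZero N]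

theorem cj_Bf_apply_ne_zero (s : XN N) (τ : ℍ) : cj (Gamma0 N) (kB N) (Bf N) s τ ≠ 0 := by
  unfold cj
  rw [SL_slash_apply]
  exact mul_ne_zero (Bf_ne_zero _) (zpow_ne_zero _ (denom_ne_zero _ _))

theorem PS_E_cj_Bf_ne_zero (P : Expn N) (s : XN N) :
    PS (P.E (cj (Gamma0 N) (kB N) (Bf N) s)) ≠ 0 := by
  intro h
  have h1 : P.E (cj (Gamma0 N) (kB N) (Bf N) s) = 0 := PS_injective (h.trans PS_zero.symm)
  have h2 := P.E_inj _ (P.H_cj _ _ Bf_mem s) h1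
  exact cj_Bf_apply_ne_zero s UpperHalfPlane.I (by rw [h2]; rfl)

/-- the relation defining the embedding -/
def EmbRel (P : Expn N) (s : XN N) (y : LaurentSeries Kb) (l : LaurentSeries ℂ) : Prop :=
  ∃ (M : ℕ) (G : ℍ → ℂ), Rel N y M G ∧
    l * PS (P.E (cj (Gamma0 N) (kB N) (Bf N) s)) ^ M = PS (P.E (cj (Gamma0 N) (kB N * M) G s))

theorem E_cj_mul_pow (P : Expn N) (s : XN N) {M M' : ℕ} {G : ℍ → ℂ}
    (hG : G ∈ MFun (Gamma0 N) (kB N * M)) :
    P.H (cj (Gamma0 N) (kB N * (M + M' : ℕ)) (G * Bf N ^ M') s) ∧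
    PS (P.E (cj (Gamma0 N) (kB N * (M + M' : ℕ)) (G * Bf N ^ M') s)) =
      PS (P.E (cj (Gamma0 N) (kB N * M) G s)) *
        PS (P.E (cj (Gamma0 N) (kB N) (Bf N) s)) ^ M' := by
  have hB := P.H_cj _ _ (Bf_mem (N := N)) s
  have hG' := P.H_cj _ _ hG s
  rw [cj_congr_weight (show kB N * ((M + M' : ℕ) : ℤ) = kB N * M + kB N * M' by
    push_cast; ring), cj_mul, cj_pow]
  refine ⟨P.H_mul _ _ hG' (P.H_pow hB M'), ?_⟩
  rw [P.E_mul _ _ hG' (P.H_pow hB M'), P.E_pow hB, PS_mul, PS_pow]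

theorem EmbRel.add (P : Expn N) (s : XN N) (a b : LaurentSeries Kb) (l m : LaurentSeries ℂ)
    (h : EmbRel P s a l) (h' : EmbRel P s b m) : EmbRel P s (a + b) (l + m) := by
  obtain ⟨M, G, hr, he⟩ := h
  obtain ⟨M', G', hr', he'⟩ := h'
  refine ⟨M + M', _, hr.add hr', ?_⟩
  obtain ⟨H1, E1⟩ := E_cj_mul_pow P s (M' := M') hr.mem
  obtain ⟨H2, E2⟩ := E_cj_mul_pow P s (M' := M) hr'.mem
  rw [cj_congr_weight (show kB N * ((M' + M : ℕ) : ℤ) = kB N * ((M + M' : ℕ) : ℤ) by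
    push_cast; ring)] at H2 E2
  rw [cj_add, P.E_add _ _ H1 H2, PS_add, E1, E2, ← he, ← he']
  ring

theorem EmbRel.mul (P : Expn N) (s : XN N) (a b : LaurentSeries Kb) (l m : LaurentSeries ℂ)
    (h : EmbRel P s a l) (h' : EmbRel P s b m) : EmbRel P s (a * b) (l * m) := by
  obtain ⟨M, G, hr, he⟩ := h
  obtain ⟨M', G', hr', he'⟩ := h'
  refine ⟨M + M', _, hr.mul hr', ?_⟩
  rw [cj_congr_weight (show kB N * ((M + M' : ℕ) : ℤ) = kB N * M + kB N * M' by
    push_cast; ring), cj_mul, P.E_mul _ _ (P.H_cj _ _ hr.mem s) (P.H_cj _ _ hr'.mem s), PS_mul,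
    ← he, ← he']
  ring

theorem EmbRel.const (P : Expn N) (s : XN N) (c : Kb) :
    EmbRel P s (algebraMap Kb (LaurentSeries Kb) c) (algebraMap Kb (LaurentSeries ℂ) c) := by
  refine ⟨0, _, rel_const c, ?_⟩
  rw [pow_zero, mul_one, cj_congr_weight (show kB N * ((0 : ℕ) : ℤ) = 0 by simp), cj_const,
    P.E_const, PS_C]

theorem EmbRel.gen (P : Expn N) (s : XN N) (y : LaurentSeries Kb) (hy : y ∈ gens N) :
    ∃ l, EmbRel P s y l := by
  obtain ⟨d, hd, rfl⟩ := hy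
  have hd' : d ∣ N := Nat.dvd_of_mem_divisors hd
  refine ⟨PS (P.E (cj (Gamma0 N) (kB N * (1 : ℕ)) (Gd N d) s)) /
    PS (P.E (cj (Gamma0 N) (kB N) (Bf N) s)) ^ 1, 1, _, rel_gen hd', ?_⟩
  rw [div_mul_cancel₀ _ (pow_ne_zero 1 (PS_E_cj_Bf_ne_zero P s))]

theorem EmbRel.eq_zero_left (P : Expn N) (s : XN N) (l : LaurentSeries ℂ)
    (h : EmbRel P s 0 l) : l = 0 := by
  obtain ⟨M, G, hr, he⟩ := h
  have hG := hr.eq_zero_of_left
  subst hG
  have h0 : P.E (0 : ℍ → ℂ) = 0 := by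
    have := P.E_const 0
    rw [map_zero] at this
    exact this
  rw [cj_zero, h0, PS_zero] at he
  exact (mul_eq_zero.mp he).resolve_right (pow_ne_zero M (PS_E_cj_Bf_ne_zero P s))

theorem EmbRel.eq_zero_right (P : Expn N) (s : XN N) (a : LaurentSeries Kb)
    (h : EmbRel P s a 0) : a = 0 := by
  obtain ⟨M, G, hr, he⟩ := h
  rw [zero_mul] at he
  have h1 : P.E (cj (Gamma0 N) (kB N * M) G s) = 0 := PS_injective (he.symm.trans PS_zero.symm)
  have h2 := cj_eq_zero (P.E_inj _ (P.H_cj _ _ hr.mem s) h1)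
  subst h2
  exact hr.eq_zero_of_right

theorem exists_emb (P : Expn N) (s : XN N) : ∃ φ : FN N →ₐ[Kb] LaurentSeries ℂ,
    ∀ (y : FN N) (M : ℕ) (G : ℍ → ℂ), Rel N (y : LaurentSeries Kb) M G →
      φ y * PS (P.E (cj (Gamma0 N) (kB N) (Bf N) s)) ^ M =
        PS (P.E (cj (Gamma0 N) (kB N * M) G s)) := by
  obtain ⟨φ, hφ⟩ := exists_algHom_of_rel (K := Kb) (gens N) (EmbRel P s) (EmbRel.add P s)
    (EmbRel.mul P s) (EmbRel.const P s) (EmbRel.gen P s) (EmbRel.eq_zero_left P s)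
    (EmbRel.eq_zero_right P s)
  refine ⟨φ.comp (IntermediateField.equivOfEq (fieldBar_eq_adjoin (N := N))).toAlgHom, ?_⟩
  intro y M G hr
  have hb := pow_ne_zero M (PS_E_cj_Bf_ne_zero P s)
  have h1 := hφ (IntermediateField.equivOfEq (fieldBar_eq_adjoin (N := N)) y)
    (PS (P.E (cj (Gamma0 N) (kB N * M) G s)) / PS (P.E (cj (Gamma0 N) (kB N) (Bf N) s)) ^ M)
    ⟨M, G, hr, div_mul_cancel₀ _ hb⟩
  show φ (IntermediateField.equivOfEq (fieldBar_eq_adjoin (N := N)) y) * _ = _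
  rw [h1, div_mul_cancel₀ _ hb]

/-- the embedding attached to an expansion and a coset -/
noncomputable def emb (P : Expn N) (s : XN N) : FN N →ₐ[Kb] LaurentSeries ℂ :=
  (exists_emb P s).choose

theorem emb_spec (P : Expn N) (s : XN N) (y : FN N) (M : ℕ) (G : ℍ → ℂ)
    (h : Rel N (y : LaurentSeries Kb) M G) :
    emb P s y * PS (P.E (cj (Gamma0 N) (kB N) (Bf N) s)) ^ M =
      PS (P.E (cj (Gamma0 N) (kB N * M) G s)) :=
  (exists_emb P s).choose_spec y M G h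

variable (N) in
/-- the function `j` as an element of the function field -/
noncomputable def xj : FN N := ⟨Jd 1, Jd_mem (one_dvd N)⟩

theorem E_discriminant_ne_zero (P : Expn N) : P.E discriminant ≠ 0 := by
  intro h
  have h2 := P.E_inj _ (P.H_levelOne (SFun_le_MFun Delta_mem)) h
  exact discriminant_ne_zero UpperHalfPlane.I (by rw [h2]; rfl)

theorem rs_one (f : ℍ → ℂ) : rs 1 f = f := by
  ext τ
  simp [rs]

theorem discriminant_mul_Gd_one : discriminant * Gd N 1 = (E₄ : ℍ → ℂ) ^ 3 * Bf N := by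
  have h1 : 1 ∈ N.divisors := by simp [NeZero.ne N]
  unfold Gd Bf
  rw [← Finset.mul_prod_erase _ _ h1, rs_one, rs_one]
  ring

theorem E4_cube_mem : (E₄ : ℍ → ℂ) ^ 3 ∈ MFun ⊤ 12 :=
  MFun_cast (by norm_num) (pow_mem_MFun E4_mem 3)

theorem emb_xj (P : Expn N) (s : XN N) :
    emb P s (xj N) * PS (P.E discriminant) = PS (P.E E₄) ^ 3 := by
  have h1 := emb_spec P s (xj N) 1 (Gd N 1) (rel_gen (one_dvd N))
  rw [pow_one] at h1
  have hk : kB N * ((1 : ℕ) : ℤ) = kB N := by simp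
  rw [hk] at h1
  have hD : P.H discriminant := P.H_levelOne (SFun_le_MFun Delta_mem)
  have hE : P.H E₄ := P.H_levelOne E4_mem
  have hE3 : P.H ((E₄ : ℍ → ℂ) ^ 3) := P.H_levelOne E4_cube_mem
  have hG := P.H_cj _ _ (Gd_mem (one_dvd N)) s
  have hB := P.H_cj _ _ (Bf_mem (N := N)) s
  have h2 : discriminant * cj (Gamma0 N) (kB N) (Gd N 1) s =
      (E₄ : ℍ → ℂ) ^ 3 * cj (Gamma0 N) (kB N) (Bf N) s := by
    have := congrArg (fun f => cj (Gamma0 N) (12 + kB N) f s) (discriminant_mul_Gd_one (N := N))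
    simp only [cj_mul] at this
    rwa [cj_levelOne (SFun_le_MFun Delta_mem), cj_levelOne E4_cube_mem] at this
  have h3 := congrArg P.E h2
  rw [P.E_mul _ _ hD hG, P.E_mul _ _ hE3 hB, P.E_pow hE] at h3
  have h4 := congrArg PS h3
  rw [PS_mul, PS_mul, PS_pow] at h4
  apply mul_right_cancel₀ (PS_E_cj_Bf_ne_zero P s)
  calc emb P s (xj N) * PS (P.E discriminant) * PS (P.E (cj (Gamma0 N) (kB N) (Bf N) s))
      = PS (P.E discriminant) * (emb P s (xj N) * PS (P.E (cj (Gamma0 N) (kB N) (Bf N) s))) := by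
        ring
    _ = PS (P.E discriminant) * PS (P.E (cj (Gamma0 N) (kB N) (Gd N 1) s)) := by rw [h1]
    _ = _ := h4

theorem emb_injective (P : Expn N) : Function.Injective (emb P) := by
  intro s s' hss
  have hk : kB N * ((1 : ℕ) : ℤ) = kB N := by simp
  have h1 := emb_spec P s ⟨Jd N, Jd_mem dvd_rfl⟩ 1 (Gd N N) (rel_gen dvd_rfl)
  have h2 := emb_spec P s' ⟨Jd N, Jd_mem dvd_rfl⟩ 1 (Gd N N) (rel_gen dvd_rfl)
  rw [pow_one, hk] at h1 h2
  rw [← hss] at h2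
  have hG := P.H_cj _ _ (Gd_mem (dvd_refl N)) s
  have hB := P.H_cj _ _ (Bf_mem (N := N)) s
  have hG' := P.H_cj _ _ (Gd_mem (dvd_refl N)) s'
  have hB' := P.H_cj _ _ (Bf_mem (N := N)) s'
  have h3 : PS (P.E (cj (Gamma0 N) (kB N) (Gd N N) s * cj (Gamma0 N) (kB N) (Bf N) s')) =
      PS (P.E (cj (Gamma0 N) (kB N) (Gd N N) s' * cj (Gamma0 N) (kB N) (Bf N) s)) := by
    rw [P.E_mul _ _ hG hB', P.E_mul _ _ hG' hB, PS_mul, PS_mul, ← h1, ← h2]
    ring
  have h4 := P.eq_of_E_eq (P.H_mul _ _ hG hB') (P.H_mul _ _ hG' hB) (PS_injective h3)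
  -- slash by `s'.out`
  have h5 := congrArg (fun f => f ∣[kB N + kB N] (Quotient.out s' : SL(2, ℤ))) h4
  simp only [mul_slash_SL2] at h5
  unfold cj at h5
  simp only [← SlashAction.slash_mul, inv_mul_cancel, SlashAction.slash_one] at h5
  have h6 := mem_Gamma0_of_slash_eq _ h5
  have h7 : ((Quotient.out s : SL(2, ℤ)) : XN N) = ((Quotient.out s' : SL(2, ℤ)) : XN N) :=
    QuotientGroup.eq.mpr h6
  rwa [QuotientGroup.out_eq', QuotientGroup.out_eq'] at h7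

/-- the weight of `Bf N` as a natural number -/
def kBn (N : ℕ) : ℕ := 12 * N.divisors.card

theorem kB_eq (N : ℕ) : kB N = (kBn N : ℤ) := by
  unfold kB kBn
  push_cast
  ring

theorem emb_smul_of_rel (P : Expn N) (g : SL(2, ℤ)) (ρ : LaurentSeries ℂ →+* LaurentSeries ℂ)
    (c : LaurentSeries ℂ) (hc : c ≠ 0)
    (h : ∀ (k : ℕ) (G : ℍ → ℂ), G ∈ MFun (Gamma0 N) k → ∀ s : XN N,
      PS (P.E (cj (Gamma0 N) k G (g • s))) = c ^ k * ρ (PS (P.E (cj (Gamma0 N) k G s))))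
    (s : XN N) (y : FN N) {M : ℕ} {G : ℍ → ℂ} (hr : Rel N (y : LaurentSeries Kb) M G) :
    emb P (g • s) y = ρ (emb P s y) := by
  have h1 := emb_spec P (g • s) y M G hr
  have h2 := congrArg ρ (emb_spec P s y M G hr)
  rw [map_mul, map_pow] at h2
  have hw : kB N * (M : ℤ) = ((kBn N * M : ℕ) : ℤ) := by rw [kB_eq]; push_cast; ring
  have hB := h (kBn N) (Bf N) (MFun_cast (kB_eq N) Bf_mem) s
  have hG := h (kBn N * M) G (MFun_cast hw hr.mem) s
  rw [← kB_eq] at hB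
  rw [← hw] at hG
  rw [hB, hG, ← h2, mul_pow, ← pow_mul] at h1
  have hρb : ρ (PS (P.E (cj (Gamma0 N) (kB N) (Bf N) s))) ≠ 0 := by
    rw [Ne, map_eq_zero]
    exact PS_E_cj_Bf_ne_zero P s
  have hne : c ^ (kBn N * M) * ρ (PS (P.E (cj (Gamma0 N) (kB N) (Bf N) s))) ^ M ≠ 0 :=
    mul_ne_zero (pow_ne_zero _ hc) (pow_ne_zero _ hρb)
  apply mul_right_cancel₀ hne
  rw [h1]
  ring

theorem emb_smul (P : Expn N) (g : SL(2, ℤ)) (ρ : LaurentSeries ℂ →+* LaurentSeries ℂ)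
    (hρ : ∀ c : Kb, ρ (algebraMap Kb (LaurentSeries ℂ) c) = algebraMap Kb (LaurentSeries ℂ) c)
    (c : LaurentSeries ℂ) (hc : c ≠ 0)
    (h : ∀ (k : ℕ) (G : ℍ → ℂ), G ∈ MFun (Gamma0 N) k → ∀ s : XN N,
      PS (P.E (cj (Gamma0 N) k G (g • s))) = c ^ k * ρ (PS (P.E (cj (Gamma0 N) k G s))))
    (s : XN N) (y : FN N) : emb P (g • s) y = ρ (emb P s y) := by
  let φ2 : FN N →ₐ[Kb] LaurentSeries ℂ :=
    { ρ.comp (emb P s).toRingHom with
      commutes' := fun a => by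
        show ρ (emb P s (algebraMap Kb (FN N) a)) = _
        rw [AlgHom.commutes, hρ] }
  have key : emb P (g • s) = φ2 := by
    apply IntermediateField.algHom_ext_of_eq_adjoin Kb (fieldBar_eq_adjoin (N := N))
    rintro x ⟨d, hd, rfl⟩
    exact emb_smul_of_rel P g ρ c hc h s _ (rel_gen (Nat.dvd_of_mem_divisors hd))
  rw [key]
  rfl

end Fermat.Agent.S24Aux
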