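/-
S24 helper library (M3a): polynomial relations of degree `≤ index of Γ₀(N)` over `ℚ̄[j]`
(Sturm bound + counting).
-/
import Fermat.Agent.S24.ModRel
import Fermat.Agent.S24.ValPoly
import Fermat.Agent.S24.Laurent
import Fermat.Prelude.Thm_ModularForm_sturm_bound_Gamma0

set_option autoImplicit false
set_option linter.style.haveILetI false
set_option linter.unusedSectionVars false

namespace Fermat.Agent.S24Aux

open UpperHalfPlane ModularForm CongruenceSubgroup ModularCurve IntermediateField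
open scoped MatrixGroups Manifold
open Fermat.Agent.DimAux Fermat.Agent.S23Aux

variable (N : ℕ) [NeZero N]

theorem Jd_one_coeff : (Jd 1).coeff (-1) = 1 := by
  have h : Jd 1 = coeffEmb Kb (qExpand ℚ 1 jq) := by
    rw [Jd, dif_neg one_ne_zero]
  rw [h, qExpand_one_apply, coeffEmb_coeff, coeff_jq_neg_one, map_one]

theorem Jd_one_ne_zero : Jd 1 ≠ 0 := by
  intro h
  have := Jd_one_coeff
  rw [h] at this
  simp at this

theorem order_Jd_one_neg : (Jd 1).order < 0 := by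
  have h : (Jd 1).order ≤ -1 := HahnSeries.order_le_of_coeff_ne_zero (by
    rw [Jd_one_coeff]; exact one_ne_zero)
  omega

theorem transcendental_Jd_one : Transcendental Kb (Jd 1) := by
  rw [transcendental_iff]
  intro p hp
  by_contra hp0
  exact (laurentVal Kb).aeval_ne_zero_of_neg (fun c hc => laurentVal_algebraMap c hc) (Jd 1) p hp0
    Jd_one_ne_zero (by rw [laurentVal_ord]; exact order_Jd_one_neg) hp

/-- `F` is a modular form of weight `k` on `Γ₀(N)` with `q`-expansion `z ∈ ℚ̄((q))`. -/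
structure QR (N : ℕ) (k : ℤ) (z : LaurentSeries Kb) (F : ℍ → ℂ) : Prop where
  mem : F ∈ MFun (Gamma0 N) k
  eq : PS (qExpansion 1 F) = cC z

variable {N}

theorem QR.cast {k k' : ℤ} {z : LaurentSeries Kb} {F : ℍ → ℂ} (h : QR N k z F) (hk : k = k') :
    QR N k' z F := hk ▸ h

theorem QR.cast_left {k : ℤ} {z z' : LaurentSeries Kb} {F : ℍ → ℂ} (h : QR N k z F)
    (hz : z = z') : QR N k z' F := hz ▸ h

theorem QR.mul {k k' : ℤ} {z z' : LaurentSeries Kb} {F F' : ℍ → ℂ} (h : QR N k z F)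
    (h' : QR N k' z' F') : QR N (k + k') (z * z') (F * F') := by
  refine ⟨mul_mem_MFun h.mem h'.mem, ?_⟩
  have h1 := (hasQExp_of_mem h.mem).mul (hasQExp_of_mem h'.mem) one_pos
  rw [h1.qExpansion_eq one_pos, PS_mul, h.eq, h'.eq, map_mul]

theorem QR.add {k : ℤ} {z z' : LaurentSeries Kb} {F F' : ℍ → ℂ} (h : QR N k z F)
    (h' : QR N k z' F') : QR N k (z + z') (F + F') := by
  refine ⟨Submodule.add_mem _ h.mem h'.mem, ?_⟩
  have h1 := (hasQExp_of_mem h.mem).add (hasQExp_of_mem h'.mem)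
  rw [h1.qExpansion_eq one_pos, PS_add, h.eq, h'.eq, map_add]

theorem QR.zero (k : ℤ) : QR N k 0 0 := by
  refine ⟨Submodule.zero_mem _, ?_⟩
  have h2 : qExpansion 1 (0 : ℍ → ℂ) = 0 := by
    have := (hasQExp_const' 0).qExpansion_eq one_pos
    rw [map_zero] at this
    exact this
  rw [h2, PS_zero, map_zero]

theorem QR.const (c : Kb) :
    QR N 0 (algebraMap Kb (LaurentSeries Kb) c) (fun _ => algebraMap Kb ℂ c) := by
  have h := rel_const (N := N) c
  refine ⟨MFun_cast (by simp) h.mem, ?_⟩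
  rw [h.eq, pow_zero, mul_one]

theorem QR.one : QR N 0 1 1 := by
  have h := QR.const (N := N) 1
  rw [map_one] at h
  convert h using 1
  funext τ
  simp

theorem QR.pow {k : ℤ} {z : LaurentSeries Kb} {F : ℍ → ℂ} (h : QR N k z F) (n : ℕ) :
    QR N (n * k) (z ^ n) (F ^ n) := by
  induction n with
  | zero => simpa using QR.one (N := N)
  | succ n ih =>
    rw [pow_succ, pow_succ]
    exact (ih.mul h).cast (by push_cast; ring)

theorem QR.sum {ι : Type*} (s : Finset ι) {k : ℤ} (z : ι → LaurentSeries Kb) (F : ι → ℍ → ℂ)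
    (h : ∀ i ∈ s, QR N k (z i) (F i)) : QR N k (∑ i ∈ s, z i) (∑ i ∈ s, F i) := by
  classical
  induction s using Finset.induction_on with
  | empty => simpa using QR.zero (N := N) k
  | insert a s ha ih =>
    rw [Finset.sum_insert ha, Finset.sum_insert ha]
    exact (h a (Finset.mem_insert_self a s)).add
      (ih fun i hi => h i (Finset.mem_insert_of_mem hi))

theorem QR.of_rel {y Bq : LaurentSeries Kb} (hBq : cC Bq = PS (qExpansion 1 (Bf N))) {M : ℕ}
    {G : ℍ → ℂ} (h : Rel N y M G) : QR N (kB N * M) (y * Bq ^ M) G :=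
  ⟨h.mem, by rw [h.eq, map_mul, map_pow, hBq]⟩

theorem QR.Bf {Bq : LaurentSeries Kb} (hBq : cC Bq = PS (qExpansion 1 (Bf N))) :
    QR N (kB N) Bq (Bf N) := ⟨Bf_mem, hBq.symm⟩

theorem QR.Delta {Dq : LaurentSeries Kb} (hDq : cC Dq = PS (qExpansion 1 discriminant)) :
    QR N 12 Dq discriminant := ⟨RFun_le_MFun (SFun_le_MFun Delta_mem), hDq.symm⟩

theorem QR.E4_cube {Dq : LaurentSeries Kb} (hDq : cC Dq = PS (qExpansion 1 discriminant)) :
    QR N 12 (Jd 1 * Dq) ((E₄ : ℍ → ℂ) ^ 3) := by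
  refine ⟨MFun_cast (by norm_num) (pow_mem_MFun (RFun_le_MFun E4_mem) 3), ?_⟩
  have h1 := (hasQExp_levelOne E₄).pow one_pos 3
  have h2 : PS (qExpansion 1 E₄) ^ 3 = coeffEmb ℂ jq * PS (qExpansion 1 discriminant) := jq_rel
  rw [h1.qExpansion_eq one_pos, PS_pow, h2, map_mul, cC_Jd, qExpand_one_apply, hDq]

/-- the Sturm bound for `QR`. -/
theorem QR.eq_zero_of_coeff {k : ℤ} {z : LaurentSeries Kb} {F : ℍ → ℂ} (h : QR N k z F)
    (hz : ∀ n : ℕ, n ≤ (k * (Gamma0 N).index).toNat / 12 → z.coeff (n : ℤ) = 0) : z = 0 := by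
  have h1 : toMF h.mem = 0 := by
    refine ModularForm.sturm_bound_Gamma0 N (toMF h.mem) fun n hn => ?_
    have h2 : (qExpansion 1 (toMF h.mem)).coeff n = (PS (qExpansion 1 F)).coeff (n : ℤ) := by
      rw [PS, HahnSeries.ofPowerSeries_apply_coeff]
      rfl
    rw [h2, h.eq, cC, coeffMap_coeff, hz n hn, map_zero]
  have h3 : F = 0 := by
    have := congrArg (fun f : ModularForm _ k => (f : ℍ → ℂ)) h1
    simpa using this
  have h4 := h.eq
  rw [h3, (QR.zero (N := N) k).eq, map_zero] at h4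
  exact cC_injective (by rw [← h4, map_zero])

theorem Bq_ne_zero {Bq : LaurentSeries Kb} (hBq : cC Bq = PS (qExpansion 1 (Bf N))) : Bq ≠ 0 := by
  rintro rfl
  rw [map_zero] at hBq
  exact PS_qExpansion_Bf_ne_zero hBq.symm

theorem Dq_ne_zero {Dq : LaurentSeries Kb} (hDq : cC Dq = PS (qExpansion 1 discriminant)) :
    Dq ≠ 0 := by
  rintro rfl
  rw [map_zero] at hDq
  have h1 : qExpansion 1 discriminant = 0 := PS_injective (by rw [← hDq, PS_zero])
  have h2 := eq_zero_of_qExpansion_eq_zero (N := 1) (RFun_le_MFun (SFun_le_MFun Delta_mem)) h1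
  exact discriminant_ne_zero UpperHalfPlane.I (by rw [h2]; rfl)

open Polynomial in
/-- a two-variable polynomial from its table of coefficients. -/
noncomputable def polyOfTable {μ m : ℕ} (l : Fin (μ + 1) × Fin (m + 1) → Kb) : Kb[X][X] :=
  ∑ i : Fin (μ + 1), C (∑ a : Fin (m + 1), C (l (i, a)) * X ^ (a : ℕ)) * X ^ (i : ℕ)

open Polynomial in
theorem polyOfTable_coeff {μ m : ℕ} (l : Fin (μ + 1) × Fin (m + 1) → Kb) (i : Fin (μ + 1))
    (a : Fin (m + 1)) : ((polyOfTable l).coeff (i : ℕ)).coeff (a : ℕ) = l (i, a) := by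
  rw [polyOfTable, finsetSum_coeff, Finset.sum_eq_single i]
  · rw [coeff_C_mul, coeff_X_pow, if_pos rfl, mul_one, finsetSum_coeff, Finset.sum_eq_single a]
    · rw [coeff_C_mul, coeff_X_pow, if_pos rfl, mul_one]
    · intro b _ hb
      rw [coeff_C_mul, coeff_X_pow, if_neg (fun h => hb (Fin.ext h.symm)), mul_zero]
    · intro h; exact absurd (Finset.mem_univ a) h
  · intro j _ hj
    rw [coeff_C_mul, coeff_X_pow, if_neg (fun h => hj (Fin.ext h.symm)), mul_zero]
  · intro h; exact absurd (Finset.mem_univ i) h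

open Polynomial in
theorem polyOfTable_natDegree_le {μ m : ℕ} (l : Fin (μ + 1) × Fin (m + 1) → Kb) :
    (polyOfTable l).natDegree ≤ μ := by
  refine natDegree_sum_le_of_forall_le _ _ fun i _ => ?_
  exact (natDegree_C_mul_X_pow_le _ _).trans (Nat.lt_succ_iff.mp i.2)

open Polynomial in
theorem polyOfTable_eval {μ m : ℕ} (l : Fin (μ + 1) × Fin (m + 1) → Kb)
    (J y : LaurentSeries Kb) :
    ((polyOfTable l).map (Polynomial.aeval J).toRingHom).eval y
      = ∑ x : Fin (μ + 1) × Fin (m + 1),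
        algebraMap Kb (LaurentSeries Kb) (l x) * (y ^ (x.1 : ℕ) * J ^ (x.2 : ℕ)) := by
  rw [polyOfTable, Polynomial.map_sum, eval_finsetSum, Fintype.sum_prod_type]
  refine Finset.sum_congr rfl fun i _ => ?_
  rw [Polynomial.map_mul, Polynomial.map_pow, map_X, map_C, eval_mul, eval_pow, eval_X, eval_C]
  simp only [AlgHom.toRingHom_eq_coe, RingHom.coe_coe, map_sum, map_mul, aeval_C, map_pow, aeval_X]
  rw [Finset.sum_mul]
  refine Finset.sum_congr rfl fun a _ => ?_
  ring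

variable (N)

/-- key step: every element of the `ℚ̄`-algebra generated by the `j(q^d)` satisfies a non trivial
polynomial relation of degree `≤ μ` over `ℚ̄[j]` (Sturm bound + counting). -/
theorem exists_relation {y : LaurentSeries Kb} (hy : y ∈ Algebra.adjoin Kb (gens N)) :
    ∃ Q : Polynomial (Polynomial Kb), Q ≠ 0 ∧ Q.natDegree ≤ (Gamma0 N).index ∧
      (Q.map (Polynomial.aeval (Jd 1)).toRingHom).eval y = 0 := by
  classical
  obtain ⟨M, G, hrel⟩ := exists_rel_of_mem_adjoin hy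
  obtain ⟨Bq, hBq⟩ := exists_Bq (N := N)
  obtain ⟨Dq, hDq⟩ := exists_Dq
  obtain ⟨μ, hμ⟩ : ∃ μ, μ = (Gamma0 N).index := ⟨_, rfl⟩
  have hμpos : 0 < μ := by
    rw [hμ]
    exact Nat.pos_of_ne_zero Subgroup.FiniteIndex.index_ne_zero
  rw [← hμ]
  obtain ⟨m, hm⟩ : ∃ m, m = N.divisors.card * M * μ ^ 2 := ⟨_, rfl⟩
  obtain ⟨W, hW⟩ : ∃ W : ℤ, W = kB N * M * μ + 12 * m := ⟨_, rfl⟩
  -- the forms
  let z : Fin (μ + 1) × Fin (m + 1) → LaurentSeries Kb := fun x =>
    (y ^ (x.1 : ℕ) * Jd 1 ^ (x.2 : ℕ)) * (Bq ^ (M * μ) * Dq ^ m)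
  let F : Fin (μ + 1) × Fin (m + 1) → ℍ → ℂ := fun x =>
    G ^ (x.1 : ℕ) * (Bf N) ^ (M * (μ - x.1)) * ((E₄ : ℍ → ℂ) ^ 3) ^ (x.2 : ℕ)
      * discriminant ^ (m - x.2)
  have hQR : ∀ x, QR N W (z x) (F x) := by
    intro x
    have hi : (x.1 : ℕ) ≤ μ := Nat.lt_succ_iff.mp x.1.2
    have ha : (x.2 : ℕ) ≤ m := Nat.lt_succ_iff.mp x.2.2
    have h1 := (QR.of_rel hBq hrel).pow (x.1 : ℕ)
    have h2 := (QR.Bf hBq).pow (M * (μ - x.1))
    have h3 := (QR.E4_cube (N := N) hDq).pow (x.2 : ℕ)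
    have h4 := (QR.Delta (N := N) hDq).pow (m - x.2)
    refine ((((h1.mul h2).mul h3).mul h4).cast ?_).cast_left ?_
    · rw [hW]
      push_cast [Nat.cast_sub hi, Nat.cast_sub ha]
      ring
    · have e1 : Bq ^ (M * (x.1 : ℕ)) * Bq ^ (M * (μ - x.1)) = Bq ^ (M * μ) := by
        rw [← pow_add, ← mul_add, Nat.add_sub_cancel' hi]
      have e2 : Dq ^ (x.2 : ℕ) * Dq ^ (m - x.2) = Dq ^ m := by
        rw [← pow_add, Nat.add_sub_cancel' ha]
      change (y * Bq ^ M) ^ (x.1 : ℕ) * Bq ^ (M * (μ - x.1)) * (Jd 1 * Dq) ^ (x.2 : ℕ)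
        * Dq ^ (m - x.2) = (y ^ (x.1 : ℕ) * Jd 1 ^ (x.2 : ℕ)) * (Bq ^ (M * μ) * Dq ^ m)
      rw [← e1, ← e2, mul_pow, mul_pow, ← pow_mul]
      ring
  -- the linear system
  let Φ : (Fin (μ + 1) × Fin (m + 1) → Kb) →ₗ[Kb] (Fin (m * (μ + 1) + 1) → Kb) :=
    { toFun := fun l n => ∑ x, l x * (z x).coeff ((n : ℕ) : ℤ)
      map_add' := by
        intro a b
        funext n
        simp [add_mul, Finset.sum_add_distrib]
      map_smul' := by
        intro c a
        funext n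
        simp [Finset.mul_sum, mul_assoc] }
  have hker : LinearMap.ker Φ ≠ ⊥ := LinearMap.ker_ne_bot_of_finrank_lt (by
    rw [Module.finrank_fintype_fun_eq_card, Module.finrank_fintype_fun_eq_card, Fintype.card_prod,
      Fintype.card_fin, Fintype.card_fin, Fintype.card_fin]
    nlinarith)
  obtain ⟨l, hl, hl0⟩ := (Submodule.ne_bot_iff _).mp hker
  have hΦ : ∀ n : ℕ, n ≤ m * (μ + 1) → ∑ x, l x * (z x).coeff (n : ℤ) = 0 := by
    intro n hn
    have := congrFun (LinearMap.mem_ker.mp hl) ⟨n, Nat.lt_succ_iff.mpr hn⟩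
    exact this
  have hZ : QR N W (∑ x, algebraMap Kb (LaurentSeries Kb) (l x) * z x)
      (∑ x, (fun _ => algebraMap Kb ℂ (l x)) * F x) :=
    QR.sum _ _ _ fun x _ => ((QR.const (l x)).mul (hQR x)).cast (zero_add W)
  have hbound : (W * ((Gamma0 N).index : ℤ)).toNat / 12 = m * (μ + 1) := by
    have : W * ((Gamma0 N).index : ℤ) = ((12 * (m * (μ + 1)) : ℕ) : ℤ) := by
      rw [← hμ, hW, kB]
      push_cast
      rw [hm]
      push_cast
      ring
    rw [this, Int.toNat_natCast, Nat.mul_div_cancel_left _ (by norm_num)]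
  have hZ0 := hZ.eq_zero_of_coeff (fun n hn => by
    rw [hbound] at hn
    rw [HahnSeries.coeff_sum, ← hΦ n hn]
    refine Finset.sum_congr rfl fun x _ => ?_
    rw [algebraMap_laurentSeries_eq_single, HahnSeries.coeff_single_mul, sub_zero])
  refine ⟨polyOfTable l, ?_, polyOfTable_natDegree_le l, ?_⟩
  · intro h0
    apply hl0
    funext x
    have := polyOfTable_coeff l x.1 x.2
    rw [h0] at this
    simpa using this.symm
  · rw [polyOfTable_eval]
    have h1 : (∑ x, algebraMap Kb (LaurentSeries Kb) (l x) * z x)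
        = (∑ x : Fin (μ + 1) × Fin (m + 1), algebraMap Kb (LaurentSeries Kb) (l x)
          * (y ^ (x.1 : ℕ) * Jd 1 ^ (x.2 : ℕ))) * (Bq ^ (M * μ) * Dq ^ m) := by
      rw [Finset.sum_mul]
      refine Finset.sum_congr rfl fun x _ => ?_
      rw [mul_assoc]
    rw [h1] at hZ0
    exact (mul_eq_zero.mp hZ0).resolve_right
      (mul_ne_zero (pow_ne_zero _ (Bq_ne_zero hBq)) (pow_ne_zero _ (Dq_ne_zero hDq)))

end Fermat.Agent.S24Aux
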