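/-
S24 helper library (M3a): polynomial relations of degree `≤ index of Γ₀(N)` over `ℚ̄[j]`.
-/
import Fermat.Agent.S24.ModEmb
import Fermat.Agent.S24.ModSturm

set_option autoImplicit false

namespace Fermat.Agent.S24Aux

open UpperHalfPlane ModularForm CongruenceSubgroup ModularCurve IntermediateField
open scoped MatrixGroups Manifold
open Fermat.Agent.DimAux Fermat.Agent.S23Aux

variable (N : ℕ) [NeZero N]

theorem transcendental_xj : Transcendental Kb (xj N) := by
  have h := transcendental_Jd_one
  rw [show Jd 1 = algebraMap (FN N) (LaurentSeries Kb) (xj N) from rfl,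
    transcendental_algebraMap_iff (algebraMap (FN N) (LaurentSeries Kb)).injective] at h
  exact h

-- `exists_relation` (Sturm bound + counting) is proved in `ModSturm.lean`.

end Fermat.Agent.S24Aux
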