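/-
S24 helper library (M3b): `[F : K(j)] ≤ index of Γ₀(N)`.
-/
import Fermat.Agent.S24.ModDegRel
import Fermat.Agent.S24.DegAbs

set_option autoImplicit false

namespace Fermat.Agent.S24Aux

open UpperHalfPlane ModularForm CongruenceSubgroup ModularCurve IntermediateField
open scoped MatrixGroups Manifold
open Fermat.Agent.DimAux Fermat.Agent.S23Aux

variable (N : ℕ) [NeZero N]

/-- the generators, as elements of the function field -/
def gensF : Set (FN N) := Subtype.val ⁻¹' gens N

theorem gens_subset : gens N ⊆ (modularFunctionFieldBar N : Set (LaurentSeries Kb)) := by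
  rintro _ ⟨d, hd, rfl⟩
  exact Jd_mem (Nat.dvd_of_mem_divisors hd)

theorem val_image_gensF : (modularFunctionFieldBar N).val '' gensF N = gens N := by
  ext z
  constructor
  · rintro ⟨y, hy, rfl⟩
    exact hy
  · intro hz
    exact ⟨⟨z, gens_subset N hz⟩, hz, rfl⟩

omit [NeZero N] in
theorem gensF_finite : (gensF N).Finite := by
  apply Set.Finite.preimage Subtype.val_injective.injOn
  exact (Finset.finite_toSet _).image _

theorem adjoin_gensF_eq_top : IntermediateField.adjoin Kb (gensF N) = ⊤ := by
  apply IntermediateField.map_injective (modularFunctionFieldBar N).val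
  rw [IntermediateField.adjoin_map, val_image_gensF, ← fieldBar_eq_adjoin,
    ← AlgHom.fieldRange_eq_map, IntermediateField.fieldRange_val]

theorem xj_mem_gensF : xj N ∈ gensF N :=
  ⟨1, by simp [NeZero.ne N], rfl⟩

theorem val_mem_adjoin {y : FN N} (hy : y ∈ Algebra.adjoin Kb (gensF N)) :
    (y : LaurentSeries Kb) ∈ Algebra.adjoin Kb (gens N) := by
  have h1 : (modularFunctionFieldBar N).val y ∈
      (Algebra.adjoin Kb (gensF N)).map (modularFunctionFieldBar N).val := ⟨y, hy, rfl⟩
  rw [AlgHom.map_adjoin, val_image_gensF] at h1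
  exact h1

theorem exists_relation_F {y : FN N} (hy : y ∈ Algebra.adjoin Kb (gensF N)) :
    ∃ Q : Polynomial (Polynomial Kb), Q ≠ 0 ∧ Q.natDegree ≤ Nat.card (XN N) ∧
      (Q.map (Polynomial.aeval (xj N)).toRingHom).eval y = 0 := by
  obtain ⟨Q, hQ0, hQd, hQ⟩ := exists_relation N (val_mem_adjoin N hy)
  refine ⟨Q, hQ0, hQd, ?_⟩
  apply Subtype.val_injective
  have h1 : ((modularFunctionFieldBar N).val : FN N →+* LaurentSeries Kb).comp
      (Polynomial.aeval (R := Kb) (xj N)).toRingHom =
        (Polynomial.aeval (R := Kb) (Jd 1)).toRingHom := by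
    ext p
    · simp
    · simp [xj]
  have h2 : (modularFunctionFieldBar N).val ((Q.map (Polynomial.aeval (xj N)).toRingHom).eval y) =
      (Q.map (Polynomial.aeval (Jd 1)).toRingHom).eval (y : LaurentSeries Kb) := by
    rw [Polynomial.eval_map, Polynomial.eval_map, ← h1]
    exact Polynomial.hom_eval₂ Q _ ((modularFunctionFieldBar N).val : FN N →+* LaurentSeries Kb) y
  rw [hQ] at h2
  exact h2

theorem finrank_aux : FiniteDimensional Kb⟮xj N⟯ (FN N) ∧
    Module.finrank Kb⟮xj N⟯ (FN N) ≤ Nat.card (XN N) :=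
  finrank_le_of_relations (xj N) (transcendental_xj N) (gensF N) (gensF_finite N)
    (Algebra.subset_adjoin (xj_mem_gensF N)) (adjoin_gensF_eq_top N) _
    (fun _ hy => exists_relation_F N hy)

instance finiteDimensional_xj : FiniteDimensional Kb⟮xj N⟯ (FN N) := (finrank_aux N).1

theorem finrank_xj_le : Module.finrank Kb⟮xj N⟯ (FN N) ≤ Nat.card (XN N) := (finrank_aux N).2

end Fermat.Agent.S24Aux
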