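/-
S24 helper library: `LocalData` from an expansion which is equivariant for rescaling.
-/
import Fermat.Agent.S24.ModEmb
import Fermat.Agent.S24.Laurent

set_option autoImplicit false

namespace Fermat.Agent.S24Aux

open UpperHalfPlane ModularForm CongruenceSubgroup ModularCurve
open scoped MatrixGroups Manifold
open Fermat.Agent.DimAux Fermat.Agent.S23Aux

variable {N : ℕ} [NeZero N]

theorem emb_pow_smul (P : Expn N) (g : SL(2, ℤ)) (ρ : LaurentSeries ℂ →+* LaurentSeries ℂ)
    (h : ∀ (s : XN N) (y : FN N), emb P (g • s) y = ρ (emb P s y)) (k : ℕ) (s : XN N) (y : FN N) :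
    emb P (g ^ k • s) y = (ρ^[k]) (emb P s y) := by
  induction k generalizing s with
  | zero => simp
  | succ k ih =>
    rw [pow_succ, mul_smul, ih, h, Function.iterate_succ_apply]

/-- `LocalData` from an expansion. -/
noncomputable def localDataOfExpn (P : Expn N) (pt : Option Kb) (g : SL(2, ℤ)) (e0 : ℕ) (ζ : ℂ)
    (hζ : IsPrimitiveRoot ζ e0) (hζ0 : ζ ≠ 0) (c : LaurentSeries ℂ) (hc : c ≠ 0)
    (h : ∀ (k : ℕ) (G : ℍ → ℂ), G ∈ MFun (Gamma0 N) k → ∀ s : XN N,
      PS (P.E (cj (Gamma0 N) k G (g • s))) =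
        c ^ k * rescaleL ζ hζ0 (PS (P.E (cj (Gamma0 N) k G s))))
    (hord : ∀ s : XN N, (emb P s (locParam (xj N) pt)).order = e0) :
    LocalData (laurentVal ℂ) (xj N) pt (XN N) g e0 where
  ι := emb P
  inj := emb_injective P
  agree s s' := by
    have h1 := emb_xj P s
    have h2 := emb_xj P s'
    have h3 : PS (P.E discriminant) ≠ 0 := by
      intro h0
      exact E_discriminant_ne_zero P
        (HahnSeries.ofPowerSeries_injective (Γ := ℤ) (h0.trans (map_zero _).symm))
    exact mul_right_cancel₀ h3 (h1.trans h2.symm)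
  ord_u s := by rw [laurentVal_ord, hord]
  ord_smul s f := by
    rw [laurentVal_ord, laurentVal_ord,
      emb_smul P g (rescaleL ζ hζ0) (rescaleL_algebraMap ζ hζ0) c hc h, order_rescaleL]
  dvd_of_fixed s k f hf hk := by
    rw [laurentVal_ord]
    have h1 := emb_pow_smul P g (rescaleL ζ hζ0)
      (emb_smul P g (rescaleL ζ hζ0) (rescaleL_algebraMap ζ hζ0) c hc h) k s f
    rw [hk, rescaleL_pow_apply] at h1
    exact dvd_of_rescaleL_eq hζ hζ0 k (by simpa using hf) h1.symm

end Fermat.Agent.S24Aux
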