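/-
S24 helper library (M5): uniformisation data at the cusps.
-/
import Fermat.Agent.S24.ModLD
import Fermat.Agent.Lib.Dim_Final

set_option autoImplicit false

namespace Fermat.Agent.S24Aux

open UpperHalfPlane ModularForm CongruenceSubgroup ModularCurve
open scoped MatrixGroups Manifold Real
open Fermat.Agent.DimAux Fermat.Agent.S23Aux

local notation "𝕢" => Function.Periodic.qParam

/-- the order of a power series, seen as a Laurent series -/
theorem order_PS_eq {p : PowerSeries ℂ} {n : ℕ} (hn : p.coeff n ≠ 0)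
    (hlt : ∀ m < n, p.coeff m = 0) : (PS p).order = n := by
  have hc : (PS p).coeff (n : ℤ) = p.coeff n := HahnSeries.ofPowerSeries_apply_coeff p n
  have hne : PS p ≠ 0 := fun h => hn (by rw [← hc, h, HahnSeries.coeff_zero])
  apply le_antisymm
  · exact HahnSeries.order_le_of_coeff_ne_zero (by rw [hc]; exact hn)
  · by_contra hlt'
    push Not at hlt'
    have h1 : (PS p).coeff (PS p).order ≠ 0 := fun h => hne (HahnSeries.coeff_order_eq_zero.mp h)
    apply h1
    rcases lt_or_ge (PS p).order 0 with hneg | hpos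
    · exact ofPowerSeries_coeff_of_neg p hneg
    · obtain ⟨m, hm⟩ := Int.eq_ofNat_of_zero_le hpos
      rw [hm] at hlt' ⊢
      rw [HahnSeries.ofPowerSeries_apply_coeff]
      exact hlt m (by exact_mod_cast hlt')

variable (N : ℕ) [NeZero N]

theorem N_pos' : (0 : ℝ) < (N : ℝ) := by exact_mod_cast Nat.pos_of_ne_zero (NeZero.ne N)

theorem qParam_pow_N (τ : ℍ) : 𝕢 (N : ℝ) (τ : ℂ) ^ N = 𝕢 1 (τ : ℂ) := by
  have hN : (N : ℂ) ≠ 0 := by exact_mod_cast NeZero.ne N
  simp only [Function.Periodic.qParam, ← Complex.exp_nat_mul]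
  congr 1
  push_cast
  field_simp

/-- change of the period -/
theorem HasQExp.toN {G : ℍ → ℂ} {P : PowerSeries ℂ} (H : HasQExp 1 G P) :
    HasQExp (N : ℝ) G (twist P N 1) :=
  ⟨H.mdiff, fun τ => hasSum_twist (Nat.pos_of_ne_zero (NeZero.ne N)) (by
    rw [one_mul, qParam_pow_N]
    exact H.hasSum τ)⟩

/-- the expansion at `i∞` in the parameter `q^(1/N)` -/
noncomputable def infExpn : Expn N where
  H f := HasQExp (N : ℝ) f (qExpansion (N : ℝ) f)
  E f := qExpansion (N : ℝ) f
  H_add f g hf hg := by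
    have h := hf.add hg
    rwa [← h.qExpansion_eq (N_pos' N)] at h
  H_mul f g hf hg := by
    have h := hf.mul hg (N_pos' N)
    rwa [← h.qExpansion_eq (N_pos' N)] at h
  H_const c := HasQExp.of_periodic (N_pos' N) (fun _ => rfl) mdifferentiable_const
    (Filter.const_boundedAtFilter _ c)
  E_add f g hf hg := (hf.add hg).qExpansion_eq (N_pos' N)
  E_mul f g hf hg := (hf.mul hg (N_pos' N)).qExpansion_eq (N_pos' N)
  E_const c := by
    have h1 : HasQExp (N : ℝ) (1 : ℍ → ℂ) (qExpansion (N : ℝ) (1 : ℍ → ℂ)) :=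
      HasQExp.of_periodic (N_pos' N) (fun _ => rfl) mdifferentiable_const
        (Filter.const_boundedAtFilter _ 1)
    rw [qExpansion_one] at h1
    have h2 := (h1.smul c).qExpansion_eq (N_pos' N)
    have h3 : (c • (1 : ℍ → ℂ)) = fun _ => c := by ext; simp
    rw [h3] at h2
    rw [h2]
    ext n
    simp [PowerSeries.coeff_C, PowerSeries.coeff_one]
  E_inj f hf h0 := by
    ext τ
    have := hf.hasSum τ
    rw [h0] at this
    have h1 : HasSum (fun m : ℕ => (0 : PowerSeries ℂ).coeff m • 𝕢 (N : ℝ) (τ : ℂ) ^ m) 0 := by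
      simpa using (hasSum_zero : HasSum (fun _ : ℕ => (0 : ℂ)) 0)
    exact this.unique h1
  H_cj k G hG s := HasQExp.of_periodic (N_pos' N) (cj_periodic N (T_pow_smul_X N) hG.2.1 s)
    (cj_mdiff hG s) (cj_bdd hG s)

theorem infExpn_E (f : ℍ → ℂ) : (infExpn N).E f = qExpansion (N : ℝ) f := rfl

theorem infExpn_smul (k : ℕ) (G : ℍ → ℂ) (hG : G ∈ MFun (Gamma0 N) k) (s : XN N) :
    PS ((infExpn N).E (cj (Gamma0 N) k G (ModularGroup.T • s))) =
      (1 : LaurentSeries ℂ) ^ k * rescaleL (zetaN N)⁻¹ (inv_ne_zero (zetaN_ne_zero N))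
        (PS ((infExpn N).E (cj (Gamma0 N) k G s))) := by
  rw [one_pow, one_mul, rescaleL_ofPowerSeries, infExpn_E, infExpn_E]
  congr 1
  ext n
  rw [PowerSeries.coeff_rescale]
  have h := cf_T_inv N (T_pow_smul_X N) hG (ModularGroup.T • s) n
  rw [inv_smul_smul] at h
  unfold cf at h
  rw [h, ← mul_assoc, ← mul_pow, inv_mul_cancel₀ (zetaN_ne_zero N), one_pow, one_mul]

theorem order_infExpn_discriminant : (PS ((infExpn N).E discriminant)).order = N := by
  have h1 : HasQExp 1 (discriminant : ℍ → ℂ) (qExpansion 1 discriminant) :=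
    HasQExp.of_periodic one_pos (by exact_mod_cast RFun_periodic (SFun_le_MFun Delta_mem))
      Delta_mem.1 (bdd_of_mem (SFun_le_MFun Delta_mem))
  rw [infExpn_E, (HasQExp.toN N h1).qExpansion_eq (N_pos' N)]
  have hN : 0 < N := Nat.pos_of_ne_zero (NeZero.ne N)
  apply order_PS_eq
  · rw [coeff_twist, if_pos dvd_rfl, Nat.div_self hN, discriminant_qExpansion_coeff_one]
    simp
  · intro m hm
    rw [coeff_twist]
    split_ifs with hd
    · have hm0 : m = 0 := Nat.eq_zero_of_dvd_of_lt hd hm
      subst hm0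
      have : (qExpansion 1 discriminant).coeff 0 = 0 := by
        have := CuspFormClass.qExpansion_coeff_zero CuspForm.discriminant one_pos
          one_mem_strictPeriods_SL
        simpa using this
      simp [this]
    · rfl

theorem order_infExpn_E4 : (PS ((infExpn N).E E₄)).order = 0 := by
  have h1 : HasQExp 1 (E₄ : ℍ → ℂ) (qExpansion 1 E₄) := hasQExp_levelOne E₄
  rw [infExpn_E, (HasQExp.toN N h1).qExpansion_eq (N_pos' N)]
  have := order_PS_eq (p := twist (qExpansion 1 E₄) N 1) (n := 0) (by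
    rw [coeff_twist, if_pos (dvd_zero N)]
    have h0 : (qExpansion 1 E₄).coeff 0 = 1 := by
      have := tendsto_nhds_unique tendsto_E4 (tendsto_vInf E4_mem)
      exact this.symm
    simp [h0]) (by intro m hm; omega)
  simpa using this

theorem order_emb_inf (s : XN N) :
    (emb (infExpn N) s (locParam (xj N) (none : Option Kb))).order = N := by
  have h := emb_xj (infExpn N) s
  have hD : PS ((infExpn N).E discriminant) ≠ 0 := by
    intro h0
    have := order_infExpn_discriminant N
    rw [h0, HahnSeries.order_zero] at this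
    exact NeZero.ne N (by exact_mod_cast this.symm)
  have hE : PS ((infExpn N).E E₄) ≠ 0 := by
    intro h0
    have h1 : HasQExp 1 (E₄ : ℍ → ℂ) (qExpansion 1 E₄) := hasQExp_levelOne E₄
    have h2 : (infExpn N).E E₄ = 0 := HahnSeries.ofPowerSeries_injective (Γ := ℤ)
      (h0.trans (map_zero _).symm)
    have h3 := (infExpn N).E_inj E₄ (by
      have := HasQExp.toN N h1
      show HasQExp (N : ℝ) E₄ (qExpansion (N : ℝ) E₄)
      rwa [← this.qExpansion_eq (N_pos' N)] at this) h2
    have h4 := tendsto_E4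
    rw [h3] at h4
    exact zero_ne_one (tendsto_nhds_unique
      (tendsto_const_nhds : Filter.Tendsto (fun _ : ℍ => (0 : ℂ)) atImInfty (nhds 0)) h4)
  have hx : emb (infExpn N) s (xj N) ≠ 0 := by
    intro h0
    rw [h0, zero_mul] at h
    exact pow_ne_zero 3 hE h.symm
  have h1 := congrArg HahnSeries.order h
  rw [HahnSeries.order_mul hx hD, HahnSeries.order_pow, order_infExpn_discriminant,
    order_infExpn_E4] at h1
  rw [locParam_none, map_inv₀]
  have h2 := (laurentVal ℂ).map_inv hx
  rw [laurentVal_ord, laurentVal_ord] at h2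
  rw [h2]
  simp at h1
  omega

theorem localData_inf :
    Nonempty (LocalData (laurentVal ℂ) (xj N) (none : Option Kb) (XN N) ModularGroup.T N) :=
  ⟨localDataOfExpn (infExpn N) none ModularGroup.T N (zetaN N)⁻¹ (zetaN_prim N).inv
    (inv_ne_zero (zetaN_ne_zero N)) 1 one_ne_zero (infExpn_smul N) (order_emb_inf N)⟩

end Fermat.Agent.S24Aux
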