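import Fermat.Agent.S24.AnTaylor
import Fermat.Agent.Lib.Dim_Level1

/-!
# S24 (TJ): the `j`-function on `ℍ`: surjectivity and ramification
-/

set_option autoImplicit false

namespace Fermat.Agent.S24Aux

open UpperHalfPlane ModularForm Filter Topology EisensteinSeries Derivative
open Fermat.Agent.DimAux
open scoped Manifold MatrixGroups Real

noncomputable section

/-- Cauchy estimate at `i∞`. -/
lemma tendsto_D_zero {F : ℍ → ℂ} (hF : MDiff F) {c : ℂ} (hc : Tendsto F atImInfty (𝓝 c)) :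
    Tendsto (D F) atImInfty (𝓝 0) := by
  rw [Metric.tendsto_nhds]
  intro ε hε
  have h1 := (Metric.tendsto_nhds.1 hc) ε hε
  rw [atImInfty_basis.eventually_iff] at h1 ⊢
  obtain ⟨A, -, hA⟩ := h1
  refine ⟨max A 0 + 2, trivial, fun z hz => ?_⟩
  have hz' : max A 0 + 2 ≤ z.im := hz
  have hsub : Metric.closedBall (z : ℂ) 1 ⊆ upperHalfPlaneSet := by
    intro w hw
    have h2 : |(w - z).im| ≤ 1 := (Complex.abs_im_le_norm _).trans (by simpa [dist_eq_norm] using hw)
    have h3 := abs_le.1 h2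
    simp only [Complex.sub_im, coe_im] at h3
    have : 0 ≤ max A 0 := le_max_right _ _
    show 0 < w.im
    linarith [h3.1]
  rw [UpperHalfPlane.mdifferentiable_iff] at hF
  have hd : DiffContOnCl ℂ (fun w => (F ∘ ofComplex) w - c) (Metric.ball (z : ℂ) 1) :=
    (hF.sub_const c).diffContOnCl_ball hsub
  have hb : ∀ w ∈ Metric.sphere (z : ℂ) 1, ‖(F ∘ ofComplex) w - c‖ ≤ ε := by
    intro w hw
    have hw' : w ∈ Metric.closedBall (z : ℂ) 1 := Metric.sphere_subset_closedBall hw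
    have him : 0 < w.im := hsub hw'
    have h2 : |(w - z).im| ≤ 1 := (Complex.abs_im_le_norm _).trans (by simpa [dist_eq_norm] using hw')
    have h3 := abs_le.1 h2
    simp only [Complex.sub_im, coe_im] at h3
    have hA' : A ≤ (ofComplex w).im := by
      rw [ofComplex_apply_of_im_pos him]
      show A ≤ w.im
      have : A ≤ max A 0 := le_max_left _ _
      linarith [h3.1]
    have := @hA (ofComplex w) hA'
    rw [dist_eq_norm] at this
    exact this.le
  have h4 := Complex.norm_deriv_le_of_forall_mem_sphere_norm_le one_pos hd hb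
  rw [deriv_sub_const, div_one] at h4
  rw [dist_zero_right, normalizedDerivOfComplex, norm_mul]
  have h5 : ‖(2 * (π : ℂ) * Complex.I)⁻¹‖ < 1 := by
    rw [norm_inv, norm_mul, norm_mul, Complex.norm_I, mul_one]
    simp only [Complex.norm_ofNat, Complex.norm_real, Real.norm_eq_abs, abs_of_pos Real.pi_pos]
    apply inv_lt_one_of_one_lt₀
    nlinarith [Real.pi_gt_three]
  calc _ ≤ ‖(2 * (π : ℂ) * Complex.I)⁻¹‖ * ε := by gcongr
    _ < 1 * ε := by gcongr
    _ = ε := one_mul _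

lemma E2_periodic : Function.Periodic (E2 ∘ ofComplex) (1 : ℝ) := by
  apply periodic_of_vadd
  intro z
  have h1 := slash_apply' (k := 2) E2 ModularGroup.T z
  rw [E2_slash_action, D2_T, smul_zero, sub_zero, modular_T_smul] at h1
  have h2 := denom_T_zpow 1 z
  rw [zpow_one] at h2
  rw [h1, h2]; simp

lemma tendsto_E2 : Tendsto E2 atImInfty (𝓝 1) := by
  have h1 := tendsto_coeff_zero one_pos E2_periodic E2_mdifferentiable isBoundedAtImInfty_E2
  have h2 := hasFPowerSeriesOnBall_cuspFunction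
    (c := fun m : ℕ => (if m = 0 then 1 else -24 * ArithmeticFunction.sigma 1 m : ℂ))
    (f := E2) one_pos
    (analyticAt_cuspFunction_zero one_pos E2_periodic E2_mdifferentiable isBoundedAtImInfty_E2)
    (fun τ ↦ by
      simpa only [Function.Periodic.qParam, Complex.ofReal_one, div_one] using
        hasSum_qExpansion_E2 (z := τ))
  have h3 := h2.hasFPowerSeriesAt.coeff_zero (fun _ => 0)
  have h0 : (qExpansion 1 E2).coeff 0 = cuspFunction 1 E2 0 := by
    simp [qExpansion_coeff]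
  rw [h0, ← h3] at h1
  simpa using h1

lemma serre_mem {k : ℤ} {F : ℍ → ℂ} (hF : F ∈ RFun k) : serreDerivative k F ∈ RFun (k + 2) := by
  have hinv : ∀ γ : SL(2, ℤ), serreDerivative k F ∣[k + 2] γ = serreDerivative k F := fun γ =>
    serreDerivative_slash_invariant hF.1 (hF.2.1 γ (Subgroup.mem_top _))
  refine ⟨serreDerivative_mdifferentiable k hF.1, fun γ _ => hinv γ, fun γ => ?_⟩
  rw [hinv γ]
  have h1 : Tendsto (serreDerivative k F) atImInfty (𝓝 (0 - k * 12⁻¹ * 1 * vInf F)) :=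
    (tendsto_D_zero hF.1 (tendsto_vInf hF)).sub
      ((tendsto_E2.const_mul ((k : ℂ) * 12⁻¹)).mul (tendsto_vInf hF))
  exact h1.isBigO_one ℝ

lemma tendsto_serre {k : ℤ} {F : ℍ → ℂ} (hF : F ∈ RFun k) {c : ℂ}
    (hc : Tendsto F atImInfty (𝓝 c)) :
    Tendsto (serreDerivative k F) atImInfty (𝓝 (-(k * 12⁻¹ * c))) := by
  have h1 : Tendsto (serreDerivative k F) atImInfty (𝓝 (0 - k * 12⁻¹ * 1 * c)) :=
    (tendsto_D_zero hF.1 hc).sub ((tendsto_E2.const_mul ((k : ℂ) * 12⁻¹)).mul hc)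
  simpa using h1

/-- In weight `< 12` a level one form is determined by its value at `i∞`. -/
lemma eq_smul_of_lt_twelve {w : ℤ} (hw : w < 12) {f u : ℍ → ℂ} (hf : f ∈ RFun w)
    (hu : u ∈ RFun w) {c : ℂ} (hfc : Tendsto f atImInfty (𝓝 c))
    (hu1 : Tendsto u atImInfty (𝓝 1)) : f = c • u := by
  have hg : f - c • u ∈ RFun w := Submodule.sub_mem _ hf (Submodule.smul_mem _ c hu)
  have hg0 : Tendsto (f - c • u) atImInfty (𝓝 0) := by
    have := hfc.sub (hu1.const_mul c)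
    rw [mul_one, sub_self] at this
    exact this
  have hS : f - c • u ∈ SFun ⊤ w := ⟨hg.1, hg.2.1, fun γ => by
    rw [hg.2.1 γ (Subgroup.mem_top _)]; exact hg0⟩
  have h1 := levelOne_div_Delta hS
  rw [RFun_eq_bot_of_neg (by omega), Submodule.mem_bot] at h1
  have h2 := mul_div_Delta (f - c • u)
  rw [h1, mul_zero] at h2
  exact sub_eq_zero.1 h2.symm

lemma serre_E4 : serreDerivative ((4 : ℤ) : ℂ) (E₄ : ℍ → ℂ) = (-(1 / 3) : ℂ) • (E₆ : ℍ → ℂ) := by
  have h := eq_smul_of_lt_twelve (w := 4 + 2) (by norm_num) (serre_mem E4_mem) E6_mem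
    (tendsto_serre E4_mem tendsto_E4) tendsto_E6
  rw [h]
  congr 1
  push_cast
  norm_num

lemma serre_E6 : serreDerivative ((6 : ℤ) : ℂ) (E₆ : ℍ → ℂ) = (-(1 / 2) : ℂ) • (E₄ : ℍ → ℂ) ^ 2 := by
  have h := eq_smul_of_lt_twelve (w := 6 + 2) (by norm_num) (serre_mem E6_mem)
    (MFun_cast (by norm_num) (pow_mem_MFun E4_mem 2))
    (tendsto_serre E6_mem tendsto_E6) (by
      have := tendsto_E4.pow 2
      rw [one_pow] at this
      exact this)
  rw [h]
  congr 1
  push_cast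
  norm_num

lemma D_E4 (z : ℍ) : D (E₄ : ℍ → ℂ) z = (E2 z * E₄ z - E₆ z) / 3 := by
  have := congrFun serre_E4 z
  simp only [serreDerivative_apply, Pi.smul_apply, smul_eq_mul] at this
  push_cast at this
  linear_combination this

lemma D_E6 (z : ℍ) : D (E₆ : ℍ → ℂ) z = (E2 z * E₆ z - E₄ z ^ 2) / 2 := by
  have := congrFun serre_E6 z
  simp only [serreDerivative_apply, Pi.smul_apply, smul_eq_mul, Pi.pow_apply] at this
  push_cast at this
  linear_combination this

lemma mdiff_E4 : MDiff (E₄ : ℍ → ℂ) := E4_mem.1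
lemma mdiff_E6 : MDiff (E₆ : ℍ → ℂ) := E6_mem.1
lemma mdiff_Delta : MDiff (discriminant : ℍ → ℂ) := Delta_mem.1

lemma D_Delta (z : ℍ) : D (discriminant : ℍ → ℂ) z = E2 z * discriminant z := by
  rw [Delta_eq, normalizedDerivOfComplex_smul _ _ ((mdiff_E4.pow 3).sub (mdiff_E6.pow 2)),
    normalizedDerivOfComplex_sub _ _ (mdiff_E4.pow 3) (mdiff_E6.pow 2),
    normalizedDerivOfComplex_pow _ _ mdiff_E4, normalizedDerivOfComplex_pow _ _ mdiff_E6]
  simp only [Pi.smul_apply, Pi.sub_apply, Pi.mul_apply, Pi.pow_apply, smul_eq_mul, D_E4, D_E6]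
  simp
  ring

/-! ### the `j`-function -/

/-- Klein's `j`-function `E₄³/Δ` on the upper half plane. -/
def jFun : ℍ → ℂ := (E₄ : ℍ → ℂ) ^ 3 / discriminant

lemma jFun_apply (z : ℍ) : jFun z = E₄ z ^ 3 / discriminant z := rfl

lemma mdiff_jFun : MDiff jFun := (mdiff_E4.pow 3).div mdiff_Delta discriminant_ne_zero

lemma jFun_mul_Delta : jFun * discriminant = (E₄ : ℍ → ℂ) ^ 3 := by
  ext z
  simp only [Pi.mul_apply, jFun_apply, Pi.pow_apply]
  field_simp [discriminant_ne_zero z]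

lemma jFun_sub_mul_Delta : (jFun - fun _ => (1728 : ℂ)) * discriminant = (E₆ : ℍ → ℂ) ^ 2 := by
  ext z
  have h := discriminant_eq_E₄_cube_sub_E₆_sq z
  have h0 := discriminant_ne_zero z
  simp only [Pi.mul_apply, Pi.sub_apply, jFun_apply, Pi.pow_apply]
  field_simp
  linear_combination (-1728 : ℂ) * h

lemma jFun_eq_zero_iff (z : ℍ) : jFun z = 0 ↔ E₄ z = 0 := by
  rw [jFun_apply, div_eq_zero_iff]
  simp [discriminant_ne_zero z]

lemma jFun_eq_1728_iff (z : ℍ) : jFun z = 1728 ↔ E₆ z = 0 := by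
  have h := congrFun jFun_sub_mul_Delta z
  simp only [Pi.mul_apply, Pi.sub_apply, Pi.pow_apply] at h
  constructor
  · intro h1
    rw [h1, sub_self, zero_mul] at h
    exact pow_eq_zero_iff (two_ne_zero) |>.1 h.symm
  · intro h1
    rw [h1] at h
    have := (mul_eq_zero.1 (h.trans (by simp))).resolve_right (discriminant_ne_zero z)
    exact sub_eq_zero.1 this

lemma jFun_smul (γ : SL(2, ℤ)) (z : ℍ) : jFun (γ • z) = jFun z := by
  have h4 := slash_apply' (k := 4) (E₄ : ℍ → ℂ) γ z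
  have h12 := slash_apply' (k := 12) (discriminant : ℍ → ℂ) γ z
  rw [E4_mem.2.1 γ (Subgroup.mem_top _)] at h4
  rw [Delta_mem.2.1 γ (Subgroup.mem_top _)] at h12
  have hd := denom_ne_zero γ z
  rw [jFun_apply, jFun_apply, h4, h12, mul_pow, ← zpow_natCast, ← zpow_mul]
  norm_num
  rw [mul_div_mul_left _ _ (pow_ne_zero _ hd)]

lemma D_jFun (z : ℍ) : D jFun z * discriminant z = -(E₄ z ^ 2 * E₆ z) := by
  have h := congrFun (congrArg (fun F => D F) jFun_mul_Delta) z
  rw [normalizedDerivOfComplex_mul _ _ mdiff_jFun mdiff_Delta,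
    normalizedDerivOfComplex_pow _ _ mdiff_E4] at h
  simp only [Pi.add_apply, Pi.mul_apply, Pi.pow_apply, D_E4, D_Delta] at h
  have h2 := congrFun jFun_mul_Delta z
  simp only [Pi.mul_apply, Pi.pow_apply] at h2
  simp at h
  linear_combination h - E2 z * h2

lemma deriv_eq_of_D (F : ℍ → ℂ) (z : ℍ) :
    deriv (F ∘ ofComplex) z = 2 * π * Complex.I * D F z := by
  rw [normalizedDerivOfComplex]
  have : (2 * (π : ℂ) * Complex.I) ≠ 0 := by
    simp [Real.pi_ne_zero]
  field_simp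

lemma deriv_ne_zero_iff_D (F : ℍ → ℂ) (z : ℍ) : deriv (F ∘ ofComplex) z ≠ 0 ↔ D F z ≠ 0 := by
  rw [deriv_eq_of_D]
  have : (2 * (π : ℂ) * Complex.I) ≠ 0 := by
    simp [Real.pi_ne_zero]
  simp [this]

/-! ### ramification of `j` -/

lemma order_tay_Delta (z0 : ℍ) : (tay z0 discriminant).order = 0 :=
  (order_tay_eq_zero_iff z0 _).2 (discriminant_ne_zero z0)

lemma E4_ne_zero_of_E6 {z : ℍ} (h : E₆ z = 0) : E₄ z ≠ 0 := by
  intro h4
  have := discriminant_eq_E₄_cube_sub_E₆_sq z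
  rw [h, h4] at this
  exact discriminant_ne_zero z (by simpa using this)

lemma E6_ne_zero_of_E4 {z : ℍ} (h : E₄ z = 0) : E₆ z ≠ 0 := fun h6 => E4_ne_zero_of_E6 h6 h

lemma order_tay_E6 {z0 : ℍ} (h : E₆ z0 = 0) : (tay z0 (E₆ : ℍ → ℂ)).order = 1 := by
  rw [order_tay_eq_one_iff z0 mdiff_E6, deriv_ne_zero_iff_D, D_E6, h]
  refine ⟨rfl, ?_⟩
  have := E4_ne_zero_of_E6 h
  simp [this]

lemma order_tay_E4 {z0 : ℍ} (h : E₄ z0 = 0) : (tay z0 (E₄ : ℍ → ℂ)).order = 1 := by
  rw [order_tay_eq_one_iff z0 mdiff_E4, deriv_ne_zero_iff_D, D_E4, h]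
  refine ⟨rfl, ?_⟩
  have := E6_ne_zero_of_E4 h
  simp [this]

lemma tay_jFun_sub (z0 : ℍ) (c : ℂ) :
    tay z0 (fun z => jFun z - c) = tay z0 jFun - PowerSeries.C c := by
  rw [← tay_const z0 c, ← tay_sub z0 mdiff_jFun mdifferentiable_const]
  rfl

/-- `j` is unramified away from `0` and `1728`. -/
theorem order_tay_jFun_generic (z0 : ℍ) (h0 : jFun z0 ≠ 0) (h1 : jFun z0 ≠ 1728) :
    (tay z0 (fun z => jFun z - jFun z0)).order = 1 := by
  have hmd : MDiff (fun z => jFun z - jFun z0) := mdiff_jFun.sub mdifferentiable_const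
  rw [order_tay_eq_one_iff z0 hmd, deriv_ne_zero_iff_D]
  refine ⟨sub_self _, ?_⟩
  have e : (fun z => jFun z - jFun z0) = jFun - fun _ => jFun z0 := rfl
  rw [e, normalizedDerivOfComplex_sub _ _ mdiff_jFun mdifferentiable_const,
    normalizedDerivOfComplex_const, sub_zero]
  intro hD
  have h := D_jFun z0
  rw [hD, zero_mul] at h
  rw [Ne, jFun_eq_zero_iff] at h0
  rw [Ne, jFun_eq_1728_iff] at h1
  have : E₄ z0 ^ 2 * E₆ z0 ≠ 0 := mul_ne_zero (pow_ne_zero _ h0) h1
  exact this (neg_eq_zero.1 h.symm)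

/-- `j - 1728` vanishes to order exactly `2` wherever it vanishes. -/
theorem order_tay_jFun_of_eq_1728 (z0 : ℍ) (h1 : jFun z0 = 1728) :
    (tay z0 (fun z => jFun z - jFun z0)).order = 2 := by
  have hmd : MDiff (jFun - (fun _ => (1728 : ℂ) : ℍ → ℂ)) := mdiff_jFun.sub mdifferentiable_const
  have h := congrArg (fun F => (tay z0 F).order) jFun_sub_mul_Delta
  rw [tay_mul z0 hmd mdiff_Delta, PowerSeries.order_mul, order_tay_Delta, add_zero, pow_two,
    tay_mul z0 mdiff_E6 mdiff_E6, PowerSeries.order_mul,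
    order_tay_E6 ((jFun_eq_1728_iff z0).1 h1)] at h
  rw [h1]
  exact h

/-- `j` vanishes to order exactly `3` wherever it vanishes. -/
theorem order_tay_jFun_of_eq_zero (z0 : ℍ) (h0 : jFun z0 = 0) :
    (tay z0 (fun z => jFun z - jFun z0)).order = 3 := by
  have h := congrArg (fun F => (tay z0 F).order) jFun_mul_Delta
  have h4 := order_tay_E4 ((jFun_eq_zero_iff z0).1 h0)
  rw [tay_mul z0 mdiff_jFun mdiff_Delta, PowerSeries.order_mul, order_tay_Delta, add_zero,
    pow_succ, pow_two, tay_mul z0 (mdiff_E4.mul mdiff_E4) mdiff_E4, tay_mul z0 mdiff_E4 mdiff_E4,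
    PowerSeries.order_mul, PowerSeries.order_mul, h4] at h
  rw [h0]
  simp only [sub_zero]
  rw [show (fun z => jFun z) = jFun from rfl, h]
  norm_num

lemma E6_I : E₆ UpperHalfPlane.I = 0 := by
  have h := slash_apply' (k := 6) (E₆ : ℍ → ℂ) ModularGroup.S UpperHalfPlane.I
  rw [E6_mem.2.1 _ (Subgroup.mem_top _), S_smul_I, ModularGroup.denom_S] at h
  have h6 : ((UpperHalfPlane.I : ℍ) : ℂ) ^ (6 : ℤ) = -1 := by
    have : ((UpperHalfPlane.I : ℍ) : ℂ) = Complex.I := rfl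
    rw [this]
    have h2 : Complex.I ^ (6 : ℤ) = (Complex.I ^ 2) ^ 3 := by
      rw [← pow_mul]; norm_cast
    rw [h2, Complex.I_sq]; norm_num
  rw [h6] at h
  have : (2 : ℂ) * E₆ UpperHalfPlane.I = 0 := by linear_combination h
  simpa using this

lemma E4_rho : E₄ ρ = 0 := by
  have h := slash_apply' (k := 4) (E₄ : ℍ → ℂ) (ModularGroup.S * ModularGroup.T) ρ
  have hden : denom (ModularGroup.S * ModularGroup.T : SL(2, ℤ)) (ρ : ℍ) = (ρ : ℂ) + 1 := by
    rw [ModularGroup.denom_apply, Matrix.SpecialLinearGroup.coe_mul, ModularGroup.coe_S,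
      ModularGroup.coe_T]
    simp [Matrix.mul_apply, Fin.sum_univ_two]
  rw [E4_mem.2.1 _ (Subgroup.mem_top _), ST_smul_rho, hden] at h
  have hsq := ρ_sq
  have h4 : ((ρ : ℂ) + 1) ^ (4 : ℤ) = (ρ : ℂ) ^ 2 := by
    have : ((ρ : ℂ) + 1) ^ (4 : ℤ) = ((ρ : ℂ) + 1) ^ 4 := by norm_cast
    rw [this]
    linear_combination ((ρ : ℂ) ^ 2 + 3 * ρ + 1) * hsq
  rw [h4] at h
  have hne : (1 - (ρ : ℂ) ^ 2) ≠ 0 := by
    rw [hsq]
    intro h0
    have := congrArg Complex.im h0
    simp at this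
    exact ρ.im_ne_zero this
  have : (1 - (ρ : ℂ) ^ 2) * E₄ ρ = 0 := by linear_combination h
  exact (mul_eq_zero.1 this).resolve_left hne

lemma jFun_I : jFun UpperHalfPlane.I = 1728 := (jFun_eq_1728_iff _).2 E6_I

lemma jFun_rho : jFun ρ = 0 := (jFun_eq_zero_iff _).2 E4_rho

theorem order_tay_jFun_I :
    (tay UpperHalfPlane.I (fun z => jFun z - jFun UpperHalfPlane.I)).order = 2 :=
  order_tay_jFun_of_eq_1728 _ jFun_I

theorem order_tay_jFun_rho : (tay ρ (fun z => jFun z - jFun ρ)).order = 3 :=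
  order_tay_jFun_of_eq_zero _ jFun_rho

/-! ### surjectivity of `j` -/

theorem jFun_surjective : Function.Surjective jFun := by
  intro c
  by_contra hcon
  push Not at hcon
  -- `g = E₄³ - cΔ` has no zeros
  set g : ℍ → ℂ := (E₄ : ℍ → ℂ) ^ 3 - c • (discriminant : ℍ → ℂ) with hg
  have hgmem : g ∈ RFun 12 :=
    Submodule.sub_mem _ (MFun_cast (by norm_num) (pow_mem_MFun E4_mem 3))
      (Submodule.smul_mem _ c (SFun_le_MFun Delta_mem))
  have hg0 : ∀ z, g z ≠ 0 := by
    intro z hz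
    apply hcon z
    have h0 := discriminant_ne_zero z
    simp only [hg, Pi.sub_apply, Pi.pow_apply, Pi.smul_apply, smul_eq_mul] at hz
    rw [jFun_apply, div_eq_iff h0]
    linear_combination hz
  have hΔ0 : Tendsto (discriminant : ℍ → ℂ) atImInfty (𝓝 0) := zeroAt_of_mem Delta_mem
  have hg1 : Tendsto g atImInfty (𝓝 1) := by
    have := (tendsto_E4.pow 3).sub (hΔ0.const_mul c)
    rw [one_pow, mul_zero, sub_zero] at this
    exact this
  set h : ℍ → ℂ := (discriminant : ℍ → ℂ) / g with hh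
  have hmul : h * g = discriminant := by
    ext z
    simp only [hh, Pi.mul_apply, Pi.div_apply]
    field_simp [hg0 z]
  have hinv : ∀ γ : SL(2, ℤ), h ∣[(0 : ℤ)] γ = h := by
    intro γ
    have h1 : (h * g) ∣[(0 + 12 : ℤ)] γ = (h ∣[(0 : ℤ)] γ) * (g ∣[(12 : ℤ)] γ) :=
      mul_slash_SL2 0 12 γ h g
    rw [hmul, hgmem.2.1 γ (Subgroup.mem_top _), zero_add, Delta_mem.2.1 γ (Subgroup.mem_top _)] at h1
    ext z
    have h2 := congrFun h1 z
    simp only [Pi.mul_apply] at h2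
    simp only [hh, Pi.div_apply]
    rw [eq_div_iff (hg0 z), ← h2]
  have hlim : Tendsto h atImInfty (𝓝 0) := by
    have := hΔ0.div hg1 one_ne_zero
    rw [zero_div] at this
    exact this
  have hmem : h ∈ RFun 0 := ⟨mdiff_Delta.div hgmem.1 hg0, fun γ _ => hinv γ, fun γ => by
    rw [hinv γ]; exact hlim.isBigO_one ℝ⟩
  obtain ⟨a, ha⟩ := RFun_zero_const hmem
  rw [ha] at hlim
  have ha0 : a = 0 := tendsto_nhds_unique tendsto_const_nhds hlim
  have := congrFun hmul UpperHalfPlane.I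
  rw [ha, ha0] at this
  simp only [Pi.mul_apply, zero_mul] at this
  exact discriminant_ne_zero _ this.symm

end

end Fermat.Agent.S24Aux
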