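/-
S24 helper library (M4): uniformisation data at the points of the upper half plane.
-/
import Fermat.Agent.S24.ModLD
import Fermat.Agent.S24.JFun

set_option autoImplicit false
set_option linter.unusedSectionVars false

namespace Fermat.Agent.S24Aux

open UpperHalfPlane ModularForm CongruenceSubgroup ModularCurve
open scoped MatrixGroups Manifold
open Fermat.Agent.DimAux Fermat.Agent.S23Aux

namespace ModPt

theorem coeff_PS_of_neg (p : PowerSeries ℂ) {n : ℤ} (hn : n < 0) : (PS p).coeff n = 0 := by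
  show (HahnSeries.ofPowerSeries ℤ ℂ p).coeff n = 0
  rw [HahnSeries.ofPowerSeries_apply]
  refine HahnSeries.embDomain_of_notMem_range ?_
  rintro ⟨m, rfl⟩
  exact absurd hn (not_lt.mpr (Int.natCast_nonneg m))

theorem order_PS {p : PowerSeries ℂ} {n : ℕ} (h : p.order = n) : (PS p).order = n := by
  obtain ⟨h1, h2⟩ := PowerSeries.order_eq_nat.1 h
  have hne : (PS p).coeff n ≠ 0 := by
    rw [HahnSeries.ofPowerSeries_apply_coeff]; exact h1
  have hne0 : PS p ≠ 0 := by
    intro h0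
    rw [h0] at hne
    simp at hne
  apply le_antisymm (HahnSeries.order_le_of_coeff_ne_zero hne)
  by_contra hlt
  rw [not_le] at hlt
  have hc : (PS p).coeff (PS p).order ≠ 0 := fun h => hne0 (HahnSeries.coeff_order_eq_zero.mp h)
  rcases lt_or_ge (PS p).order 0 with hneg | hpos
  · exact hc (coeff_PS_of_neg p hneg)
  · obtain ⟨m, hm⟩ := Int.eq_ofNat_of_zero_le hpos
    rw [hm] at hc hlt
    rw [HahnSeries.ofPowerSeries_apply_coeff] at hc
    exact hc (h2 m (by exact_mod_cast hlt))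

theorem PS_ne_zero {p : PowerSeries ℂ} (h : p ≠ 0) : PS p ≠ 0 := fun h0 =>
  h (HahnSeries.ofPowerSeries_injective (Γ := ℤ) (h0.trans (map_zero _).symm))

theorem rescaleL_one (h : (1 : ℂ) ≠ 0) (f : LaurentSeries ℂ) : rescaleL (1 : ℂ) h f = f := by
  ext n
  simp

variable (N : ℕ) [NeZero N]

/-- Taylor expansion at `z0` in the Cayley coordinate, as an `Expn`. -/
noncomputable def tayExpn (z0 : ℍ) : Expn N where
  H f := MDiff f
  E := tay z0
  H_add _ _ hf hg := hf.add hg
  H_mul _ _ hf hg := hf.mul hg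
  H_const _ := mdifferentiable_const
  E_add _ _ hf hg := tay_add z0 hf hg
  E_mul _ _ hf hg := tay_mul z0 hf hg
  E_const c := tay_const z0 c
  E_inj _ hf h := (tay_eq_zero_iff z0 hf).1 h
  H_cj _ _ hG s := cj_mdiff hG s

@[simp] theorem tayExpn_E (z0 : ℍ) : (tayExpn N z0).E = tay z0 := rfl

theorem stabMult_ne_zero (z0 : ℍ) (γ : SL(2, ℤ)) : stabMult z0 γ ≠ 0 := by
  intro h
  have := norm_stabMult z0 γ
  rw [h] at this
  simp at this

/-- the automorphy factor as a function on `ℍ` -/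
noncomputable def denFun (γ : SL(2, ℤ)) : ℍ → ℂ := fun z => denom γ z

theorem mdiff_denFun (γ : SL(2, ℤ)) : MDiff (denFun γ) := mdifferentiable_denom _

theorem tay_denFun_ne_zero (z0 : ℍ) (γ : SL(2, ℤ)) : tay z0 (denFun γ) ≠ 0 := by
  intro h
  have := congrFun ((tay_eq_zero_iff z0 (mdiff_denFun γ)).1 h) z0
  exact denom_ne_zero γ z0 this

theorem tay_pow (z0 : ℍ) {f : ℍ → ℂ} (hf : MDiff f) (k : ℕ) : tay z0 (f ^ k) = tay z0 f ^ k := by
  induction k with
  | zero =>
    rw [pow_zero, pow_zero]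
    exact (tay_const z0 1).trans (map_one _)
  | succ k ih => rw [pow_succ, pow_succ, tay_mul z0 (hf.pow k) hf, ih]

variable {N}

theorem tay_cj_smul (z0 : ℍ) (g : SL(2, ℤ)) (hg : g⁻¹ • z0 = z0) (k : ℕ) (G : ℍ → ℂ)
    (hG : G ∈ MFun (Gamma0 N) k) (s : XN N) :
    PS (tay z0 (cj (Gamma0 N) k G (g • s))) =
      ((PS (tay z0 (denFun g⁻¹)))⁻¹) ^ k *
        rescaleL (stabMult z0 g⁻¹) (stabMult_ne_zero z0 g⁻¹) (PS (tay z0 (cj (Gamma0 N) k G s))) := by
  have h1 : (fun z => cj (Gamma0 N) k G s (g⁻¹ • z)) =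
      denFun g⁻¹ ^ k * cj (Gamma0 N) k G (g • s) := by
    funext z
    have := cj_smul_apply hG.2.1 s g⁻¹ z
    rw [inv_inv, zpow_natCast] at this
    exact this
  have h2 := tay_comp_smul z0 g⁻¹ hg (cj (Gamma0 N) k G s)
  rw [h1, tay_mul z0 ((mdiff_denFun g⁻¹).pow k) (cj_mdiff hG _), tay_pow z0 (mdiff_denFun g⁻¹)] at h2
  rw [rescaleL_ofPowerSeries, ← h2, map_mul, map_pow, inv_pow, ← mul_assoc,
    inv_mul_cancel₀ (pow_ne_zero _ (PS_ne_zero (tay_denFun_ne_zero z0 g⁻¹))), one_mul]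

theorem emb_tayExpn_xj (z0 : ℍ) (s : XN N) : emb (tayExpn N z0) s (xj N) = PS (tay z0 jFun) := by
  have h1 := emb_xj (tayExpn N z0) s
  rw [tayExpn_E] at h1
  have h2 : PS (tay z0 (jFun * discriminant)) = PS (tay z0 ((E₄ : ℍ → ℂ) ^ 3)) := by
    rw [jFun_mul_Delta]
  rw [tay_mul z0 mdiff_jFun mdiff_Delta, tay_pow z0 mdiff_E4, PS_mul, PS_pow] at h2
  have h3 : PS (tay z0 discriminant) ≠ 0 := PS_ne_zero (by
    intro h
    exact discriminant_ne_zero z0 (congrFun ((tay_eq_zero_iff z0 mdiff_Delta).1 h) z0))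
  exact mul_right_cancel₀ h3 (h1.trans h2.symm)

theorem order_emb_locParam (z0 : ℍ) (a : Kb) (ha : jFun z0 = algebraMap Kb ℂ a) (e0 : ℕ)
    (hord : (tay z0 (fun z => jFun z - jFun z0)).order = e0) (s : XN N) :
    (emb (tayExpn N z0) s (locParam (xj N) (some a))).order = e0 := by
  rw [locParam_some, map_sub, AlgHom.commutes, emb_tayExpn_xj, algebraMap_laurent_eq_single, ← ha]
  rw [tay_jFun_sub] at hord
  have := order_PS hord
  have e : PS (tay z0 jFun - PowerSeries.C (jFun z0)) =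
      PS (tay z0 jFun) - HahnSeries.single 0 (jFun z0) := by
    show HahnSeries.ofPowerSeries ℤ ℂ _ = _
    rw [map_sub, HahnSeries.ofPowerSeries_C]
    rfl
  rw [e] at this
  exact this

/-- `LocalData` at a point `z0` of `ℍ`. -/
theorem localData_of_point (z0 : ℍ) (a : Kb) (ha : jFun z0 = algebraMap Kb ℂ a) (g : SL(2, ℤ))
    (hg : g⁻¹ • z0 = z0) (e0 : ℕ) (hζ : IsPrimitiveRoot (stabMult z0 g⁻¹) e0)
    (hord : (tay z0 (fun z => jFun z - jFun z0)).order = e0) :
    Nonempty (LocalData (laurentVal ℂ) (xj N) (some a) (XN N) g e0) :=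
  ⟨localDataOfExpn (tayExpn N z0) (some a) g e0 (stabMult z0 g⁻¹) hζ (stabMult_ne_zero z0 g⁻¹)
    ((PS (tay z0 (denFun g⁻¹)))⁻¹) (inv_ne_zero (PS_ne_zero (tay_denFun_ne_zero z0 g⁻¹)))
    (fun k G hG s => tay_cj_smul z0 g hg k G hG s)
    (fun s => order_emb_locParam z0 a ha e0 hord s)⟩

end ModPt

open ModPt

variable (N : ℕ) [NeZero N]

theorem localData_generic (a : Kb) (h0 : a ≠ 0) (h1 : a ≠ 1728) :
    Nonempty (LocalData (laurentVal ℂ) (xj N) (some a) (XN N) (1 : SL(2, ℤ)) 1) := by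
  obtain ⟨z0, hz0⟩ := jFun_surjective (algebraMap Kb ℂ a)
  have hinj : Function.Injective (algebraMap Kb ℂ) := (algebraMap Kb ℂ).injective
  refine localData_of_point z0 a hz0 1 (by simp) 1 ?_ ?_
  · have : stabMult z0 (1 : SL(2, ℤ))⁻¹ = 1 := by
      simp [stabMult]
    rw [this]
    exact IsPrimitiveRoot.one
  · rw [Nat.cast_one]
    apply order_tay_jFun_generic
    · rw [hz0]
      intro h
      exact h0 (hinj (h.trans (map_zero _).symm))
    · rw [hz0]
      intro h
      exact h1 (hinj (h.trans (map_ofNat _ 1728).symm))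

theorem localData_1728 :
    Nonempty (LocalData (laurentVal ℂ) (xj N) (some (1728 : Kb)) (XN N) ModularGroup.S 2) := by
  have hfix : (ModularGroup.S : SL(2, ℤ))⁻¹ • (UpperHalfPlane.I : ℍ) = UpperHalfPlane.I := by
    rw [inv_smul_eq_iff, S_smul_I]
  refine localData_of_point UpperHalfPlane.I 1728 (by rw [jFun_I, map_ofNat]) _ hfix 2 ?_ ?_
  · have : stabMult UpperHalfPlane.I (ModularGroup.S : SL(2, ℤ))⁻¹ = -1 := by
      rw [ModularGroup.S_inv]
      simp [stabMult, ModularGroup.S]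
    rw [this]
    exact IsPrimitiveRoot.neg_one 0 (by norm_num)
  · exact order_tay_jFun_I

theorem localData_zero :
    Nonempty (LocalData (laurentVal ℂ) (xj N) (some (0 : Kb)) (XN N)
      (ModularGroup.S * ModularGroup.T) 3) := by
  have hfix : (ModularGroup.S * ModularGroup.T : SL(2, ℤ))⁻¹ • (ρ : ℍ) = ρ := by
    rw [inv_smul_eq_iff, ST_smul_rho]
  refine localData_of_point ρ 0 (by rw [jFun_rho, map_zero]) _ hfix 3 ?_ ?_
  · have h10 : ((ModularGroup.S * ModularGroup.T : SL(2, ℤ))⁻¹) 1 0 = -1 := by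
      simp [Matrix.SpecialLinearGroup.SL2_inv_expl, ModularGroup.S, ModularGroup.T,
        Matrix.mul_apply, Fin.sum_univ_two]
    have h11 : ((ModularGroup.S * ModularGroup.T : SL(2, ℤ))⁻¹) 1 1 = 0 := by
      simp [Matrix.SpecialLinearGroup.SL2_inv_expl, ModularGroup.S, ModularGroup.T,
        Matrix.mul_apply, Fin.sum_univ_two]
    have hsq := ρ_sq
    have hρ0 : (ρ : ℂ) ≠ 0 := ρ.ne_zero
    have : stabMult ρ (ModularGroup.S * ModularGroup.T : SL(2, ℤ))⁻¹ = (ρ : ℂ) := by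
      rw [stabMult, h10, h11, conj_rho]
      push_cast
      rw [div_eq_iff (by simpa using hρ0)]
      linear_combination hsq
    rw [this]
    have hne : (ρ : ℂ) ≠ 1 := by
      intro h
      have := congrArg Complex.im h
      simp only [Complex.one_im] at this
      exact ρ.im_ne_zero this
    refine isPrimitiveRoot_of_mem_nthRootsFinset Nat.prime_three ?_ hne
    rw [Polynomial.mem_nthRootsFinset (by norm_num)]
    linear_combination ((ρ : ℂ) - 1) * hsq
  · exact order_tay_jFun_rho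

end Fermat.Agent.S24Aux
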