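/-
S24 helper library: final assembly.
-/
import Fermat.Agent.S24.Global
import Fermat.Agent.S24.ModInf
import Fermat.Agent.S24.ModPoint
import Fermat.Agent.S24.ModDeg

set_option autoImplicit false

namespace Fermat.Agent.S24Aux

open UpperHalfPlane ModularForm CongruenceSubgroup ModularCurve AlgebraicCurve IntermediateField
open scoped MatrixGroups Manifold
open Fermat.Agent.DimAux
open scoped Classical

variable (N : ℕ) [NeZero N]

/-- the group element attached to a point of the `j`-line -/
noncomputable def gPt : Option Kb → SL(2, ℤ)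
  | none => ModularGroup.T
  | some a => if a = 0 then ModularGroup.S * ModularGroup.T else
      if a = 1728 then ModularGroup.S else 1

/-- the ramification index of `ℍ → j`-line (resp. the width `N`) -/
noncomputable def ePt : Option Kb → ℕ
  | none => N
  | some a => if a = 0 then 3 else if a = 1728 then 2 else 1

theorem ePt_pos (pt : Option Kb) : 0 < ePt N pt := by
  rcases pt with _ | a
  · exact Nat.pos_of_ne_zero (NeZero.ne N)
  · simp only [ePt]; split_ifs <;> norm_num

theorem localData_all (pt : Option Kb) :
    Nonempty (LocalData (laurentVal ℂ) (xj N) pt (XN N) (gPt pt) (ePt N pt)) := by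
  rcases pt with _ | a
  · exact localData_inf N
  · by_cases h0 : a = 0
    · subst h0
      simpa [gPt, ePt] using localData_zero N
    · by_cases h1 : a = 1728
      · subst h1
        simpa [gPt, ePt] using localData_1728 N
      · simpa [gPt, ePt, h0, h1] using localData_generic N a h0 h1

/-- number of orbits of an element of `SL(2,ℤ)` on the coset space -/
noncomputable abbrev orbN (g : SL(2, ℤ)) : ℕ :=
  Nat.card (MulAction.orbitRel.Quotient (Subgroup.zpowers g) (XN N))

noncomputable instance fintypeXN : Fintype (XN N) := Fintype.ofFinite _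

theorem card_XN : Fintype.card (XN N) = dedekindPsi N := by
  rw [← Nat.card_eq_fintype_card]; exact card_X N

open NumAux in
theorem two_mul_orbN_S : 2 * orbN N ModularGroup.S = dedekindPsi N + nuTwo N := by
  have hS2 : (MulAction.toPerm (ModularGroup.S : SL(2, ℤ)) : Equiv.Perm (XN N)) ^ 2 = 1 := by
    rw [toPerm_pow, pow_two, S_mul_S]
    ext x
    exact neg_one_smul_X N x
  have o2 := orb_of_pow_prime _ 2 Nat.prime_two hS2
  have c2 : Fintype.card {x : XN N //
      (MulAction.toPerm (ModularGroup.S : SL(2, ℤ)) : Equiv.Perm _) x = x} = nuTwo N := by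
    rw [← Nat.card_eq_fintype_card]; exact card_fix_S N
  rw [card_XN, c2, orb_toPerm, show (2 - 1 : ℕ) = 1 from rfl, one_mul] at o2
  exact o2

open NumAux in
theorem three_mul_orbN_ST :
    3 * orbN N (ModularGroup.S * ModularGroup.T) = dedekindPsi N + 2 * nuThree N := by
  have hST3 : (MulAction.toPerm (ModularGroup.S * ModularGroup.T : SL(2, ℤ)) :
      Equiv.Perm (XN N)) ^ 3 = 1 := by
    rw [toPerm_pow, ST_cube]
    ext x
    exact neg_one_smul_X N x
  have o3 := orb_of_pow_prime _ 3 Nat.prime_three hST3
  have c3 : Fintype.card {x : XN N //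
      (MulAction.toPerm (ModularGroup.S * ModularGroup.T : SL(2, ℤ)) : Equiv.Perm _) x = x}
      = nuThree N := by
    rw [← Nat.card_eq_fintype_card]; exact card_fix_ST N
  rw [card_XN, c3, orb_toPerm, show (3 - 1 : ℕ) = 2 from rfl] at o3
  exact o3

theorem degree_canonical (ω : Ω[FN N⁄Kb]) (hω : ω ≠ 0) (D : Divisor Kb (FN N))
    (hD : ∀ v, D v = v.ordDifferential ω) :
    (Divisor.degree D : ℚ) = 2 * genusFormula N - 2 := by
  have h1728 : (1728 : Kb) ≠ 0 := by norm_num
  have hdeg : Module.finrank Kb⟮xj N⟯ (FN N) ≤ Fintype.card (XN N) := by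
    rw [← Nat.card_eq_fintype_card]; exact finrank_xj_le N
  have key := degree_of_localData (w := laurentVal ℂ) (x := xj N) (X := XN N)
    (fun c hc => laurentVal_algebraMap c hc) hdeg gPt (ePt N) (ePt_pos N) (localData_all N)
    {none, some 0, some 1728} (by
      intro pt hpt
      rcases pt with _ | a
      · simp at hpt
      · simp only [Finset.mem_insert, Finset.mem_singleton, Option.some.injEq, reduceCtorEq,
          false_or, not_or] at hpt
        simp [gPt, hpt.1, hpt.2]) (by simp) ω hω D hD
  rw [Finset.sum_insert (by simp), Finset.sum_insert (by simp [h1728.symm]),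
    Finset.sum_singleton] at key
  have e0 : gPt (some (0 : Kb)) = ModularGroup.S * ModularGroup.T := by simp [gPt]
  have e1 : gPt (some (1728 : Kb)) = ModularGroup.S := by simp [gPt, h1728]
  have e2 : gPt (none : Option Kb) = ModularGroup.T := rfl
  rw [e0, e1, e2] at key
  have key' : Divisor.degree D = -2 * (Fintype.card (XN N) : ℤ) +
      (((Fintype.card (XN N) : ℤ) - (orbN N ModularGroup.T : ℤ)) +
        (((Fintype.card (XN N) : ℤ) - (orbN N (ModularGroup.S * ModularGroup.T) : ℤ)) +
          ((Fintype.card (XN N) : ℤ) - (orbN N ModularGroup.S : ℤ)))) := key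
  have hT : orbN N ModularGroup.T = cuspCount N := card_orbits_T N
  have h2 := two_mul_orbN_S N
  have h3 := three_mul_orbN_ST N
  rw [key', card_XN, genusFormula]
  have hT' : (orbN N ModularGroup.T : ℚ) = cuspCount N := by exact_mod_cast hT
  have h2' : 2 * (orbN N ModularGroup.S : ℚ) = dedekindPsi N + nuTwo N := by exact_mod_cast h2
  have h3' : 3 * (orbN N (ModularGroup.S * ModularGroup.T) : ℚ) = dedekindPsi N + 2 * nuThree N := by
    exact_mod_cast h3
  generalize orbN N ModularGroup.T = oT at *
  generalize orbN N ModularGroup.S = oS at *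
  generalize orbN N (ModularGroup.S * ModularGroup.T) = oST at *
  push_cast
  linear_combination (-1 : ℚ) * hT' - (1 / 2 : ℚ) * h2' - (1 / 3 : ℚ) * h3'

theorem genus_eq [AlgebraicCurve.HasCanonicalDivisor (K := Kb) (F := FN N)] :
    (AlgebraicCurve.genus Kb (FN N) : ℚ) = genusFormula N := by
  have hex : ∃ ω : Ω[FN N⁄Kb], ω ≠ 0 := by
    have htr : Algebra.trdeg Kb (FN N) = 1 :=
      trdeg_eq_one_of_finite (xj N) (transcendental_xj N)
    exact ⟨_, D_ne_zero htr (xj N) (transcendental_xj N)⟩
  have hg := finrank_cuspForm_two N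
  set n : ℕ := Module.finrank ℂ (CuspForm (Gamma0 N) 2) with hn
  rw [AlgebraicCurve.genus, dif_pos hex, ← hg]
  have h1 := degree_canonical N hex.choose hex.choose_spec
    (canonicalDivisorOf hex.choose_spec) (canonicalDivisorOf_apply hex.choose_spec)
  rw [← hg] at h1
  have h2 : Divisor.degree (canonicalDivisorOf hex.choose_spec) = 2 * (n : ℤ) - 2 := by
    exact_mod_cast h1
  rw [h2]
  have : (2 * (n : ℤ) - 2 + 2).toNat / 2 = n := by
    have : (2 * (n : ℤ) - 2 + 2) = ((2 * n : ℕ) : ℤ) := by push_cast; ring
    rw [this, Int.toNat_natCast]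
    omega
  rw [this]

end Fermat.Agent.S24Aux
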