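import Mathlib

/-!
# S24 (TA): Taylor expansion of holomorphic functions on `ℍ` in the Cayley coordinate at `z0`
-/

set_option autoImplicit false

namespace Fermat.Agent.S24Aux

open UpperHalfPlane Complex
open scoped Manifold MatrixGroups Nat ComplexConjugate Topology

/-- The inverse Cayley transform centred at `z0`: unit disc → `ℍ`, `0 ↦ z0`. -/
noncomputable def cay (z0 : ℍ) (t : ℂ) : ℂ := ((z0 : ℂ) - conj (z0 : ℂ) * t) / (1 - t)

/-- `f` read in the Cayley coordinate. -/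
noncomputable def cayFun (z0 : ℍ) (f : ℍ → ℂ) (t : ℂ) : ℂ := f (ofComplex (cay z0 t))

/-- The Taylor series of `f` at `z0` in the Cayley coordinate. -/
noncomputable def tay (z0 : ℍ) (f : ℍ → ℂ) : PowerSeries ℂ :=
  .mk fun n => iteratedDeriv n (fun t => f (ofComplex (cay z0 t))) 0 / n !

lemma one_sub_ne_zero_of_norm_lt {t : ℂ} (ht : ‖t‖ < 1) : 1 - t ≠ 0 := by
  intro h
  have : t = 1 := by linear_combination -h
  rw [this] at ht
  simp at ht

lemma cay_zero (z0 : ℍ) : cay z0 0 = z0 := by simp [cay]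

lemma cay_im (z0 : ℍ) {t : ℂ} (ht : ‖t‖ < 1) :
    (cay z0 t).im = z0.im * (1 - ‖t‖ ^ 2) / ‖1 - t‖ ^ 2 := by
  have h1 : 1 - t ≠ 0 := one_sub_ne_zero_of_norm_lt ht
  rw [cay, Complex.div_im]
  have hn : normSq (1 - t) = ‖1 - t‖ ^ 2 := Complex.normSq_eq_norm_sq _
  have hn0 : ‖1 - t‖ ^ 2 ≠ 0 := by positivity
  rw [hn]
  have ht2 : ‖t‖ ^ 2 = t.re ^ 2 + t.im ^ 2 := by
    rw [← Complex.normSq_eq_norm_sq, Complex.normSq_apply]; ring
  rw [ht2]
  field_simp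
  simp only [Complex.sub_im, Complex.sub_re, Complex.mul_im, Complex.mul_re, Complex.conj_re,
    Complex.conj_im, Complex.one_re, Complex.one_im, UpperHalfPlane.coe_im, UpperHalfPlane.coe_re]
  ring

lemma cay_im_pos (z0 : ℍ) {t : ℂ} (ht : ‖t‖ < 1) : 0 < (cay z0 t).im := by
  rw [cay_im z0 ht]
  have h1 : 1 - t ≠ 0 := one_sub_ne_zero_of_norm_lt ht
  have h2 : 0 < 1 - ‖t‖ ^ 2 := by nlinarith [norm_nonneg t]
  have h3 := z0.im_pos
  positivity

lemma differentiableAt_cay (z0 : ℍ) {t : ℂ} (ht : ‖t‖ < 1) : DifferentiableAt ℂ (cay z0) t := by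
  unfold cay
  have h1 : 1 - t ≠ 0 := one_sub_ne_zero_of_norm_lt ht
  fun_prop (disch := assumption)

lemma differentiableOn_cayFun (z0 : ℍ) {f : ℍ → ℂ} (hf : MDiff f) :
    DifferentiableOn ℂ (cayFun z0 f) (Metric.ball 0 1) := by
  intro t ht
  have ht' : ‖t‖ < 1 := by simpa using ht
  rw [UpperHalfPlane.mdifferentiable_iff] at hf
  have h1 : DifferentiableAt ℂ (f ∘ ofComplex) (cay z0 t) :=
    (hf _ (cay_im_pos z0 ht')).differentiableAt
      (isOpen_upperHalfPlaneSet.mem_nhds (cay_im_pos z0 ht'))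
  exact (h1.comp t (differentiableAt_cay z0 ht')).differentiableWithinAt

lemma analyticOnNhd_cayFun (z0 : ℍ) {f : ℍ → ℂ} (hf : MDiff f) :
    AnalyticOnNhd ℂ (cayFun z0 f) (Metric.ball 0 1) :=
  (differentiableOn_cayFun z0 hf).analyticOnNhd Metric.isOpen_ball

lemma analyticAt_cayFun (z0 : ℍ) {f : ℍ → ℂ} (hf : MDiff f) : AnalyticAt ℂ (cayFun z0 f) 0 :=
  analyticOnNhd_cayFun z0 hf 0 (by simp)

lemma coeff_tay (z0 : ℍ) (f : ℍ → ℂ) (n : ℕ) :
    (tay z0 f).coeff n = iteratedDeriv n (cayFun z0 f) 0 / n ! := by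
  rw [tay, PowerSeries.coeff_mk]; rfl

lemma cayFun_mul (z0 : ℍ) (f g : ℍ → ℂ) : cayFun z0 (f * g) = cayFun z0 f * cayFun z0 g := rfl
lemma cayFun_add (z0 : ℍ) (f g : ℍ → ℂ) : cayFun z0 (f + g) = cayFun z0 f + cayFun z0 g := rfl
lemma cayFun_sub (z0 : ℍ) (f g : ℍ → ℂ) : cayFun z0 (f - g) = cayFun z0 f - cayFun z0 g := rfl
lemma cayFun_neg (z0 : ℍ) (f : ℍ → ℂ) : cayFun z0 (-f) = -cayFun z0 f := rfl

theorem tay_mul (z0 : ℍ) {f g : ℍ → ℂ} (hf : MDiff f) (hg : MDiff g) :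
    tay z0 (f * g) = tay z0 f * tay z0 g := by
  ext n
  simp only [coeff_tay, cayFun_mul,
    iteratedDeriv_mul (analyticAt_cayFun z0 hf).contDiffAt (analyticAt_cayFun z0 hg).contDiffAt,
    PowerSeries.coeff_mul, Finset.Nat.sum_antidiagonal_eq_sum_range_succ_mk, Nat.succ_eq_add_one,
    Finset.sum_div]
  refine Finset.sum_congr rfl fun i hi ↦ ?_
  rw [Nat.cast_choose _ (by grind)]
  field_simp [Nat.factorial_ne_zero]

theorem tay_add (z0 : ℍ) {f g : ℍ → ℂ} (hf : MDiff f) (hg : MDiff g) :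
    tay z0 (f + g) = tay z0 f + tay z0 g := by
  ext n
  simp [coeff_tay, cayFun_add,
    iteratedDeriv_add (analyticAt_cayFun z0 hf).contDiffAt (analyticAt_cayFun z0 hg).contDiffAt,
    add_div]

theorem tay_sub (z0 : ℍ) {f g : ℍ → ℂ} (hf : MDiff f) (hg : MDiff g) :
    tay z0 (f - g) = tay z0 f - tay z0 g := by
  ext n
  simp [coeff_tay, cayFun_sub,
    iteratedDeriv_sub (analyticAt_cayFun z0 hf).contDiffAt (analyticAt_cayFun z0 hg).contDiffAt,
    sub_div]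

theorem tay_const (z0 : ℍ) (c : ℂ) : tay z0 (fun _ => c) = PowerSeries.C c := by
  ext n
  rw [coeff_tay, PowerSeries.coeff_C]
  have : cayFun z0 (fun _ => c) = fun _ => c := rfl
  rw [this]
  rcases n with _ | n
  · simp
  · simp [iteratedDeriv_const]

/-- the Cayley coordinate of a point of `ℍ` -/
noncomputable def cayInv (z0 z : ℍ) : ℂ := ((z : ℂ) - z0) / ((z : ℂ) - conj (z0 : ℂ))

lemma sub_conj_ne_zero (z0 z : ℍ) : (z : ℂ) - conj (z0 : ℂ) ≠ 0 := by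
  intro h
  have := congrArg Complex.im h
  simp only [Complex.sub_im, Complex.conj_im, UpperHalfPlane.coe_im, Complex.zero_im] at this
  have h1 := z.im_pos
  have h2 := z0.im_pos
  linarith

lemma norm_cayInv_lt_one (z0 z : ℍ) : ‖cayInv z0 z‖ < 1 := by
  rw [cayInv, norm_div, div_lt_one (norm_pos_iff.2 (sub_conj_ne_zero z0 z))]
  rw [← sq_lt_sq₀ (norm_nonneg _) (norm_nonneg _), ← Complex.normSq_eq_norm_sq,
    ← Complex.normSq_eq_norm_sq, Complex.normSq_apply, Complex.normSq_apply]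
  simp only [Complex.sub_im, Complex.sub_re, Complex.conj_re, Complex.conj_im,
    UpperHalfPlane.coe_im, UpperHalfPlane.coe_re]
  have h1 := z.im_pos
  have h2 := z0.im_pos
  nlinarith [mul_pos h1 h2]

lemma cay_cayInv (z0 z : ℍ) : cay z0 (cayInv z0 z) = z := by
  have h1 := sub_conj_ne_zero z0 z
  have h2 : (z0 : ℂ) - conj (z0 : ℂ) ≠ 0 := sub_conj_ne_zero z0 z0
  have h3 : 1 - cayInv z0 z ≠ 0 := one_sub_ne_zero_of_norm_lt (norm_cayInv_lt_one z0 z)
  rw [cay, div_eq_iff h3, cayInv]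
  field_simp
  ring

theorem tay_eq_zero_iff (z0 : ℍ) {f : ℍ → ℂ} (hf : MDiff f) : tay z0 f = 0 ↔ f = 0 := by
  constructor
  · intro h
    have han := analyticAt_cayFun z0 hf
    have hps := han.hasFPowerSeriesAt
    have hz : (fun n => iteratedDeriv n (cayFun z0 f) 0 / (n ! : ℂ)) = 0 := by
      funext n
      rw [← coeff_tay, h]; simp
    rw [hz, FormalMultilinearSeries.ofScalars_series_eq_zero_of_scalar_zero] at hps
    have hps0 : HasFPowerSeriesAt (cayFun z0 f) (0 : FormalMultilinearSeries ℂ ℂ ℂ) 0 := hps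
    have hev : cayFun z0 f =ᶠ[𝓝 0] 0 := hps0.eventually_eq_zero
    have hball := (analyticOnNhd_cayFun z0 hf).eqOn_zero_of_preconnected_of_eventuallyEq_zero
      (convex_ball (0 : ℂ) 1).isPreconnected (by simp) hev
    funext z
    have := hball (show cayInv z0 z ∈ Metric.ball (0 : ℂ) 1 by
      simpa using norm_cayInv_lt_one z0 z)
    simpa [cayFun, cay_cayInv] using this
  · rintro rfl
    have : (0 : ℍ → ℂ) = fun _ => (0 : ℂ) := rfl
    rw [this, tay_const]; simp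

lemma iteratedDeriv_comp_mul_left' (F : ℂ → ℂ) (ζ : ℂ) (n : ℕ) :
    iteratedDeriv n (fun s => F (ζ * s)) = fun t => ζ ^ n * iteratedDeriv n F (ζ * t) := by
  induction n with
  | zero => funext t; simp
  | succ n ih =>
    funext t
    rw [iteratedDeriv_succ, ih, deriv_const_mul_field,
      deriv_comp_mul_left ζ (iteratedDeriv n F) t, iteratedDeriv_succ, smul_eq_mul]
    ring

/-- The multiplier of the stabiliser of `z0` in the Cayley coordinate. -/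
noncomputable def stabMult (z0 : ℍ) (γ : SL(2, ℤ)) : ℂ :=
  ((γ 1 0 : ℂ) * conj (z0 : ℂ) + (γ 1 1 : ℂ)) / ((γ 1 0 : ℂ) * (z0 : ℂ) + (γ 1 1 : ℂ))

lemma denom_ne_zero' (z0 : ℍ) (γ : SL(2, ℤ)) : (γ 1 0 : ℂ) * (z0 : ℂ) + (γ 1 1 : ℂ) ≠ 0 := by
  have := UpperHalfPlane.denom_ne_zero (γ : GL (Fin 2) ℝ) z0
  simpa [UpperHalfPlane.denom] using this

lemma norm_stabMult (z0 : ℍ) (γ : SL(2, ℤ)) : ‖stabMult z0 γ‖ = 1 := by
  have h : (γ 1 0 : ℂ) * conj (z0 : ℂ) + (γ 1 1 : ℂ)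
      = conj ((γ 1 0 : ℂ) * (z0 : ℂ) + (γ 1 1 : ℂ)) := by
    simp
  rw [stabMult, h, norm_div, Complex.norm_conj, div_self]
  exact norm_ne_zero_iff.2 (denom_ne_zero' z0 γ)

lemma smul_cay (z0 : ℍ) (γ : SL(2, ℤ)) (hγ : γ • z0 = z0) {t : ℂ} (ht : ‖t‖ < 1) :
    γ • ofComplex (cay z0 t) = ofComplex (cay z0 (stabMult z0 γ * t)) := by
  have ht' : ‖stabMult z0 γ * t‖ < 1 := by rw [norm_mul, norm_stabMult, one_mul]; exact ht
  apply UpperHalfPlane.ext
  rw [UpperHalfPlane.coe_specialLinearGroup_apply, ofComplex_apply_of_im_pos (cay_im_pos z0 ht),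
    ofComplex_apply_of_im_pos (cay_im_pos z0 ht')]
  simp only [algebraMap_int_eq, Int.coe_castRingHom, Complex.ofReal_intCast]
  have hfix : ((γ 0 0 : ℂ) * (z0 : ℂ) + (γ 0 1 : ℂ))
      = (z0 : ℂ) * ((γ 1 0 : ℂ) * (z0 : ℂ) + (γ 1 1 : ℂ)) := by
    have := congrArg (fun w : ℍ => (w : ℂ)) hγ
    simp only [UpperHalfPlane.coe_specialLinearGroup_apply, algebraMap_int_eq,
      Int.coe_castRingHom, Complex.ofReal_intCast] at this
    rw [div_eq_iff (denom_ne_zero' z0 γ)] at this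
    exact this
  have hfix' : ((γ 0 0 : ℂ) * conj (z0 : ℂ) + (γ 0 1 : ℂ))
      = conj (z0 : ℂ) * ((γ 1 0 : ℂ) * conj (z0 : ℂ) + (γ 1 1 : ℂ)) := by
    have := congrArg conj hfix
    simpa using this
  have h1 : 1 - t ≠ 0 := one_sub_ne_zero_of_norm_lt ht
  have h2 : 1 - stabMult z0 γ * t ≠ 0 := one_sub_ne_zero_of_norm_lt ht'
  have h3 := denom_ne_zero' z0 γ
  have h4 : (γ 1 0 : ℂ) * cay z0 t + (γ 1 1 : ℂ) ≠ 0 := by
    have := denom_ne_zero' (⟨cay z0 t, cay_im_pos z0 ht⟩ : ℍ) γ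
    simpa using this
  rw [div_eq_iff h4]
  have e1 : cay z0 t * (1 - t) = (z0 : ℂ) - conj (z0 : ℂ) * t := by
    rw [cay, div_mul_cancel₀ _ h1]
  have e2 : cay z0 (stabMult z0 γ * t) * (1 - stabMult z0 γ * t)
      = (z0 : ℂ) - conj (z0 : ℂ) * (stabMult z0 γ * t) := by
    rw [cay, div_mul_cancel₀ _ h2]
  have e3 : stabMult z0 γ * ((γ 1 0 : ℂ) * (z0 : ℂ) + (γ 1 1 : ℂ))
      = (γ 1 0 : ℂ) * conj (z0 : ℂ) + (γ 1 1 : ℂ) := by
    rw [stabMult, div_mul_cancel₀ _ h3]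
  apply mul_right_cancel₀ h1
  linear_combination ((γ 0 0 : ℂ) - cay z0 (stabMult z0 γ * t) * (γ 1 0 : ℂ)) * e1 + hfix
    - t * hfix' - ((γ 1 0 : ℂ) * (z0 : ℂ) + (γ 1 1 : ℂ)) * e2
    + (conj (z0 : ℂ) * t - cay z0 (stabMult z0 γ * t) * t) * e3

theorem tay_comp_smul (z0 : ℍ) (γ : SL(2, ℤ)) (hγ : γ • z0 = z0) (f : ℍ → ℂ) :
    tay z0 (fun z => f (γ • z)) = PowerSeries.rescale (stabMult z0 γ) (tay z0 f) := by
  ext n
  rw [PowerSeries.coeff_rescale, coeff_tay, coeff_tay]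
  have hev : cayFun z0 (fun z => f (γ • z)) =ᶠ[𝓝 0] fun t => cayFun z0 f (stabMult z0 γ * t) := by
    refine Filter.eventuallyEq_of_mem (Metric.ball_mem_nhds (0 : ℂ) one_pos) fun t ht => ?_
    have ht' : ‖t‖ < 1 := by simpa using ht
    simp only [cayFun, smul_cay z0 γ hγ ht']
  rw [hev.iteratedDeriv_eq, iteratedDeriv_comp_mul_left']
  simp only [mul_zero]
  ring

/-! ### low order coefficients and orders -/

lemma coeff_zero_tay (z0 : ℍ) (f : ℍ → ℂ) : (tay z0 f).coeff 0 = f z0 := by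
  rw [coeff_tay]
  simp [cayFun, cay_zero]

lemma constantCoeff_tay (z0 : ℍ) (f : ℍ → ℂ) : (tay z0 f).constantCoeff = f z0 := by
  rw [← PowerSeries.coeff_zero_eq_constantCoeff_apply, coeff_zero_tay]

lemma hasDerivAt_cay_zero (z0 : ℍ) : HasDerivAt (cay z0) ((z0 : ℂ) - conj (z0 : ℂ)) 0 := by
  have h1 : HasDerivAt (fun t : ℂ => (z0 : ℂ) - conj (z0 : ℂ) * t) (-(conj (z0 : ℂ))) 0 := by
    simpa using ((hasDerivAt_id (0 : ℂ)).const_mul (conj (z0 : ℂ))).const_sub (z0 : ℂ)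
  have h2 : HasDerivAt (fun t : ℂ => 1 - t) (-1) 0 := by
    simpa using (hasDerivAt_id (0 : ℂ)).const_sub (1 : ℂ)
  have h3 := h1.div h2 (by simp)
  have e : ((z0 : ℂ) - conj (z0 : ℂ)) = ((-(conj (z0 : ℂ)) * (1 - 0)
      - ((z0 : ℂ) - conj (z0 : ℂ) * 0) * -1) / (1 - 0) ^ 2) := by ring
  rw [e]
  exact h3

lemma coeff_one_tay (z0 : ℍ) {f : ℍ → ℂ} (hf : MDiff f) :
    (tay z0 f).coeff 1 = deriv (f ∘ ofComplex) z0 * ((z0 : ℂ) - conj (z0 : ℂ)) := by
  rw [coeff_tay, iteratedDeriv_one]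
  rw [UpperHalfPlane.mdifferentiable_iff] at hf
  have h1 : DifferentiableAt ℂ (f ∘ ofComplex) (cay z0 0) := by
    rw [cay_zero]
    exact (hf _ z0.im_pos).differentiableAt (isOpen_upperHalfPlaneSet.mem_nhds z0.im_pos)
  have h2 : HasDerivAt (cayFun z0 f)
      (deriv (f ∘ ofComplex) (cay z0 0) * ((z0 : ℂ) - conj (z0 : ℂ))) 0 :=
    h1.hasDerivAt.comp 0 (hasDerivAt_cay_zero z0)
  rw [h2.deriv, cay_zero]
  simp

lemma order_tay_eq_zero_iff (z0 : ℍ) (f : ℍ → ℂ) : (tay z0 f).order = 0 ↔ f z0 ≠ 0 := by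
  have := @PowerSeries.order_eq_nat _ _ (tay z0 f) 0
  rw [Nat.cast_zero] at this
  rw [this, coeff_zero_tay]
  simp

lemma order_tay_eq_one_iff (z0 : ℍ) {f : ℍ → ℂ} (hf : MDiff f) :
    (tay z0 f).order = 1 ↔ f z0 = 0 ∧ deriv (f ∘ ofComplex) z0 ≠ 0 := by
  have hne : (z0 : ℂ) - conj (z0 : ℂ) ≠ 0 := sub_conj_ne_zero z0 z0
  have := @PowerSeries.order_eq_nat _ _ (tay z0 f) 1
  rw [Nat.cast_one] at this
  rw [this, coeff_one_tay z0 hf]
  constructor
  · rintro ⟨h1, h0⟩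
    have h0' := h0 0 one_pos
    rw [coeff_zero_tay] at h0'
    exact ⟨h0', left_ne_zero_of_mul h1⟩
  · rintro ⟨h0, h1⟩
    refine ⟨mul_ne_zero h1 hne, ?_⟩
    intro i hi
    obtain rfl : i = 0 := by omega
    rw [coeff_zero_tay, h0]

/-! ### the elliptic points -/

lemma S_smul_I : (ModularGroup.S : SL(2, ℤ)) • (UpperHalfPlane.I : ℍ) = UpperHalfPlane.I :=
  ModularGroup.stabilizer_I.mpr (by simp)

lemma ST_smul_rho : (ModularGroup.S * ModularGroup.T : SL(2, ℤ)) • (ρ : ℍ) = ρ :=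
  ModularGroup.stabilizer_ρ.mpr (by simp)

lemma stabMult_I_S : stabMult UpperHalfPlane.I ModularGroup.S = -1 := by
  simp [stabMult, ModularGroup.S]

lemma conj_rho : conj (ρ : ℂ) = -(ρ : ℂ) - 1 := by
  apply Complex.ext
  · simp [ρ]; ring
  · simp [ρ]

lemma stabMult_rho_ST : stabMult ρ (ModularGroup.S * ModularGroup.T) = conj (ρ : ℂ) := by
  have h10 : (ModularGroup.S * ModularGroup.T : SL(2, ℤ)) 1 0 = 1 := by
    simp [ModularGroup.S, ModularGroup.T, Matrix.mul_apply, Fin.sum_univ_two]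
  have h11 : (ModularGroup.S * ModularGroup.T : SL(2, ℤ)) 1 1 = 1 := by
    simp [ModularGroup.S, ModularGroup.T, Matrix.mul_apply, Fin.sum_univ_two]
  have hd := denom_ne_zero' ρ (ModularGroup.S * ModularGroup.T)
  rw [stabMult, div_eq_iff hd, h10, h11, conj_rho]
  have := ρ_sq
  push_cast
  linear_combination this

lemma isPrimitiveRoot_stabMult_rho :
    IsPrimitiveRoot (stabMult ρ (ModularGroup.S * ModularGroup.T)) 3 := by
  rw [stabMult_rho_ST, conj_rho]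
  have hsq := ρ_sq
  have hne : (-(ρ : ℂ) - 1) ≠ 1 := by
    intro h
    have := congrArg Complex.im h
    simp only [Complex.sub_im, Complex.neg_im, Complex.one_im, sub_zero, neg_eq_zero] at this
    exact ρ.im_ne_zero this
  refine isPrimitiveRoot_of_mem_nthRootsFinset Nat.prime_three ?_ hne
  rw [Polynomial.mem_nthRootsFinset (by norm_num)]
  linear_combination (-(ρ : ℂ) - 2) * hsq

end Fermat.Agent.S24Aux
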