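/-
S24 helper library: an abstract degree bound for a finitely generated field over `K(j)`.
-/
import Mathlib

set_option autoImplicit false

namespace Fermat.Agent.S24Aux

open IntermediateField Polynomial

open scoped IntermediateField.algebraAdjoinAdjoin

section

variable {K E : Type*} [Field K] [Field E] [Algebra K E]

/-- step 1: elements of the subalgebra satisfy a polynomial of degree `≤ μ` over `K(j)`. -/
lemma degAbs_step1 (S : Set E) (jF : adjoin K S) (htr : Transcendental K jF) (μ : ℕ)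
    (hrel : ∀ y ∈ Algebra.adjoin K S, ∃ Q : Polynomial (Polynomial K), Q ≠ 0 ∧ Q.natDegree ≤ μ ∧
      (Q.map (Polynomial.aeval (jF : E)).toRingHom).eval y = 0)
    (y : adjoin K S) (hy : (y : E) ∈ Algebra.adjoin K S) :
    ∃ p : Polynomial K⟮jF⟯, p ≠ 0 ∧ p.natDegree ≤ μ ∧ Polynomial.aeval y p = 0 := by
  obtain ⟨Q, hQ0, hQd, hQ⟩ := hrel y hy
  let φ : Polynomial K →+* K⟮jF⟯ := (Polynomial.aeval (AdjoinSimple.gen K jF)).toRingHom
  have hφ : Function.Injective φ := by
    have h1 : Transcendental K (AdjoinSimple.gen K jF) := by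
      intro h
      apply htr
      have := h.algebraMap (A := adjoin K S)
      rwa [AdjoinSimple.algebraMap_gen] at this
    exact transcendental_iff_injective.mp h1
  refine ⟨Q.map φ, (Polynomial.map_ne_zero_iff hφ).mpr hQ0,
    (Polynomial.natDegree_map_le).trans hQd, ?_⟩
  apply Subtype.val_injective
  have h2 : ((Polynomial.aeval y (Q.map φ) : adjoin K S) : E) =
      (Q.map (Polynomial.aeval (jF : E)).toRingHom).eval (y : E) := by
    rw [Polynomial.aeval_def, Polynomial.eval₂_map, Polynomial.eval_map]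
    have h3 := Polynomial.hom_eval₂ Q ((algebraMap K⟮jF⟯ (adjoin K S)).comp φ)
      (adjoin K S).val.toRingHom y
    have h4 : (adjoin K S).val.toRingHom.comp ((algebraMap K⟮jF⟯ (adjoin K S)).comp φ) =
        (Polynomial.aeval (jF : E)).toRingHom := by
      apply Polynomial.ringHom_ext
      · intro a
        simp [φ]
      · simp [φ]
    rw [h4] at h3
    exact h3
  rw [h2, hQ]
  rfl

/-- step 2: nonzero elements of the subalgebra divide a nonzero polynomial in `j`. -/
lemma degAbs_step2 (S : Set E) (jA : Algebra.adjoin K S) (μ : ℕ)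
    (hrel : ∀ y ∈ Algebra.adjoin K S, ∃ Q : Polynomial (Polynomial K), Q ≠ 0 ∧ Q.natDegree ≤ μ ∧
      (Q.map (Polynomial.aeval (jA : E)).toRingHom).eval y = 0)
    (b : Algebra.adjoin K S) (hb : b ≠ 0) :
    ∃ c : Polynomial K, c ≠ 0 ∧ ∃ b' : Algebra.adjoin K S, b * b' = Polynomial.aeval jA c := by
  obtain ⟨Q, hQ0, -, hQ⟩ := hrel b b.2
  let ψ : Polynomial K →+* Algebra.adjoin K S := (Polynomial.aeval jA).toRingHom
  have h1 : Polynomial.eval₂ ψ b Q = 0 := by
    apply Subtype.val_injective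
    have h3 := Polynomial.hom_eval₂ Q ψ (Algebra.adjoin K S).val.toRingHom b
    have h4 : (Algebra.adjoin K S).val.toRingHom.comp ψ =
        (Polynomial.aeval (jA : E)).toRingHom := by
      apply Polynomial.ringHom_ext
      · intro a
        simp [ψ]
      · simp [ψ]
    rw [h4] at h3
    have h5 : ((Polynomial.eval₂ ψ b Q : Algebra.adjoin K S) : E) =
      (Q.map (Polynomial.aeval (jA : E)).toRingHom).eval (b : E) := by
      rw [Polynomial.eval_map]; exact h3
    rw [h5, hQ]
    rfl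
  obtain ⟨Q', hQQ', hX⟩ := Polynomial.exists_eq_pow_rootMultiplicity_mul_and_not_dvd Q hQ0 0
  rw [map_zero, sub_zero] at hQQ' hX
  rw [Polynomial.X_dvd_iff] at hX
  rw [hQQ', Polynomial.eval₂_mul, Polynomial.eval₂_pow, Polynomial.eval₂_X] at h1
  have h2 : Polynomial.eval₂ ψ b Q' = 0 := (mul_eq_zero.mp h1).resolve_left (pow_ne_zero _ hb)
  rw [← Polynomial.divX_mul_X_add Q', Polynomial.eval₂_add, Polynomial.eval₂_mul,
    Polynomial.eval₂_X, Polynomial.eval₂_C] at h2
  refine ⟨Q'.coeff 0, hX, -Polynomial.eval₂ ψ b Q'.divX, ?_⟩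
  have h6 : ψ (Q'.coeff 0) = Polynomial.aeval jA (Q'.coeff 0) := rfl
  rw [← h6]
  linear_combination -h2

/-- the abstract degree bound -/
theorem degAbs [CharZero K] (S : Set E) (hS : S.Finite) (F : IntermediateField K E)
    (hF : F = adjoin K S) (jF : F) (hjS : (jF : E) ∈ S) (htr : Transcendental K jF) (μ : ℕ)
    (hrel : ∀ y ∈ Algebra.adjoin K S, ∃ Q : Polynomial (Polynomial K), Q ≠ 0 ∧ Q.natDegree ≤ μ ∧
      (Q.map (Polynomial.aeval (jF : E)).toRingHom).eval y = 0) :
    FiniteDimensional K⟮jF⟯ F ∧ Module.finrank K⟮jF⟯ F ≤ μ := by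
  subst hF
  have hint : ∀ y : adjoin K S, (y : E) ∈ Algebra.adjoin K S →
      IsIntegral K⟮jF⟯ y ∧ (minpoly K⟮jF⟯ y).natDegree ≤ μ := by
    intro y hy
    obtain ⟨p, hp0, hpd, hp⟩ := degAbs_step1 S jF htr μ hrel y hy
    have hi : IsIntegral K⟮jF⟯ y := isAlgebraic_iff_isIntegral.mp ⟨p, hp0, hp⟩
    exact ⟨hi, (Polynomial.natDegree_le_of_dvd (minpoly.dvd _ _ hp) hp0).trans hpd⟩
  let S' : Set (adjoin K S) := {x | (x : E) ∈ S}
  have hS' : S'.Finite := hS.preimage Subtype.val_injective.injOn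
  have hA : ∀ a ∈ Algebra.adjoin K S, ∀ h : a ∈ adjoin K S,
      (⟨a, h⟩ : adjoin K S) ∈ adjoin K⟮jF⟯ S' := by
    intro a ha
    induction ha using Algebra.adjoin_induction with
    | mem x hx => intro h; exact subset_adjoin _ _ hx
    | algebraMap c =>
      intro h
      exact (adjoin K⟮jF⟯ S').algebraMap_mem (algebraMap K K⟮jF⟯ c)
    | add x y hx hy ihx ihy =>
      intro h
      exact add_mem (ihx (algebra_adjoin_le_adjoin _ _ hx)) (ihy (algebra_adjoin_le_adjoin _ _ hy))
    | mul x y hx hy ihx ihy =>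
      intro h
      exact mul_mem (ihx (algebra_adjoin_le_adjoin _ _ hx)) (ihy (algebra_adjoin_le_adjoin _ _ hy))
  have htop : adjoin K⟮jF⟯ S' = ⊤ := by
    rw [eq_top_iff]
    intro x _
    obtain ⟨a, b, -, rfl⟩ := IsFractionRing.div_surjective (Algebra.adjoin K S) x
    exact div_mem (hA a a.2 _) (hA b b.2 _)
  have hfd : FiniteDimensional K⟮jF⟯ (adjoin K S) := by
    have : Finite S' := hS'
    have := finiteDimensional_adjoin (K := K⟮jF⟯) (S := S')
      (fun x hx => (hint x (Algebra.subset_adjoin hx)).1)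
    rw [htop] at this
    exact (topEquiv (F := K⟮jF⟯) (E := adjoin K S)).toLinearEquiv.finiteDimensional
  refine ⟨hfd, ?_⟩
  obtain ⟨α, hα⟩ := Field.exists_primitive_element K⟮jF⟯ (adjoin K S)
  obtain ⟨a, b, hb, rfl⟩ := IsFractionRing.div_surjective (Algebra.adjoin K S) α
  let jA : Algebra.adjoin K S := ⟨(jF : E), Algebra.subset_adjoin hjS⟩
  obtain ⟨c, hc0, b', hbb'⟩ := degAbs_step2 S jA μ hrel b (nonZeroDivisors.ne_zero hb)
  set β : adjoin K S := algebraMap (Algebra.adjoin K S) (adjoin K S) (a * b') with hβ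
  let cK : K⟮jF⟯ := Polynomial.aeval (AdjoinSimple.gen K jF) c
  have hcK : algebraMap K⟮jF⟯ (adjoin K S) cK =
      algebraMap (Algebra.adjoin K S) (adjoin K S) (Polynomial.aeval jA c) := by
    have h1 : algebraMap K⟮jF⟯ (adjoin K S) cK = Polynomial.aeval jF c := by
      simp only [cK]
      rw [← Polynomial.aeval_algebraMap_apply, AdjoinSimple.algebraMap_gen]
    have h2 : algebraMap (Algebra.adjoin K S) (adjoin K S) (Polynomial.aeval jA c) =
        Polynomial.aeval jF c := by
      rw [← Polynomial.aeval_algebraMap_apply]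
      rfl
    rw [h1, h2]
  have hb0 : algebraMap (Algebra.adjoin K S) (adjoin K S) b ≠ 0 := by
    intro h
    exact nonZeroDivisors.ne_zero hb
      ((IsFractionRing.injective (Algebra.adjoin K S) (adjoin K S)) (by rw [h, map_zero]))
  have hc1 : algebraMap K⟮jF⟯ (adjoin K S) cK ≠ 0 := by
    intro h
    apply hc0
    have h1 : algebraMap K⟮jF⟯ (adjoin K S) cK = Polynomial.aeval jF c := by
      simp only [cK]
      rw [← Polynomial.aeval_algebraMap_apply, AdjoinSimple.algebraMap_gen]
    rw [h1] at h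
    exact (transcendental_iff.mp htr) c h
  have hαβ : algebraMap (Algebra.adjoin K S) (adjoin K S) a /
      algebraMap (Algebra.adjoin K S) (adjoin K S) b =
      (algebraMap K⟮jF⟯ (adjoin K S) cK)⁻¹ * β := by
    rw [hcK, ← hbb', hβ, map_mul, map_mul]
    have hb'0 : algebraMap (Algebra.adjoin K S) (adjoin K S) b' ≠ 0 := by
      intro h
      apply hc1
      rw [hcK, ← hbb', map_mul, h, mul_zero]
    field_simp
  have hle : K⟮jF⟯⟮algebraMap (Algebra.adjoin K S) (adjoin K S) a /
      algebraMap (Algebra.adjoin K S) (adjoin K S) b⟯ ≤ K⟮jF⟯⟮β⟯ := by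
    rw [adjoin_simple_le_iff, hαβ]
    exact mul_mem (inv_mem (IntermediateField.algebraMap_mem _ _)) (mem_adjoin_simple_self _ _)
  rw [hα, top_le_iff] at hle
  have hβA : (β : E) ∈ Algebra.adjoin K S := (a * b').2
  obtain ⟨hi, hd⟩ := hint β hβA
  rw [← finrank_top', ← hle, adjoin.finrank hi]
  exact hd

end

end Fermat.Agent.S24Aux
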